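/-
S31 rider, row E4 (helper42): **the Prelude Hecke algebra acts faithfully on the lattice
`L = Hom_par(Γ₀(N), ℤ)` of integral parabolic homomorphisms.**

`L := parabolicHoms ℤ (Gamma0 N) ℤ`, `T'_ℓ := heckeHom N ℓ ℤ` (S16; `T_ℓ` for `ℓ ∤ N`, `U_ℓ` for
`ℓ ∣ N`), `T_ℓ := es60_T N ℓ` on `S₂(Γ₀(N))`.

* `hl42_TL N ℓ`        : `T'_ℓ` restricted to `L`, a `ℤ`-linear endomorphism (`hl42_TL_coe : rfl`).
* `hl42_span`          : every `ℂ`-valued parabolic homomorphism is a finite `ℂ`-combination of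
                         integral parabolic homomorphisms.
* `hl42_evL N e`, `hl42_evC N e`, `hl42_evS N e` : evaluation of a word `w : FreeAlgebra ℤ ι`
                         (a non-commutative polynomial in letters `i : ι`, `e : ι → ℕ`) at the
                         operators `T'_{e i}` on `L`, on `Hom(Γ₀(N), ℂ)`, and `T_{e i}` on
                         `S₂(Γ₀(N))`; `hl42_evL_ι`, `hl42_evS_ι` give the values on letters.
* `hl42_transfer`      : `hl42_evL N e w = 0 ↔ hl42_evS N e w = 0`: a word in the Hecke operators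
                         vanishes on `L` iff it vanishes on `S₂(Γ₀(N))`.
* `hl42_exists_act`    : an injective ring homomorphism
                         `act : heckeAlgebra N 2 S →+* Module.End ℤ L` with
                         `act (heckeAlgebra.T ..) = hl42_TL N ℓ`, `act (heckeAlgebra.U ..) = hl42_TL N q`,
                         for an arbitrary set `S`.
* `hl42_act`, `hl42_act_injective`, `hl42_act_T`, `hl42_act_U`, `hl42_act_apply_coe` : the same,
                         unbundled.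

Inputs (all on main): `es60_heckeHom_periodHomPair` (the Eichler–Shimura pair is Hecke
equivariant), `Fermat.Agent.S21.result` (it is injective with range the parabolic
homomorphisms), `el2_exists_symbol` + `slp10_decomp` (integral structure of the modular symbols),
`hpg88_isParabolicHom_prime` (Hecke operators preserve parabolic homomorphisms).
-/
import Mathlib
import Fermat.Agent.S41.ESTransfer60
import Fermat.Agent.S41.EigenSymb2
import Fermat.Agent.S41.SymbLatticeP10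
import Fermat.Agent.S42.HeckePar88

set_option autoImplicit false

open CongruenceSubgroup ModularCurve ModularCurve.Period
open scoped MatrixGroups

namespace Fermat.Agent.S31

open Fermat.Agent.S16 Fermat.Agent.S41 Fermat.Agent.S42

section Lattice

variable (N : ℕ)

/-- `heckeHom N ℓ A` preserves parabolic homomorphisms, for every `ℓ` (it is `0` if `ℓ` is not
prime). -/
theorem hl42_par {A : Type*} [AddCommGroup A] (ℓ : ℕ) (χ : Additive (Gamma0 N) →+ A)
    (hχ : IsParabolicHom (Gamma0 N) χ) : IsParabolicHom (Gamma0 N) (heckeHom N ℓ A χ) := by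
  by_cases hℓ : ℓ.Prime
  · exact hpg88_isParabolicHom_prime hℓ χ hχ
  · have h0 : heckeHom N ℓ A = 0 := by rw [heckeHom, dif_neg hℓ]
    rw [h0]
    intro γ _
    rfl

/-- The Hecke operator at `ℓ` on the lattice `Hom_par(Γ₀(N), ℤ)`. -/
noncomputable def hl42_TL (ℓ : ℕ) : Module.End ℤ (parabolicHoms ℤ (Gamma0 N) ℤ) where
  toFun χ := ⟨heckeHom N ℓ ℤ χ.1, hl42_par N ℓ χ.1 χ.2⟩
  map_add' x y := Subtype.ext (map_add (heckeHom N ℓ ℤ) x.1 y.1)
  map_smul' r x := Subtype.ext (map_zsmul (heckeHom N ℓ ℤ) r x.1)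

theorem hl42_TL_coe (ℓ : ℕ) (χ : parabolicHoms ℤ (Gamma0 N) ℤ) :
    ((hl42_TL N ℓ χ : parabolicHoms ℤ (Gamma0 N) ℤ) : Additive (Gamma0 N) →+ ℤ)
      = heckeHom N ℓ ℤ χ := rfl

/-- The Hecke operator at `ℓ` on `Hom(Γ₀(N), ℂ)`, as a `ℤ`-linear endomorphism. -/
noncomputable def hl42_TC (ℓ : ℕ) : Module.End ℤ (Additive (Gamma0 N) →+ ℂ) :=
  (heckeHom N ℓ ℂ).toIntLinearMap

theorem hl42_TC_apply (ℓ : ℕ) (v : Additive (Gamma0 N) →+ ℂ) :
    hl42_TC N ℓ v = heckeHom N ℓ ℂ v := rfl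

/-- The inclusion of the lattice into the `ℂ`-valued homomorphisms. -/
noncomputable def hl42_iota :
    parabolicHoms ℤ (Gamma0 N) ℤ →ₗ[ℤ] (Additive (Gamma0 N) →+ ℂ) where
  toFun χ := (Int.castAddHom ℂ).comp (χ : Additive (Gamma0 N) →+ ℤ)
  map_add' x y := AddMonoidHom.ext fun γ => by
    show ((((x + y : parabolicHoms ℤ (Gamma0 N) ℤ) : Additive (Gamma0 N) →+ ℤ) γ : ℤ) : ℂ)
      = (((x : Additive (Gamma0 N) →+ ℤ) γ : ℤ) : ℂ) + (((y : Additive (Gamma0 N) →+ ℤ) γ : ℤ) : ℂ)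
    rw [Submodule.coe_add, AddMonoidHom.add_apply, Int.cast_add]
  map_smul' r x := AddMonoidHom.ext fun γ => by
    show ((((r • x : parabolicHoms ℤ (Gamma0 N) ℤ) : Additive (Gamma0 N) →+ ℤ) γ : ℤ) : ℂ)
      = r • (((x : Additive (Gamma0 N) →+ ℤ) γ : ℤ) : ℂ)
    rw [Submodule.coe_smul, AddMonoidHom.smul_apply, smul_eq_mul, Int.cast_mul, zsmul_eq_mul]

theorem hl42_iota_apply (χ : parabolicHoms ℤ (Gamma0 N) ℤ) (γ : Additive (Gamma0 N)) :
    hl42_iota N χ γ = (((χ : Additive (Gamma0 N) →+ ℤ) γ : ℤ) : ℂ) := rfl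

theorem hl42_iota_injective : Function.Injective (hl42_iota N) := by
  intro x y h
  apply Subtype.ext
  apply AddMonoidHom.ext
  intro γ
  have h1 := congrArg (fun v : Additive (Gamma0 N) →+ ℂ => v γ) h
  simp only [hl42_iota_apply] at h1
  exact_mod_cast h1

theorem hl42_iota_parabolic (χ : parabolicHoms ℤ (Gamma0 N) ℤ) :
    hl42_iota N χ ∈ parabolicHoms ℂ (Gamma0 N) ℂ := by
  intro γ hγ
  show (((χ : Additive (Gamma0 N) →+ ℤ) (Additive.ofMul γ) : ℤ) : ℂ) = 0
  rw [χ.2 γ hγ, Int.cast_zero]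

/-- `heckeHom` commutes with complex scalars. -/
theorem hl42_hecke_smul (ℓ : ℕ) (z : ℂ) (v : Additive (Gamma0 N) →+ ℂ) :
    heckeHom N ℓ ℂ (z • v) = z • heckeHom N ℓ ℂ v := by
  have h1 : ∀ v' : Additive (Gamma0 N) →+ ℂ, z • v' = (AddMonoidHom.mulLeft z).comp v' :=
    fun v' => AddMonoidHom.ext fun _ => rfl
  rw [h1, h1, heckeHom_comp]

/-- `heckeHom` commutes with the inclusion of the lattice. -/
theorem hl42_TC_iota (ℓ : ℕ) (χ : parabolicHoms ℤ (Gamma0 N) ℤ) :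
    hl42_TC N ℓ (hl42_iota N χ) = hl42_iota N (hl42_TL N ℓ χ) :=
  heckeHom_comp N ℓ (Int.castAddHom ℂ) (χ : Additive (Gamma0 N) →+ ℤ)

end Lattice

/-! ### Words in the Hecke operators -/

section Generic

variable {R M A : Type*} [Semiring R] [AddCommMonoid M] [Module R M] [Semiring A] [Algebra ℤ A]
  [Algebra ℤ (Module.End R M)]

theorem hl42_end_add (φ : A →ₐ[ℤ] Module.End R M) (a b : A) (m : M) :
    φ (a + b) m = φ a m + φ b m := by
  rw [map_add]
  rfl

theorem hl42_end_mul (φ : A →ₐ[ℤ] Module.End R M) (a b : A) (m : M) :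
    φ (a * b) m = φ a (φ b m) := by
  rw [map_mul]
  rfl

end Generic

section Words

variable (N : ℕ) {ι : Type*} (e : ι → ℕ)

/-- Evaluation of a word at the Hecke operators on the lattice `Hom_par(Γ₀(N), ℤ)`. -/
noncomputable def hl42_evL :
    FreeAlgebra ℤ ι →ₐ[ℤ] Module.End ℤ (parabolicHoms ℤ (Gamma0 N) ℤ) :=
  FreeAlgebra.lift ℤ (fun i => hl42_TL N (e i))

/-- Evaluation of a word at the Hecke operators on `Hom(Γ₀(N), ℂ)`. -/
noncomputable def hl42_evC :
    FreeAlgebra ℤ ι →ₐ[ℤ] Module.End ℤ (Additive (Gamma0 N) →+ ℂ) :=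
  FreeAlgebra.lift ℤ (fun i => hl42_TC N (e i))

/-- Evaluation of a word at the Hecke operators on `S₂(Γ₀(N))`. -/
noncomputable def hl42_evS [NeZero N] :
    FreeAlgebra ℤ ι →ₐ[ℤ] Module.End ℂ (CuspForm (Gamma0 N) 2) :=
  FreeAlgebra.lift ℤ (fun i => es60_T N (e i))

theorem hl42_evL_ι (i : ι) : hl42_evL N e (FreeAlgebra.ι ℤ i) = hl42_TL N (e i) :=
  FreeAlgebra.lift_ι_apply _ _

theorem hl42_evC_ι (i : ι) : hl42_evC N e (FreeAlgebra.ι ℤ i) = hl42_TC N (e i) :=
  FreeAlgebra.lift_ι_apply _ _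

theorem hl42_evS_ι [NeZero N] (i : ι) : hl42_evS N e (FreeAlgebra.ι ℤ i) = es60_T N (e i) :=
  FreeAlgebra.lift_ι_apply _ _

theorem hl42_evL_algebraMap (r : ℤ) (χ : parabolicHoms ℤ (Gamma0 N) ℤ) :
    hl42_evL N e (algebraMap ℤ (FreeAlgebra ℤ ι) r) χ = r • χ := by
  rw [AlgHom.commutes, Module.algebraMap_end_apply]

theorem hl42_evC_algebraMap (r : ℤ) (v : Additive (Gamma0 N) →+ ℂ) :
    hl42_evC N e (algebraMap ℤ (FreeAlgebra ℤ ι) r) v = r • v := by
  rw [AlgHom.commutes, Module.algebraMap_end_apply]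

theorem hl42_evS_algebraMap [NeZero N] (r : ℤ) (f : CuspForm (Gamma0 N) 2) :
    hl42_evS N e (algebraMap ℤ (FreeAlgebra ℤ ι) r) f = r • f := by
  rw [AlgHom.commutes, Module.algebraMap_end_apply]

/-- A word in the Hecke operators commutes with the inclusion of the lattice. -/
theorem hl42_word_iota (w : FreeAlgebra ℤ ι) (χ : parabolicHoms ℤ (Gamma0 N) ℤ) :
    hl42_evC N e w (hl42_iota N χ) = hl42_iota N (hl42_evL N e w χ) := by
  induction w using FreeAlgebra.induction generalizing χ with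
  | grade0 r =>
    rw [hl42_evC_algebraMap, hl42_evL_algebraMap]
    exact (map_zsmul (hl42_iota N) r χ).symm
  | grade1 i =>
    rw [hl42_evC_ι, hl42_evL_ι]
    exact hl42_TC_iota N (e i) χ
  | mul a b iha ihb =>
    rw [hl42_end_mul, hl42_end_mul, ihb, iha]
  | add a b iha ihb =>
    rw [hl42_end_add, hl42_end_add, iha, ihb]
    exact (map_add (hl42_iota N) _ _).symm

/-- A word in the Hecke operators is `ℂ`-linear on `Hom(Γ₀(N), ℂ)`. -/
theorem hl42_word_smul (w : FreeAlgebra ℤ ι) (c : ℂ) (v : Additive (Gamma0 N) →+ ℂ) :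
    hl42_evC N e w (c • v) = c • hl42_evC N e w v := by
  induction w using FreeAlgebra.induction generalizing v with
  | grade0 r =>
    rw [hl42_evC_algebraMap, hl42_evC_algebraMap, smul_comm]
  | grade1 i =>
    rw [hl42_evC_ι]
    exact hl42_hecke_smul N (e i) c v
  | mul a b iha ihb =>
    rw [hl42_end_mul, hl42_end_mul, ihb, iha]
  | add a b iha ihb =>
    rw [hl42_end_add, hl42_end_add, iha, ihb, smul_add]

variable [NeZero N]

/-- A word in the Hecke operators commutes with the Eichler–Shimura pair. -/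
theorem hl42_word_period (w : FreeAlgebra ℤ ι) (f g : CuspForm (Gamma0 N) 2) :
    hl42_evC N e w (periodHomPair N (f, g))
      = periodHomPair N (hl42_evS N e w f, hl42_evS N e w g) := by
  induction w using FreeAlgebra.induction generalizing f g with
  | grade0 r =>
    rw [hl42_evC_algebraMap, hl42_evS_algebraMap, hl42_evS_algebraMap, ← Prod.smul_mk]
    exact (map_zsmul (periodHomPair N) r (f, g)).symm
  | grade1 i =>
    rw [hl42_evC_ι, hl42_evS_ι]
    exact es60_heckeHom_periodHomPair (e i) f g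
  | mul a b iha ihb =>
    rw [hl42_end_mul, hl42_end_mul, hl42_end_mul, ihb, iha]
  | add a b iha ihb =>
    rw [hl42_end_add, hl42_end_add, hl42_end_add, iha, ihb, ← Prod.mk_add_mk]
    exact (map_add (periodHomPair N) _ _).symm

/-- **Integral structure of the parabolic homomorphisms**: every `ℂ`-valued parabolic
homomorphism is a finite `ℂ`-combination of integral ones. -/
theorem hl42_span (v : Additive (Gamma0 N) →+ ℂ) (hv : v ∈ parabolicHoms ℂ (Gamma0 N) ℂ) :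
    ∃ (n : ℕ) (c : Fin n → ℂ) (ψ : Fin n → parabolicHoms ℤ (Gamma0 N) ℤ),
      v = ∑ k, c k • hl42_iota N (ψ k) := by
  obtain ⟨Φ, hΦ, hinv, hν⟩ := el2_exists_symbol N v hv
  obtain ⟨n, m, ψ, hψ, hdec⟩ := slp10_decomp (M := N) (Φ := Φ) ⟨hΦ, hinv⟩
  refine ⟨n, m, fun k => ⟨sc71_nu N (ψ k) (hψ k).1 (hψ k).2, sc71_nu_parabolic _ _⟩, ?_⟩
  rw [← hν]
  apply AddMonoidHom.ext
  intro γ
  have h1 : (∑ k, m k • hl42_iota N
      ⟨sc71_nu N (ψ k) (hψ k).1 (hψ k).2, sc71_nu_parabolic _ _⟩) γ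
      = ∑ k, m k * ((ψ k (OnePoint.infty, Matrix.SpecialLinearGroup.mapGL ℚ
          ((Additive.toMul γ : Gamma0 N) : SL(2, ℤ)) • OnePoint.infty) : ℤ) : ℂ) := by
    rw [AddMonoidHom.finsetSum_apply]
    rfl
  rw [h1]
  show Φ (OnePoint.infty, Matrix.SpecialLinearGroup.mapGL ℚ
      ((Additive.toMul γ : Gamma0 N) : SL(2, ℤ)) • OnePoint.infty) = _
  rw [hdec]
  refine Finset.sum_congr rfl fun k _ => ?_
  rw [zsmul_eq_mul, mul_comm]

/-- **Transfer.**  A non-commutative polynomial in the Hecke operators vanishes on the lattice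
`Hom_par(Γ₀(N), ℤ)` iff it vanishes on `S₂(Γ₀(N))`. -/
theorem hl42_transfer (w : FreeAlgebra ℤ ι) : hl42_evL N e w = 0 ↔ hl42_evS N e w = 0 := by
  obtain ⟨hinj, hrange⟩ := Fermat.Agent.S21.result N
  constructor
  · intro h
    apply LinearMap.ext
    intro f
    have hP : periodHomPair N (f, 0) ∈ parabolicHoms ℂ (Gamma0 N) ℂ := by
      rw [← hrange]
      exact LinearMap.mem_range_self _ _
    obtain ⟨n, c, ψ, hsum⟩ := hl42_span N _ hP
    have h1 : hl42_evC N e w (periodHomPair N (f, 0)) = 0 := by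
      rw [hsum, map_sum]
      refine Finset.sum_eq_zero fun k _ => ?_
      rw [hl42_word_smul, hl42_word_iota, h, LinearMap.zero_apply, map_zero, smul_zero]
    rw [hl42_word_period] at h1
    have h2 := hinj (h1.trans (map_zero (periodHomPair N)).symm)
    rw [Prod.mk_eq_zero] at h2
    rw [LinearMap.zero_apply]
    exact h2.1
  · intro h
    apply LinearMap.ext
    intro χ
    rw [LinearMap.zero_apply]
    apply hl42_iota_injective N
    rw [map_zero, ← hl42_word_iota]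
    have hP : hl42_iota N χ ∈ LinearMap.range (periodHomPair N) := by
      rw [hrange]
      exact hl42_iota_parabolic N χ
    obtain ⟨⟨f, g⟩, hfg⟩ := hP
    rw [← hfg, hl42_word_period, h, LinearMap.zero_apply, LinearMap.zero_apply]
    exact map_zero (periodHomPair N)

end Words

/-! ### The action of the Prelude Hecke algebra on the lattice -/

section Act

variable (N : ℕ) [NeZero N] (S : Set ℕ)

/-- The generators of the Prelude Hecke algebra are the operators `es60_T N ℓ`, `ℓ` prime,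
`ℓ ∉ S`. -/
theorem hl42_generators :
    Set.range (fun i : {ℓ : ℕ // ℓ.Prime ∧ ℓ ∉ S} => es60_T N (i : ℕ))
      = CuspForm.heckeGenerators N 2 S := by
  ext T
  constructor
  · rintro ⟨⟨ℓ, hℓ, hℓS⟩, rfl⟩
    by_cases hℓN : ℓ ∣ N
    · exact Or.inr ⟨ℓ, hℓN, hℓ, hℓS, es60_T_of_dvd hℓ hℓN⟩
    · exact Or.inl ⟨ℓ, hℓ, hℓN, hℓS, es60_T_of_not_dvd hℓ hℓN⟩
  · rintro (⟨ℓ, hℓ, hℓN, hℓS, rfl⟩ | ⟨q, hqN, hq, hqS, rfl⟩)
    · exact ⟨⟨ℓ, hℓ, hℓS⟩, es60_T_of_not_dvd hℓ hℓN⟩
    · exact ⟨⟨q, hq, hqS⟩, es60_T_of_dvd hq hqN⟩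

/-- The Prelude Hecke algebra is the image of the free algebra on the primes outside `S`. -/
theorem hl42_range :
    (hl42_evS N (fun i : {ℓ : ℕ // ℓ.Prime ∧ ℓ ∉ S} => (i : ℕ))).range
      = CuspForm.heckeAlgebra N 2 S := by
  rw [← Algebra.map_top, ← FreeAlgebra.adjoin_range_ι, AlgHom.map_adjoin, CuspForm.heckeAlgebra,
    ← hl42_generators, ← Set.range_comp]
  congr 1
  ext T
  constructor
  · rintro ⟨i, rfl⟩
    exact ⟨i, (hl42_evS_ι N (fun i : {ℓ : ℕ // ℓ.Prime ∧ ℓ ∉ S} => (i : ℕ)) i).symm⟩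
  · rintro ⟨i, rfl⟩
    exact ⟨i, hl42_evS_ι N (fun i : {ℓ : ℕ // ℓ.Prime ∧ ℓ ∉ S} => (i : ℕ)) i⟩

/-- **The Prelude Hecke algebra acts faithfully on the lattice of integral parabolic
homomorphisms**, through `heckeHom`. -/
theorem hl42_exists_act :
    ∃ act : CuspForm.heckeAlgebra N 2 S →+* Module.End ℤ (parabolicHoms ℤ (Gamma0 N) ℤ),
      Function.Injective act ∧
      (∀ (ℓ : ℕ) (hℓ : ℓ.Prime) (hℓN : ¬ ℓ ∣ N) (hℓS : ℓ ∉ S),
        act (CuspForm.heckeAlgebra.T hℓ hℓN hℓS) = hl42_TL N ℓ) ∧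
      (∀ (q : ℕ) (hq : q.Prime) (hqN : q ∣ N) (hqS : q ∉ S),
        act (CuspForm.heckeAlgebra.U hq hqN hqS) = hl42_TL N q) := by
  let e : {ℓ : ℕ // ℓ.Prime ∧ ℓ ∉ S} → ℕ := fun i => (i : ℕ)
  have hmem : ∀ w, hl42_evS N e w ∈ CuspForm.heckeAlgebra N 2 S := fun w => by
    rw [← hl42_range]
    exact AlgHom.mem_range_self _ w
  let f : FreeAlgebra ℤ {ℓ : ℕ // ℓ.Prime ∧ ℓ ∉ S} →+* CuspForm.heckeAlgebra N 2 S :=
    ((hl42_evS N e).codRestrict (CuspForm.heckeAlgebra N 2 S) hmem).toRingHom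
  have hf_coe : ∀ w, ((f w : CuspForm.heckeAlgebra N 2 S) :
      Module.End ℂ (CuspForm (Gamma0 N) 2)) = hl42_evS N e w := fun w => rfl
  have hsurj : Function.Surjective f := by
    rintro ⟨t, ht⟩
    rw [← hl42_range] at ht
    obtain ⟨w, hw⟩ := ht
    exact ⟨w, Subtype.ext hw⟩
  have hiff : ∀ w, f w = 0 ↔ hl42_evL N e w = 0 := fun w => by
    rw [hl42_transfer N e w]
    constructor
    · intro h
      rw [← hf_coe, h]
      rfl
    · intro h
      exact Subtype.ext ((hf_coe w).trans h)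
  have hker : RingHom.ker f ≤ RingHom.ker (hl42_evL N e).toRingHom := fun w hw =>
    (hiff w).mp hw
  refine ⟨RingHom.liftOfSurjective f hsurj ⟨(hl42_evL N e).toRingHom, hker⟩, ?_, ?_, ?_⟩
  · rw [injective_iff_map_eq_zero]
    intro t ht
    obtain ⟨w, rfl⟩ := hsurj t
    rw [RingHom.liftOfRightInverse_comp_apply] at ht
    exact (hiff w).mpr ht
  · intro ℓ hℓ hℓN hℓS
    have h1 : CuspForm.heckeAlgebra.T hℓ hℓN hℓS = f (FreeAlgebra.ι ℤ ⟨ℓ, hℓ, hℓS⟩) := by
      apply Subtype.ext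
      rw [hf_coe, hl42_evS_ι]
      exact (es60_T_of_not_dvd hℓ hℓN).symm
    rw [h1, RingHom.liftOfRightInverse_comp_apply]
    exact hl42_evL_ι N e _
  · intro q hq hqN hqS
    have h1 : CuspForm.heckeAlgebra.U hq hqN hqS = f (FreeAlgebra.ι ℤ ⟨q, hq, hqS⟩) := by
      apply Subtype.ext
      rw [hf_coe, hl42_evS_ι]
      exact (es60_T_of_dvd hq hqN).symm
    rw [h1, RingHom.liftOfRightInverse_comp_apply]
    exact hl42_evL_ι N e _

/-- The action of the Prelude Hecke algebra on the lattice `Hom_par(Γ₀(N), ℤ)`. -/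
noncomputable def hl42_act :
    CuspForm.heckeAlgebra N 2 S →+* Module.End ℤ (parabolicHoms ℤ (Gamma0 N) ℤ) :=
  (hl42_exists_act N S).choose

theorem hl42_act_injective : Function.Injective (hl42_act N S) :=
  (hl42_exists_act N S).choose_spec.1

theorem hl42_act_T {ℓ : ℕ} (hℓ : ℓ.Prime) (hℓN : ¬ ℓ ∣ N) (hℓS : ℓ ∉ S) :
    hl42_act N S (CuspForm.heckeAlgebra.T hℓ hℓN hℓS) = hl42_TL N ℓ :=
  (hl42_exists_act N S).choose_spec.2.1 ℓ hℓ hℓN hℓS

theorem hl42_act_U {q : ℕ} (hq : q.Prime) (hqN : q ∣ N) (hqS : q ∉ S) :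
    hl42_act N S (CuspForm.heckeAlgebra.U hq hqN hqS) = hl42_TL N q :=
  (hl42_exists_act N S).choose_spec.2.2 q hq hqN hqS

/-- Pointwise form of `hl42_act_T`. -/
theorem hl42_act_apply_coe {ℓ : ℕ} (hℓ : ℓ.Prime) (hℓN : ¬ ℓ ∣ N) (hℓS : ℓ ∉ S)
    (χ : parabolicHoms ℤ (Gamma0 N) ℤ) :
    ((hl42_act N S (CuspForm.heckeAlgebra.T hℓ hℓN hℓS) χ : parabolicHoms ℤ (Gamma0 N) ℤ) :
      Additive (Gamma0 N) →+ ℤ) = heckeHom N ℓ ℤ χ := by
  rw [hl42_act_T]
  rfl

end Act

end Fermat.Agent.S31
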