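/-
S31 rider, row E34 (helper42): **saturation of the Hecke algebra inside `End_ℤ(L)`**, in the
hom-free relation form (B) of S31 RULING R1 (#1996).

`L := parabolicHoms ℤ (Gamma0 N) ℤ`, `TT := CuspForm.heckeAlgebra N 2 S` (Prelude).

* `hs42_sat`     : (abstract) for a submodule `A` of a finitely generated `ℤ`-module `E` and an
                   integer `p` there is `c` with: `p ^ (k + c) • e ∈ A → p ^ c • e ∈ A`.
* `hs42_div`     : (abstract) in a module with cancellation of `n ≠ 0`, an endomorphism with all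
                   values divisible by `n` is `n • e`.
* `hs42_abs`     : (abstract) for an injective ring homomorphism `act : T →+* End_ℤ(L)`, `L`
                   finitely generated with cancellation: there is `c` such that
                   `act t (L) ⊆ p ^ (k + c) L` implies `t ∈ p ^ k T`.
* `hs42_sat_act` : the same for `hl42_act N S`.
* `hs42_adjoin`  : every element `z` of the `ℤ`-subalgebra of `End_ℤ(L) × TT` generated by the
                   pairs `(T'_ℓ, T_ℓ)` (`ℓ ∤ N` prime, `ℓ ∉ S`) satisfies `z.1 = hl42_act N S z.2`.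
* `hs42_E34`     : statement (B) of S31 RULING R1, literally.
-/
import Mathlib
import Fermat.Agent.S31.HeckeLattice42
import Fermat.Agent.S42.EigenClass54

set_option autoImplicit false

open CongruenceSubgroup ModularCurve ModularCurve.Period
open scoped MatrixGroups

namespace Fermat.Agent.S31

open Fermat.Agent.S16 Fermat.Agent.S41 Fermat.Agent.S42

/-! ### Abstract saturation -/

section Abstract

/-- **`p`-power saturation bound** for a submodule of a finitely generated `ℤ`-module. -/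
theorem hs42_sat {E : Type*} [AddCommGroup E] [Module.Finite ℤ E] (A : Submodule ℤ E) (p : ℤ) :
    ∃ c : ℕ, ∀ (k : ℕ) (e : E), p ^ (k + c) • e ∈ A → p ^ c • e ∈ A := by
  classical
  -- the `p`-power torsion of the quotient
  let T : Submodule ℤ (E ⧸ A) :=
    { carrier := {q | ∃ n : ℕ, p ^ n • q = 0}
      zero_mem' := ⟨0, smul_zero _⟩
      add_mem' := by
        rintro a b ⟨n₁, h₁⟩ ⟨n₂, h₂⟩
        refine ⟨n₁ + n₂, ?_⟩
        have e1 : p ^ (n₁ + n₂) • a = p ^ n₂ • (p ^ n₁ • a) := by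
          rw [smul_smul, ← pow_add, add_comm]
        have e2 : p ^ (n₁ + n₂) • b = p ^ n₁ • (p ^ n₂ • b) := by
          rw [smul_smul, ← pow_add]
        rw [smul_add, e1, e2, h₁, h₂, smul_zero, smul_zero, add_zero]
      smul_mem' := by
        rintro r a ⟨n, h⟩
        exact ⟨n, by rw [smul_comm, h, smul_zero]⟩ }
  have hmemT : ∀ q : E ⧸ A, q ∈ T ↔ ∃ n : ℕ, p ^ n • q = 0 := fun _ => Iff.rfl
  obtain ⟨G, hG⟩ := (IsNoetherian.noetherian T : T.FG)
  have hGT : ∀ g ∈ G, ∃ n : ℕ, p ^ n • g = 0 := fun g hg =>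
    (hmemT g).mp (hG ▸ Submodule.subset_span hg)
  choose! n hn using hGT
  have hkill : ∀ q ∈ T, p ^ (∑ g ∈ G, n g) • q = 0 := by
    intro q hq
    rw [← hG] at hq
    induction hq using Submodule.span_induction with
    | mem x hx =>
      have hle : n x ≤ ∑ g ∈ G, n g := Finset.single_le_sum (fun _ _ => Nat.zero_le _) hx
      obtain ⟨d, hd⟩ := Nat.exists_eq_add_of_le hle
      rw [hd, add_comm, pow_add, ← smul_smul, hn x hx, smul_zero]
    | zero => exact smul_zero _
    | add x y _ _ hx hy => rw [smul_add, hx, hy, add_zero]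
    | smul a x _ hx => rw [smul_comm, hx, smul_zero]
  refine ⟨∑ g ∈ G, n g, fun k e he => ?_⟩
  have h1 : A.mkQ e ∈ T := by
    refine (hmemT _).mpr ⟨k + ∑ g ∈ G, n g, ?_⟩
    rw [← map_zsmul]
    exact (Submodule.Quotient.mk_eq_zero A).mpr he
  have h2 := hkill _ h1
  rw [← map_zsmul] at h2
  exact (Submodule.Quotient.mk_eq_zero A).mp h2

/-- An endomorphism all of whose values are divisible by `n ≠ 0` is `n` times an endomorphism
(in a group with cancellation of `n`). -/
theorem hs42_div {L : Type*} [AddCommGroup L]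
    (htf : ∀ n : ℤ, n ≠ 0 → ∀ a b : L, n • a = n • b → a = b)
    (u : Module.End ℤ L) (n : ℤ) (hn : n ≠ 0) (h : ∀ x : L, ∃ y : L, u x = n • y) :
    ∃ e : Module.End ℤ L, u = n • e := by
  choose y hy using h
  let e : L →+ L :=
    { toFun := y
      map_zero' := by
        apply htf n hn
        rw [← hy, map_zero, smul_zero]
      map_add' := fun a b => by
        apply htf n hn
        rw [← hy, map_add, hy a, hy b, smul_add] }
  refine ⟨e.toIntLinearMap, LinearMap.ext fun x => ?_⟩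
  rw [LinearMap.smul_apply]
  exact hy x

/-- **Abstract saturation of a faithful ring of endomorphisms.** -/
theorem hs42_abs {L : Type*} [AddCommGroup L] [Module.Finite ℤ L]
    (htf : ∀ n : ℤ, n ≠ 0 → ∀ a b : L, n • a = n • b → a = b)
    {T : Type*} [Ring T] (act : T →+* Module.End ℤ L) (hact : Function.Injective act)
    (p : ℤ) (hp : p ≠ 0) :
    ∃ c : ℕ, ∀ (k : ℕ) (t : T), (∀ x : L, ∃ y : L, act t x = p ^ (k + c) • y) →
      ∃ t' : T, t = p ^ k • t' := by
  obtain ⟨c, hc⟩ := hs42_sat (LinearMap.range act.toAddMonoidHom.toIntLinearMap) p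
  refine ⟨c, fun k t ht => ?_⟩
  obtain ⟨e, he⟩ := hs42_div htf (act t) (p ^ (k + c)) (pow_ne_zero _ hp) ht
  have h1 : p ^ (k + c) • e ∈ LinearMap.range act.toAddMonoidHom.toIntLinearMap :=
    ⟨t, he⟩
  obtain ⟨t', ht'⟩ := hc k e h1
  refine ⟨t', hact ?_⟩
  have h2 : act t' = p ^ c • e := ht'
  rw [map_zsmul, h2, smul_smul, ← pow_add]
  exact he

end Abstract

/-! ### The Hecke algebra -/

section Hecke

variable (N : ℕ) [NeZero N] (S : Set ℕ)

omit [NeZero N] in
/-- Cancellation in the lattice `Hom_par(Γ₀(N), ℤ)`. -/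
theorem hs42_cancel (n : ℤ) (hn : n ≠ 0) (a b : parabolicHoms ℤ (Gamma0 N) ℤ)
    (h : n • a = n • b) : a = b := by
  apply Subtype.ext
  apply AddMonoidHom.ext
  intro γ
  have h1 := congrArg (fun x : parabolicHoms ℤ (Gamma0 N) ℤ =>
    (x : Additive (Gamma0 N) →+ ℤ) γ) h
  simp only [Submodule.coe_smul, AddMonoidHom.smul_apply, smul_eq_mul] at h1
  exact mul_left_cancel₀ hn h1

/-- **Saturation of the Hecke algebra in `End_ℤ(L)`**: there is `c` such that if
`t ∈ heckeAlgebra N 2 S` maps `L` into `p ^ (k + c) L`, then `t ∈ p ^ k (heckeAlgebra N 2 S)`. -/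
theorem hs42_sat_act (p : ℤ) (hp : p ≠ 0) :
    ∃ c : ℕ, ∀ (k : ℕ) (t : CuspForm.heckeAlgebra N 2 S),
      (∀ x : parabolicHoms ℤ (Gamma0 N) ℤ, ∃ y : parabolicHoms ℤ (Gamma0 N) ℤ,
        hl42_act N S t x = p ^ (k + c) • y) →
      ∃ t' : CuspForm.heckeAlgebra N 2 S, t = p ^ k • t' := by
  have : Module.Finite ℤ (parabolicHoms ℤ (Gamma0 N) ℤ) :=
    Module.Finite.iff_fg.mpr (m9e54_fg N)
  exact hs42_abs (hs42_cancel N) (hl42_act N S) (hl42_act_injective N S) p hp

/-- On the subalgebra of `End_ℤ(L) × heckeAlgebra N 2 S` generated by the pairs `(T'_ℓ, T_ℓ)`,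
the first component is the action of the second. -/
theorem hs42_adjoin
    (z : Module.End ℤ (parabolicHoms ℤ (Gamma0 N) ℤ) × CuspForm.heckeAlgebra N 2 S)
    (hz : z ∈ Algebra.adjoin ℤ
      {w : Module.End ℤ (parabolicHoms ℤ (Gamma0 N) ℤ) × CuspForm.heckeAlgebra N 2 S |
        ∃ (ℓ : ℕ) (hℓ : ℓ.Prime) (hℓN : ¬ ℓ ∣ N) (hℓS : ℓ ∉ S),
          w.2 = CuspForm.heckeAlgebra.T hℓ hℓN hℓS ∧
          ∀ x : parabolicHoms ℤ (Gamma0 N) ℤ,
            ((w.1 x : parabolicHoms ℤ (Gamma0 N) ℤ) : Additive (Gamma0 N) →+ ℤ)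
              = heckeHom N ℓ ℤ (x : Additive (Gamma0 N) →+ ℤ)}) :
    z.1 = hl42_act N S z.2 := by
  induction hz using Algebra.adjoin_induction with
  | mem w hw =>
    obtain ⟨ℓ, hℓ, hℓN, hℓS, h2, h1⟩ := hw
    rw [h2, hl42_act_T]
    exact LinearMap.ext fun x => Subtype.ext (h1 x)
  | algebraMap r =>
    rw [Prod.algebraMap_apply]
    show algebraMap ℤ _ r = hl42_act N S (algebraMap ℤ _ r)
    rw [eq_intCast (algebraMap ℤ (Module.End ℤ (parabolicHoms ℤ (Gamma0 N) ℤ))) r,
      eq_intCast (algebraMap ℤ (CuspForm.heckeAlgebra N 2 S)) r, map_intCast]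
  | add x y _ _ hx hy =>
    rw [Prod.fst_add, Prod.snd_add, map_add, hx, hy]
  | mul x y _ _ hx hy =>
    rw [Prod.fst_mul, Prod.snd_mul, map_mul, hx, hy]

/-- **Statement (B) of S31 RULING R1** (row E34): saturation in the hom-free relation form. -/
theorem hs42_E34 (p : ℕ) (hp : p.Prime) :
    ∃ c : ℕ, ∀ (k : ℕ)
      (z : Module.End ℤ (parabolicHoms ℤ (Gamma0 N) ℤ) × CuspForm.heckeAlgebra N 2 S),
      z ∈ Algebra.adjoin ℤ
        {w : Module.End ℤ (parabolicHoms ℤ (Gamma0 N) ℤ) × CuspForm.heckeAlgebra N 2 S |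
          ∃ (ℓ : ℕ) (hℓ : ℓ.Prime) (hℓN : ¬ ℓ ∣ N) (hℓS : ℓ ∉ S),
            w.2 = CuspForm.heckeAlgebra.T hℓ hℓN hℓS ∧
            ∀ x : parabolicHoms ℤ (Gamma0 N) ℤ,
              ((w.1 x : parabolicHoms ℤ (Gamma0 N) ℤ) : Additive (Gamma0 N) →+ ℤ)
                = heckeHom N ℓ ℤ (x : Additive (Gamma0 N) →+ ℤ)} →
      (∀ x : parabolicHoms ℤ (Gamma0 N) ℤ, ∃ y : parabolicHoms ℤ (Gamma0 N) ℤ,
        z.1 x = ((p : ℤ) ^ (k + c)) • y) →
      ∃ t' : CuspForm.heckeAlgebra N 2 S, z.2 = ((p : ℤ) ^ k) • t' := by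
  obtain ⟨c, hc⟩ := hs42_sat_act N S (p : ℤ) (by exact_mod_cast hp.ne_zero)
  refine ⟨c, fun k z hz hdiv => ?_⟩
  have h1 := hs42_adjoin N S z hz
  exact hc k z.2 (fun x => by rw [← h1]; exact hdiv x)

end Hecke

end Fermat.Agent.S31
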