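/-
S31 rider / row E5 (helper58): Frobenius and inertia on roots of unity of ARBITRARY order `m`.

`Qb = AlgebraicClosure ℚ`, `GQ = Qb ≃ₐ[ℚ] Qb`.

* `ru58_frob`       : a Frobenius element `τ` at `ℓ` (Prelude `IsFrobeniusAt`) acts on every
                      `m`-th root of unity, `gcd(ℓ, m) = 1`, by `z ↦ z ^ ℓ`;
* `ru58_frob_pow`   : `(τ ^ j) z = z ^ (ℓ ^ j)`;
* `ru58_inertia`    : an element of an inertia group at `q` (Prelude `inertiaSubgroupIn`),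
                      `gcd(q, m) = 1`, fixes every `m`-th root of unity;
* `ru58_pow_modEq`  : if `g = τ₁ ^ j` and `g σ = τ₂ ^ j'` on the `m`-th roots of unity
                      (`τᵢ` Frobenius at `ℓᵢ`, `σ` inertia at `q`, all prime to `m`) then
                      `ℓ₁ ^ j ≡ ℓ₂ ^ j' [MOD m]`;
* `ru58_exists_level` : the `m`-th roots of unity lie in a finite extension of `ℚ`.

Built on the generic lemmas of `S42/CycloChar92` (helper92).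
-/
import Mathlib
import Fermat.Agent.S42.CycloChar92

set_option autoImplicit false
set_option linter.style.haveILetI false

namespace Fermat.Agent.S31

open Fermat.Agent.S42 Fermat.Agent.S14

local notation "Qb" => AlgebraicClosure ℚ
local notation "GQ" => AlgebraicClosure ℚ ≃ₐ[ℚ] AlgebraicClosure ℚ

/-- A primitive `m`-th root of unity in `ℚ̄`. -/
theorem ru58_exists_primitiveRoot (m : ℕ) (hm : 0 < m) : ∃ ζ : Qb, IsPrimitiveRoot ζ m := by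
  haveI := h95_isAlgClosure_rat
  haveI : NeZero m := ⟨hm.ne'⟩
  haveI : NeZero ((m : ℕ) : Qb) := ⟨Nat.cast_ne_zero.mpr hm.ne'⟩
  exact HasEnoughRootsOfUnity.exists_primitiveRoot Qb m

/-- An automorphism sends a primitive root to a power of it. -/
theorem ru58_exists_exp (σ : GQ) {m : ℕ} (hm : 0 < m) {ζ : Qb} (hζ : IsPrimitiveRoot ζ m) :
    ∃ a : ℕ, σ ζ = ζ ^ a := by
  have h1 : (σ ζ) ^ m = 1 := by rw [← map_pow, hζ.pow_eq_one, map_one]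
  haveI : NeZero m := ⟨hm.ne'⟩
  obtain ⟨a, -, ha⟩ := hζ.eq_pow_of_pow_eq_one h1
  exact ⟨a, ha.symm⟩

/-- Powers of a primitive `m`-th root agree iff the exponents are congruent mod `m`. -/
theorem ru58_pow_eq_pow_iff {m : ℕ} (hm : 0 < m) {ζ : Qb} (hζ : IsPrimitiveRoot ζ m) (a b : ℕ) :
    ζ ^ a = ζ ^ b ↔ a ≡ b [MOD m] := by
  have h := (hζ.isOfFinOrder hm.ne').pow_eq_pow_iff_modEq (n := a) (m := b)
  rwa [← hζ.eq_orderOf] at h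

/-- **Frobenius on a primitive root.** -/
theorem ru58_frob_primitive (A : ValuationSubring Qb) {ℓ : ℕ} (hA : A.LiesOverPrime ℓ)
    (τ : GQ) (hτ : A.IsFrobeniusAt τ ℓ) {m : ℕ} (hm : 0 < m) (hcop : Nat.Coprime ℓ m)
    {ζ : Qb} (hζ : IsPrimitiveRoot ζ m) : τ ζ = ζ ^ ℓ := by
  obtain ⟨a, ha⟩ := ru58_exists_exp τ hm hζ
  have hζA : ζ ∈ A := cy92_root_mem A hm hζ.pow_eq_one
  have h1 := cy92_congr_of_isFrobeniusAt A τ ℓ hτ ζ hζA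
  rw [ha] at h1
  have h2 := cy92_modEq_of_sub_mem A hA hcop hm hζ h1
  rw [ha]
  exact (ru58_pow_eq_pow_iff hm hζ _ _).mpr h2

/-- **Frobenius on roots of unity**: `τ z = z ^ ℓ` for every `m`-th root of unity `z`,
`gcd(ℓ, m) = 1`. -/
theorem ru58_frob (A : ValuationSubring Qb) {ℓ : ℕ} (hA : A.LiesOverPrime ℓ)
    (τ : GQ) (hτ : A.IsFrobeniusAt τ ℓ) {m : ℕ} (hm : 0 < m) (hcop : Nat.Coprime ℓ m)
    (z : Qb) (hz : z ^ m = 1) : τ z = z ^ ℓ := by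
  obtain ⟨ζ, hζ⟩ := ru58_exists_primitiveRoot m hm
  haveI : NeZero m := ⟨hm.ne'⟩
  obtain ⟨i, -, rfl⟩ := hζ.eq_pow_of_pow_eq_one hz
  rw [map_pow, ru58_frob_primitive A hA τ hτ hm hcop hζ, ← pow_mul, ← pow_mul, mul_comm]

/-- Powers of a Frobenius element on roots of unity. -/
theorem ru58_frob_pow (A : ValuationSubring Qb) {ℓ : ℕ} (hA : A.LiesOverPrime ℓ)
    (τ : GQ) (hτ : A.IsFrobeniusAt τ ℓ) {m : ℕ} (hm : 0 < m) (hcop : Nat.Coprime ℓ m)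
    (j : ℕ) (z : Qb) (hz : z ^ m = 1) : (τ ^ j) z = z ^ (ℓ ^ j) := by
  induction j generalizing z with
  | zero => simp
  | succ j ih =>
    have hz' : (z ^ ℓ) ^ m = 1 := by rw [← pow_mul, mul_comm, pow_mul, hz, one_pow]
    rw [pow_succ, AlgEquiv.mul_apply, ru58_frob A hA τ hτ hm hcop z hz, ih _ hz', ← pow_mul,
      pow_succ, mul_comm]

/-- **Inertia on roots of unity**: an element of an inertia group at `q` fixes every `m`-th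
root of unity, `gcd(q, m) = 1`. -/
theorem ru58_inertia (P : ValuationSubring Qb) {q : ℕ} (hP : P.LiesOverPrime q)
    (σ : GQ) (hσ : σ ∈ P.inertiaSubgroupIn ℚ) {m : ℕ} (hm : 0 < m) (hcop : Nat.Coprime q m)
    (z : Qb) (hz : z ^ m = 1) : σ z = z := by
  obtain ⟨ζ, hζ⟩ := ru58_exists_primitiveRoot m hm
  haveI : NeZero m := ⟨hm.ne'⟩
  obtain ⟨i, -, rfl⟩ := hζ.eq_pow_of_pow_eq_one hz
  obtain ⟨a, ha⟩ := ru58_exists_exp σ hm hζ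
  have hζP : ζ ∈ P := cy92_root_mem P hm hζ.pow_eq_one
  have h1 := cy92_congr_of_mem_inertia P hσ ζ hζP
  rw [ha] at h1
  have h1' : ζ ^ a - ζ ^ 1 ∈ P.nonunits := by rwa [pow_one]
  have h2 := cy92_modEq_of_sub_mem P hP hcop hm hζ h1'
  have h3 : σ ζ = ζ := by
    rw [ha]
    have := (ru58_pow_eq_pow_iff hm hζ _ _).mpr h2
    rwa [pow_one] at this
  rw [map_pow, h3]

/-- **The congruence of the S31 argument**: if `g` agrees with `τ₁ ^ j` and `g σ` agrees with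
`τ₂ ^ j'` on the `m`-th roots of unity, where `τᵢ` is a Frobenius element at `ℓᵢ` and `σ` lies
in an inertia group at `q` (`ℓ₁`, `ℓ₂`, `q` prime to `m`), then `ℓ₁ ^ j ≡ ℓ₂ ^ j' [MOD m]`. -/
theorem ru58_pow_modEq {m : ℕ} (hm : 0 < m)
    (A₁ : ValuationSubring Qb) {ℓ₁ : ℕ} (hA₁ : A₁.LiesOverPrime ℓ₁) (τ₁ : GQ)
    (hτ₁ : A₁.IsFrobeniusAt τ₁ ℓ₁) (hcop₁ : Nat.Coprime ℓ₁ m)
    (A₂ : ValuationSubring Qb) {ℓ₂ : ℕ} (hA₂ : A₂.LiesOverPrime ℓ₂) (τ₂ : GQ)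
    (hτ₂ : A₂.IsFrobeniusAt τ₂ ℓ₂) (hcop₂ : Nat.Coprime ℓ₂ m)
    (P : ValuationSubring Qb) {q : ℕ} (hP : P.LiesOverPrime q) (σ : GQ)
    (hσ : σ ∈ P.inertiaSubgroupIn ℚ) (hcop : Nat.Coprime q m)
    (g : GQ) (j j' : ℕ)
    (hg : ∀ z : Qb, z ^ m = 1 → g z = (τ₁ ^ j) z)
    (hgσ : ∀ z : Qb, z ^ m = 1 → (g * σ) z = (τ₂ ^ j') z) :
    ℓ₁ ^ j ≡ ℓ₂ ^ j' [MOD m] := by
  obtain ⟨ζ, hζ⟩ := ru58_exists_primitiveRoot m hm
  have hz := hζ.pow_eq_one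
  have h1 : (g * σ) ζ = ζ ^ (ℓ₁ ^ j) := by
    rw [AlgEquiv.mul_apply, ru58_inertia P hP σ hσ hm hcop ζ hz, hg ζ hz,
      ru58_frob_pow A₁ hA₁ τ₁ hτ₁ hm hcop₁ j ζ hz]
  have h2 : (g * σ) ζ = ζ ^ (ℓ₂ ^ j') := by
    rw [hgσ ζ hz, ru58_frob_pow A₂ hA₂ τ₂ hτ₂ hm hcop₂ j' ζ hz]
  exact (ru58_pow_eq_pow_iff hm hζ _ _).mp (h1.symm.trans h2)

/-- Variant without inertia: if `g` agrees with `τ₁ ^ j` and with `τ₂ ^ j'` on the `m`-th roots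
of unity then `ℓ₁ ^ j ≡ ℓ₂ ^ j' [MOD m]`. -/
theorem ru58_pow_modEq' {m : ℕ} (hm : 0 < m)
    (A₁ : ValuationSubring Qb) {ℓ₁ : ℕ} (hA₁ : A₁.LiesOverPrime ℓ₁) (τ₁ : GQ)
    (hτ₁ : A₁.IsFrobeniusAt τ₁ ℓ₁) (hcop₁ : Nat.Coprime ℓ₁ m)
    (A₂ : ValuationSubring Qb) {ℓ₂ : ℕ} (hA₂ : A₂.LiesOverPrime ℓ₂) (τ₂ : GQ)
    (hτ₂ : A₂.IsFrobeniusAt τ₂ ℓ₂) (hcop₂ : Nat.Coprime ℓ₂ m)
    (g : GQ) (j j' : ℕ)
    (hg : ∀ z : Qb, z ^ m = 1 → g z = (τ₁ ^ j) z)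
    (hg' : ∀ z : Qb, z ^ m = 1 → g z = (τ₂ ^ j') z) :
    ℓ₁ ^ j ≡ ℓ₂ ^ j' [MOD m] := by
  obtain ⟨ζ, hζ⟩ := ru58_exists_primitiveRoot m hm
  have hz := hζ.pow_eq_one
  have h1 : g ζ = ζ ^ (ℓ₁ ^ j) := by
    rw [hg ζ hz, ru58_frob_pow A₁ hA₁ τ₁ hτ₁ hm hcop₁ j ζ hz]
  have h2 : g ζ = ζ ^ (ℓ₂ ^ j') := by
    rw [hg' ζ hz, ru58_frob_pow A₂ hA₂ τ₂ hτ₂ hm hcop₂ j' ζ hz]
  exact (ru58_pow_eq_pow_iff hm hζ _ _).mp (h1.symm.trans h2)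

/-- **Finite level**: the `m`-th roots of unity lie in a finite extension of `ℚ`. -/
theorem ru58_exists_level (m : ℕ) (hm : 0 < m) :
    ∃ L : IntermediateField ℚ Qb, FiniteDimensional ℚ L ∧ ∀ z : Qb, z ^ m = 1 → z ∈ L := by
  haveI := h95_isAlgClosure_rat
  obtain ⟨ζ, hζ⟩ := ru58_exists_primitiveRoot m hm
  haveI : FiniteDimensional ℚ (IntermediateField.adjoin ℚ ({ζ} : Set Qb)) :=
    IntermediateField.finiteDimensional_adjoin (fun x _ => Algebra.IsIntegral.isIntegral x)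
  refine ⟨IntermediateField.adjoin ℚ ({ζ} : Set Qb), inferInstance, fun z hz => ?_⟩
  haveI : NeZero m := ⟨hm.ne'⟩
  obtain ⟨i, -, rfl⟩ := hζ.eq_pow_of_pow_eq_one hz
  exact pow_mem (IntermediateField.subset_adjoin ℚ _ (Set.mem_singleton ζ)) i

/-- An element of `GQ` fixing a finite level containing the `m`-th roots of unity fixes them
(trivial; recorded for the consumer). -/
theorem ru58_fix_of_level {m : ℕ} (L : IntermediateField ℚ Qb)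
    (hL : ∀ z : Qb, z ^ m = 1 → z ∈ L) (σ : GQ) (hσ : ∀ x ∈ L, σ x = x) (z : Qb)
    (hz : z ^ m = 1) : σ z = z :=
  hσ z (hL z hz)

end Fermat.Agent.S31
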