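import Mathlib
import Fermat.Prelude.Def_GaloisRep_Adic

/-!
# S31 rider, row E1 (helper91): Burnside for `2 × 2`, descent of spans, Nakayama, trace pairing

* `bs91_burnside2` : over an algebraically closed field, a subalgebra of `End V`, `dim V = 2`,
  without a stable line is everything.
* `bs91_span_descent` : a set of operators whose base change spans over a field extension
  already spans.
* `bs91_span_nakayama` : over a local ring, a set of endomorphisms of a finite free module whose
  reductions span over the residue field spans.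
* `bs91_span_eq_top`, `bs91_eq_zero`, `bs91_eq_one` : the statements for a `GaloisRepAdic` with
  absolutely irreducible residual representation.

All names are prefixed `bs91_`.
-/

set_option autoImplicit false
set_option linter.unusedSectionVars false
set_option linter.unusedVariables false
set_option linter.style.longLine false

open scoped TensorProduct

namespace Fermat.Agent.S31

section Burnside

variable {k : Type*} [Field k] {V : Type*} [AddCommGroup V] [Module k V]

/-- Transitivity: for `v ≠ 0`, `A v = V`. -/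
theorem bs91_transitive (A : Subalgebra k (Module.End k V))
    (hirr : ∀ W : Submodule k V, (∀ a ∈ A, ∀ x ∈ W, a x ∈ W) → W = ⊥ ∨ W = ⊤)
    {v : V} (hv : v ≠ 0) (u : V) : ∃ a ∈ A, a v = u := by
  let W : Submodule k V := (Subalgebra.toSubmodule A).map (LinearMap.applyₗ v)
  have hW : ∀ a ∈ A, ∀ x ∈ W, a x ∈ W := by
    rintro a ha x ⟨b, hb, rfl⟩
    exact ⟨a * b, A.mul_mem ha hb, rfl⟩
  have hvW : v ∈ W := ⟨1, A.one_mem, rfl⟩
  rcases hirr W hW with h | h
  · rw [h] at hvW
    exact absurd ((Submodule.mem_bot k).mp hvW) hv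
  · have hu : u ∈ W := h ▸ Submodule.mem_top
    obtain ⟨a, ha, rfl⟩ := hu
    exact ⟨a, ha, rfl⟩

/-- An irreducible subalgebra in dimension `2` contains a nonzero singular element. -/
theorem bs91_exists_singular [IsAlgClosed k] (hV : Module.finrank k V = 2)
    (A : Subalgebra k (Module.End k V))
    (hirr : ∀ W : Submodule k V, (∀ a ∈ A, ∀ x ∈ W, a x ∈ W) → W = ⊥ ∨ W = ⊤) :
    ∃ n ∈ A, n ≠ 0 ∧ ∃ v : V, v ≠ 0 ∧ n v = 0 := by
  have : FiniteDimensional k V := Module.finite_of_finrank_pos (by omega)
  have : Nontrivial V := Module.nontrivial_of_finrank_pos (R := k) (by omega)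
  by_contra hcon
  push Not at hcon
  have hscal : ∀ a ∈ A, ∃ μ : k, a = μ • (1 : Module.End k V) := by
    intro a ha
    obtain ⟨μ, hμ⟩ := Module.End.exists_eigenvalue a
    obtain ⟨x, hx⟩ := hμ.exists_hasEigenvector
    refine ⟨μ, ?_⟩
    by_contra hne
    have hmem : a - μ • (1 : Module.End k V) ∈ A := A.sub_mem ha (A.smul_mem A.one_mem μ)
    have h0 : a - μ • (1 : Module.End k V) ≠ 0 := fun h => hne (sub_eq_zero.mp h)
    refine hcon _ hmem h0 x hx.2 ?_
    rw [LinearMap.sub_apply, hx.apply_eq_smul, LinearMap.smul_apply, Module.End.one_apply,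
      sub_self]
  obtain ⟨v0, hv0⟩ := exists_ne (0 : V)
  have hinv : ∀ a ∈ A, ∀ x ∈ (k ∙ v0), a x ∈ (k ∙ v0) := by
    intro a ha x hx
    obtain ⟨μ, rfl⟩ := hscal a ha
    rw [LinearMap.smul_apply, Module.End.one_apply]
    exact Submodule.smul_mem _ μ hx
  rcases hirr _ hinv with h | h
  · exact hv0 (Submodule.span_singleton_eq_bot.mp h)
  · have h1 := finrank_span_singleton (K := k) hv0
    rw [h, finrank_top, hV] at h1
    omega

/-- **Burnside's theorem in dimension `2`.** -/
theorem bs91_burnside2 [IsAlgClosed k] (hV : Module.finrank k V = 2)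
    (A : Subalgebra k (Module.End k V))
    (hirr : ∀ W : Submodule k V, (∀ a ∈ A, ∀ x ∈ W, a x ∈ W) → W = ⊥ ∨ W = ⊤) : A = ⊤ := by
  obtain ⟨n, hnA, hn0, v, hv, hnv⟩ := bs91_exists_singular hV A hirr
  obtain ⟨e2, he2⟩ : ∃ e2, n e2 ≠ 0 := by
    by_contra h
    push Not at h
    exact hn0 (LinearMap.ext h)
  have hli : LinearIndependent k ![v, e2] := by
    rw [linearIndependent_fin2]
    refine ⟨fun h => he2 (by simpa using congrArg n h), fun a ha => ?_⟩
    have h1 : a • n e2 = 0 := by
      have := congrArg n ha
      simpa [hnv] using this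
    rcases smul_eq_zero.mp h1 with h2 | h2
    · rw [h2] at ha
      exact hv (by simpa using ha.symm)
    · exact he2 h2
  let B := basisOfLinearIndependentOfCardEqFinrank hli (by simp [hV])
  have hB0 : B 0 = v := by simp [B]
  have hB1 : B 1 = e2 := by simp [B]
  obtain ⟨b, hbA, hb⟩ := bs91_transitive A hirr hv e2
  have hrange : ∀ x, ∃ c : k, n x = c • n e2 := by
    intro x
    refine ⟨B.repr x 1, ?_⟩
    conv_lhs => rw [← B.sum_repr x]
    rw [Fin.sum_univ_two, hB0, hB1, map_add, map_smul, map_smul, hnv, smul_zero, zero_add]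
  obtain ⟨c, hc⟩ := hrange (b e2)
  have hn'v : (n * b) v = n e2 := by rw [Module.End.mul_apply, hb]
  have hn'v' : (n * b) (e2 - c • v) = 0 := by
    rw [Module.End.mul_apply, map_sub, map_smul, hb, map_sub, map_smul, hc, sub_self]
  have hnv' : n (e2 - c • v) = n e2 := by
    rw [map_sub, map_smul, hnv, smul_zero, sub_zero]
  refine eq_top_iff.mpr fun f _ => ?_
  obtain ⟨c1, hc1A, hc1⟩ := bs91_transitive A hirr he2 (f v)
  obtain ⟨d1, hd1A, hd1⟩ := bs91_transitive A hirr he2 (f (e2 - c • v))
  have hgv : (c1 * (n * b) + d1 * n) v = f v := by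
    rw [LinearMap.add_apply, Module.End.mul_apply, hn'v, hc1, Module.End.mul_apply, hnv,
      map_zero, add_zero]
  have hgv' : (c1 * (n * b) + d1 * n) (e2 - c • v) = f (e2 - c • v) := by
    rw [LinearMap.add_apply, Module.End.mul_apply, hn'v', map_zero, zero_add,
      Module.End.mul_apply, hnv', hd1]
  have hg : f = c1 * (n * b) + d1 * n := by
    apply B.ext
    rw [Fin.forall_fin_two]
    refine ⟨?_, ?_⟩
    · rw [hB0, hgv]
    · rw [hB1]
      have he : e2 = (e2 - c • v) + c • v := by abel
      rw [he, map_add, map_add, map_smul, map_smul, hgv', hgv]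
  rw [hg]
  exact A.add_mem (A.mul_mem hc1A (A.mul_mem hnA hbA)) (A.mul_mem hd1A hnA)

end Burnside

section Descent

variable {K L : Type*} [Field K] [Field L] [Algebra K L]
variable {V : Type*} [AddCommGroup V] [Module K V] [FiniteDimensional K V]

/-- **Descent of spans**: a set of operators whose base changes span `End_L (L ⊗ V)` over a
field extension `L / K` already spans `End_K V`. -/
theorem bs91_span_descent (S : Set (Module.End K V))
    (h : Submodule.span L ((LinearMap.baseChangeHom K L V V) '' S) = ⊤) :
    Submodule.span K S = ⊤ := by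
  by_contra hne
  have hlt := Submodule.finrank_lt hne
  let bW := Module.finBasis K (Submodule.span K S)
  have hle : Submodule.span L ((LinearMap.baseChangeHom K L V V) '' S) ≤
      Submodule.span L (Set.range fun i =>
        LinearMap.baseChangeHom K L V V (bW i : Module.End K V)) := by
    rw [Submodule.span_le]
    rintro _ ⟨s, hs, rfl⟩
    have hsW : s ∈ Submodule.span K S := Submodule.subset_span hs
    have h1 := bW.sum_repr ⟨s, hsW⟩
    have h2 : s = ∑ i, bW.repr ⟨s, hsW⟩ i • (bW i : Module.End K V) := by
      have h3 := congrArg (Submodule.subtype (Submodule.span K S)) h1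
      rw [map_sum] at h3
      simpa using h3.symm
    rw [h2, map_sum]
    refine Submodule.sum_mem _ fun i _ => ?_
    rw [map_smul, ← algebraMap_smul L]
    exact Submodule.smul_mem _ _ (Submodule.subset_span ⟨i, rfl⟩)
  have h1 : Module.finrank L (⊤ : Submodule L (Module.End L (L ⊗[K] V))) ≤
      Module.finrank K (Submodule.span K S) := by
    rw [← h]
    calc Module.finrank L (Submodule.span L ((LinearMap.baseChangeHom K L V V) '' S))
        ≤ Module.finrank L (Submodule.span L (Set.range fun i =>
          LinearMap.baseChangeHom K L V V (bW i : Module.End K V))) :=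
          Submodule.finrank_mono hle
      _ ≤ Fintype.card (Fin (Module.finrank K (Submodule.span K S))) := finrank_range_le_card _
      _ = Module.finrank K (Submodule.span K S) := Fintype.card_fin _
  rw [finrank_top, Module.finrank_linearMap, Module.finrank_baseChange] at h1
  rw [Module.finrank_linearMap] at hlt
  omega

end Descent

section Nakayama

variable {T : Type*} [CommRing T] [IsLocalRing T]
variable {V : Type*} [AddCommGroup V] [Module T V] [Module.Free T V] [Module.Finite T V]

/-- An endomorphism of a finite free module over a local ring whose reduction vanishes lies in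
`𝔪 • End`. -/
theorem bs91_mem_smul_top_of_baseChange_eq_zero (f : Module.End T V)
    (h0 : f.baseChange (IsLocalRing.ResidueField T) = 0) :
    f ∈ (IsLocalRing.maximalIdeal T) • (⊤ : Submodule T (Module.End T V)) := by
  classical
  let b := Module.Free.chooseBasis T V
  have hent : ∀ i j, LinearMap.toMatrix b b f i j ∈ IsLocalRing.maximalIdeal T := by
    intro i j
    have h1 := LinearMap.toMatrix_baseChange (A := IsLocalRing.ResidueField T) f b b
    rw [h0, map_zero] at h1
    have h2 := congrFun (congrFun h1 i) j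
    rw [Matrix.zero_apply, Matrix.map_apply] at h2
    exact (IsLocalRing.residue_eq_zero_iff _).mp h2.symm
  have hsum : f = ∑ i, ∑ j, LinearMap.toMatrix b b f i j •
      (LinearMap.toMatrix b b).symm (Matrix.single i j (1 : T)) := by
    apply (LinearMap.toMatrix b b).injective
    simp_rw [map_sum, map_smul, LinearEquiv.apply_symm_apply, Matrix.smul_single, smul_eq_mul,
      mul_one]
    exact Matrix.matrix_eq_sum_single _
  rw [hsum]
  exact Submodule.sum_mem _ fun i _ => Submodule.sum_mem _ fun j _ =>
    Submodule.smul_mem_smul (hent i j) Submodule.mem_top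

/-- **Nakayama for spans of endomorphisms**: a set of endomorphisms of a finite free module over
a local ring whose reductions span over the residue field spans. -/
theorem bs91_span_nakayama (S : Set (Module.End T V))
    (h : Submodule.span (IsLocalRing.ResidueField T)
      ((fun f : Module.End T V => f.baseChange (IsLocalRing.ResidueField T)) '' S) = ⊤) :
    Submodule.span T S = ⊤ := by
  have hfg : (⊤ : Submodule T (Module.End T V)).FG := Module.Finite.fg_top
  refine eq_top_iff.mpr (Submodule.le_of_le_smul_of_le_jacobson_bot hfg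
    (IsLocalRing.maximalIdeal_le_jacobson ⊥) ?_)
  intro f _
  have key : ∀ y ∈ Submodule.span (IsLocalRing.ResidueField T)
      ((fun f : Module.End T V => f.baseChange (IsLocalRing.ResidueField T)) '' S),
      ∃ g ∈ Submodule.span T S, g.baseChange (IsLocalRing.ResidueField T) = y := by
    intro y hy
    induction hy using Submodule.span_induction with
    | mem y hy =>
      obtain ⟨s, hs, rfl⟩ := hy
      exact ⟨s, Submodule.subset_span hs, rfl⟩
    | zero => exact ⟨0, Submodule.zero_mem _, LinearMap.baseChange_zero⟩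
    | add x y _ _ hx hy =>
      obtain ⟨g1, hg1, rfl⟩ := hx
      obtain ⟨g2, hg2, rfl⟩ := hy
      exact ⟨g1 + g2, Submodule.add_mem _ hg1 hg2, LinearMap.baseChange_add _ _⟩
    | smul c x _ hx =>
      obtain ⟨g, hg, rfl⟩ := hx
      obtain ⟨t, rfl⟩ := IsLocalRing.residue_surjective c
      refine ⟨t • g, Submodule.smul_mem _ t hg, ?_⟩
      rw [LinearMap.baseChange_smul, ← algebraMap_smul (IsLocalRing.ResidueField T) t]
      rfl
  obtain ⟨g, hg, hgf⟩ := key (f.baseChange (IsLocalRing.ResidueField T)) (h ▸ Submodule.mem_top)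
  have h0 : (f - g).baseChange (IsLocalRing.ResidueField T) = 0 := by
    rw [LinearMap.baseChange_sub, hgf]
    exact sub_self (f.baseChange (IsLocalRing.ResidueField T))
  have hmem := bs91_mem_smul_top_of_baseChange_eq_zero (f - g) h0
  have hfg' : f = g + (f - g) := by abel
  rw [hfg']
  exact Submodule.add_mem_sup hg hmem

end Nakayama

section Trace

variable {T : Type*} [CommRing T]
variable {V : Type*} [AddCommGroup V] [Module T V] [Module.Free T V] [Module.Finite T V]

/-- **Trace pairing**: on a finite free module, `tr (X * u) = 0` for all `X` forces `u = 0`. -/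
theorem bs91_eq_zero_of_trace_mul (u : Module.End T V)
    (hu : ∀ X : Module.End T V, LinearMap.trace T V (X * u) = 0) : u = 0 := by
  classical
  let b := Module.Free.chooseBasis T V
  apply (LinearMap.toMatrix b b).injective
  rw [map_zero, Matrix.ext_iff_trace_mul_left]
  intro x
  have h1 := hu ((LinearMap.toMatrix b b).symm x)
  rw [LinearMap.trace_eq_matrix_trace T b, LinearMap.toMatrix_mul,
    LinearEquiv.apply_symm_apply] at h1
  rw [h1, Matrix.mul_zero, Matrix.trace_zero]

/-- If a set of endomorphisms spans `End V` and `tr (s * u) = 0` on the set, then `u = 0`. -/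
theorem bs91_eq_zero_of_span (S : Set (Module.End T V)) (hS : Submodule.span T S = ⊤)
    (u : Module.End T V) (hu : ∀ s ∈ S, LinearMap.trace T V (s * u) = 0) : u = 0 := by
  refine bs91_eq_zero_of_trace_mul u fun X => ?_
  have hX : X ∈ Submodule.span T S := hS ▸ Submodule.mem_top
  induction hX using Submodule.span_induction with
  | mem x hx => exact hu x hx
  | zero => rw [zero_mul, map_zero]
  | add x y _ _ hx hy => rw [add_mul, map_add, hx, hy, add_zero]
  | smul c x _ hx => rw [smul_mul_assoc, map_smul, hx, smul_zero]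

end Trace

section Galois

variable {T : Type} [CommRing T] [IsLocalRing T]

/-- **The `T`-span of `ρ(G_ℚ)` is `End_T V`** when the residual representation is absolutely
irreducible. -/
theorem bs91_span_eq_top (ρ : GaloisRepAdic T) (h : ρ.residual.IsAbsolutelyIrreducible) :
    Submodule.span T
      (Set.range fun g : AlgebraicClosure ℚ ≃ₐ[ℚ] AlgebraicClosure ℚ => ρ.ρ g) = ⊤ := by
  apply bs91_span_nakayama
  apply bs91_span_descent (L := AlgebraicClosure (IsLocalRing.ResidueField T))
  -- Burnside over the algebraic closure of the residue field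
  have hfin : Module.finrank (AlgebraicClosure (IsLocalRing.ResidueField T))
      (ρ.residual.baseChange (AlgebraicClosure (IsLocalRing.ResidueField T))).V = 2 :=
    (ρ.residual.baseChange (AlgebraicClosure (IsLocalRing.ResidueField T))).finrank_eq
  have hA := bs91_burnside2 hfin
    (Algebra.adjoin (AlgebraicClosure (IsLocalRing.ResidueField T))
      (Set.range (ρ.residual.baseChange (AlgebraicClosure (IsLocalRing.ResidueField T))).ρ))
    (fun W hW => h W fun σ x hx => hW _ (Algebra.subset_adjoin ⟨σ, rfl⟩) x hx)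
  have hspan := congrArg Subalgebra.toSubmodule hA
  rw [Algebra.adjoin_eq_span, Algebra.top_toSubmodule, ← MonoidHom.coe_mrange,
    Submonoid.closure_eq, MonoidHom.coe_mrange] at hspan
  refine Eq.trans (congrArg (Submodule.span (AlgebraicClosure (IsLocalRing.ResidueField T))) ?_)
    hspan
  ext y
  constructor
  · rintro ⟨_, ⟨_, ⟨g, rfl⟩, rfl⟩, rfl⟩
    exact ⟨g, rfl⟩
  · rintro ⟨g, rfl⟩
    exact ⟨_, ⟨_, ⟨g, rfl⟩, rfl⟩, rfl⟩

/-- **Claim B**: if `tr (ρ(g) u) = 0` for all `g`, then `u = 0`. -/
theorem bs91_eq_zero (ρ : GaloisRepAdic T) (h : ρ.residual.IsAbsolutelyIrreducible)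
    (u : Module.End T ρ.V)
    (hu : ∀ g : AlgebraicClosure ℚ ≃ₐ[ℚ] AlgebraicClosure ℚ,
      LinearMap.trace T ρ.V (ρ.ρ g * u) = 0) : u = 0 :=
  bs91_eq_zero_of_span _ (bs91_span_eq_top ρ h) u (by rintro _ ⟨g, rfl⟩; exact hu g)

/-- If `tr ρ(g τ) = tr ρ(g)` for all `g`, then `ρ(τ) = 1`. -/
theorem bs91_eq_one (ρ : GaloisRepAdic T) (h : ρ.residual.IsAbsolutelyIrreducible)
    (τ : AlgebraicClosure ℚ ≃ₐ[ℚ] AlgebraicClosure ℚ)
    (hτ : ∀ g : AlgebraicClosure ℚ ≃ₐ[ℚ] AlgebraicClosure ℚ,
      LinearMap.trace T ρ.V (ρ.ρ (g * τ)) = LinearMap.trace T ρ.V (ρ.ρ g)) : ρ.ρ τ = 1 := by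
  have h0 := bs91_eq_zero ρ h (ρ.ρ τ - 1) (fun g => by
    rw [mul_sub, mul_one, map_sub, ← map_mul, hτ, sub_self])
  exact sub_eq_zero.mp h0

/-- Unramifiedness from trace invariance under inertia. -/
theorem bs91_isUnramifiedAt (ρ : GaloisRepAdic T) (h : ρ.residual.IsAbsolutelyIrreducible)
    (q : ℕ)
    (hq : ∀ P : ValuationSubring (AlgebraicClosure ℚ), P.LiesOverPrime q →
      ∀ τ ∈ P.inertiaSubgroupIn ℚ, ∀ g : AlgebraicClosure ℚ ≃ₐ[ℚ] AlgebraicClosure ℚ,
        LinearMap.trace T ρ.V (ρ.ρ (g * τ)) = LinearMap.trace T ρ.V (ρ.ρ g)) :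
    ρ.IsUnramifiedAt q :=
  fun P hP τ hτ => bs91_eq_one ρ h τ (hq P hP τ hτ)

end Galois

end Fermat.Agent.S31
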