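import Fermat.Agent.S31.JacSideClosed1
import Fermat.Agent.S31.Burnside91
import Fermat.Prelude.Def_CuspForm_HeckeGaloisRepDatum

/-!
# S31 endgame (helper60), part E6: assembly

`s31e60_main` : the frozen statement S31 (`CuspForm.HeckeGaloisRepDatum` is unramified outside
`S`), from

* `s31j1_hecke_congr` (helper1, `JacSideClosed1`): for `g ∈ G_ℚ`, `τ` in an inertia group at
  `q ∉ S`, a number field `F` and every `k`, Frobenius elements `τ₁` at `ℓ₁ ∉ S`, `τ₂` at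
  `ℓ₂ ∉ S` with `g = τ₁ ^ j₁`, `g τ = τ₂ ^ j₂` on `F` and
  `V_{j₁}(T_{ℓ₁}, ℓ₁) - V_{j₂}(T_{ℓ₂}, ℓ₂) ∈ p ^ k 𝕋`;
* `bs91_isUnramifiedAt` (helper91, `Burnside91`): the trace criterion;
* `Lucas60`: `tr ρ(τ ^ j) = V_j(tr ρ(τ), det ρ(τ))`;
* adic continuity of `ρ` and separatedness of `T`.
-/

set_option autoImplicit false
set_option linter.style.haveILetI false

namespace Fermat.Agent.S31

open ModularCurve ModularCurve.Period CongruenceSubgroup Fermat.Agent.S42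
open Polynomial

local notation "Qb" => AlgebraicClosure ℚ
local notation "GQ" => AlgebraicClosure ℚ ≃ₐ[ℚ] AlgebraicClosure ℚ

/-! ### Traces modulo an ideal -/

/-- A linear map preserves `I • ⊤`. -/
theorem s31e60_map_mem_smul_top {A : Type*} [CommRing A] {V : Type*} [AddCommGroup V]
    [Module A V] (I : Ideal A) (f : Module.End A V) {w : V}
    (hw : w ∈ I • (⊤ : Submodule A V)) : f w ∈ I • (⊤ : Submodule A V) := by
  refine Submodule.smul_induction_on hw ?_ ?_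
  · intro a ha v _
    rw [map_smul]
    exact Submodule.smul_mem_smul ha Submodule.mem_top
  · intro x y hx hy
    rw [map_add]
    exact Submodule.add_mem _ hx hy

/-- The trace of an endomorphism with image in `I • ⊤` lies in `I`. -/
theorem s31e60_trace_mem {A : Type*} [CommRing A] {V : Type*} [AddCommGroup V] [Module A V]
    [Module.Free A V] [Module.Finite A V] (I : Ideal A) (f : Module.End A V)
    (hf : ∀ v, f v ∈ I • (⊤ : Submodule A V)) : LinearMap.trace A V f ∈ I := by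
  classical
  set b := Module.Free.chooseBasis A V with hb
  have hrepr : ∀ w ∈ I • (⊤ : Submodule A V), ∀ i, b.repr w i ∈ I := by
    intro w hw i
    refine Submodule.smul_induction_on hw ?_ ?_
    · intro a ha v _
      rw [map_smul, Finsupp.smul_apply, smul_eq_mul]
      exact I.mul_mem_right _ ha
    · intro x y hx hy
      rw [map_add, Finsupp.add_apply]
      exact I.add_mem hx hy
  rw [LinearMap.trace_eq_matrix_trace A b f, Matrix.trace]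
  refine I.sum_mem fun i _ => ?_
  rw [Matrix.diag_apply, LinearMap.toMatrix_apply]
  exact hrepr _ (hf _) i

/-- If `ρ (g⁻¹ h)` is trivial modulo `I`, then `tr ρ h ≡ tr ρ g` modulo `I`. -/
theorem s31e60_trace_congr {A : Type*} [CommRing A] {V : Type*} [AddCommGroup V] [Module A V]
    [Module.Free A V] [Module.Finite A V] {G : Type*} [Group G] (ρ : G →* Module.End A V)
    (I : Ideal A) (g h : G)
    (hgh : ∀ v, ρ (g⁻¹ * h) v - v ∈ I • (⊤ : Submodule A V)) :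
    LinearMap.trace A V (ρ h) - LinearMap.trace A V (ρ g) ∈ I := by
  rw [← map_sub]
  refine s31e60_trace_mem I _ fun v => ?_
  have e : (ρ h - ρ g) v = ρ g (ρ (g⁻¹ * h) v - v) := by
    rw [map_sub, ← Module.End.mul_apply, ← map_mul, mul_inv_cancel_left, LinearMap.sub_apply]
  rw [e]
  exact s31e60_map_mem_smul_top I _ (hgh v)

/-- If `g` and `h` agree on a field `E`, then `g⁻¹ * h` fixes `E` pointwise. -/
theorem s31e60_inv_mul_fix (E : IntermediateField ℚ Qb) (g h : GQ)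
    (hgh : ∀ x ∈ E, g x = h x) : ∀ x ∈ E, (g⁻¹ * h) x = x := by
  intro x hx
  rw [AlgEquiv.mul_apply, ← hgh x hx, ← AlgEquiv.mul_apply, inv_mul_cancel, AlgEquiv.one_apply]

section Main

variable {p : ℕ} {N : ℕ} [NeZero N] {S : Finset ℕ}
  {𝒪 : Type} [CommRing 𝒪] [IsDomain 𝒪] [IsDiscreteValuationRing 𝒪]
  [IsAdicComplete (IsLocalRing.maximalIdeal 𝒪) 𝒪]
  {θ : CuspForm.heckeAlgebra N 2 (↑S : Set ℕ) →+* IsLocalRing.ResidueField 𝒪}
  {T : Type} [CommRing T] [IsLocalRing T] [IsNoetherianRing T]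
  [IsAdicComplete (IsLocalRing.maximalIdeal T) T] [Algebra 𝒪 T] [IsLocalHom (algebraMap 𝒪 T)]
  [Module.Finite 𝒪 T] [Module.Free 𝒪 T]

/-- The trace of a power of a Frobenius element is a Lucas polynomial in the Hecke eigenvalue. -/
theorem s31e60_frob_trace (H : CuspForm.HeckeGaloisRepDatum N (↑S : Set ℕ) 𝒪 θ T)
    {ℓ : ℕ} (hℓ : ℓ.Prime) (hℓN : ¬ ℓ ∣ N) (hℓS : ℓ ∉ (↑S : Set ℕ))
    (A : ValuationSubring Qb) (hA : A.LiesOverPrime ℓ) (τ : GQ) (hτ : A.IsFrobeniusAt τ ℓ)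
    (j : ℕ) :
    LinearMap.trace T H.ρ.V (H.ρ.ρ (τ ^ j))
      = aeval (H.π (CuspForm.heckeAlgebra.T hℓ hℓN hℓS)) (s31e60_lucV (ℓ : ℤ) j) := by
  have hch := H.charpoly_frob ℓ hℓ hℓN hℓS A hA τ hτ
  obtain ⟨htr, hrel⟩ := s31e60_of_charpoly (H.ρ.ρ τ)
    (H.π (CuspForm.heckeAlgebra.T hℓ hℓN hℓS)) ((ℓ : ℕ) : T) hch
  rw [map_pow]
  refine s31e60_trace_pow H.ρ.finrank_eq (H.ρ.ρ τ) _ (ℓ : ℤ) ?_ htr j
  rw [Int.cast_natCast]
  exact hrel

/-- **S31**: a Hecke-Galois datum is unramified outside `S`. -/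
theorem s31e60_main (hp : p.Prime)
    (hp𝒪 : (p : 𝒪) ∈ IsLocalRing.maximalIdeal 𝒪) (hpS : p ∈ S)
    (hNS : ∀ q : ℕ, q.Prime → q ∣ N → q ∈ S)
    (H : CuspForm.HeckeGaloisRepDatum N (↑S : Set ℕ) 𝒪 θ T)
    (q : ℕ) (hq : q.Prime) (hqS : q ∉ S) :
    H.ρ.IsUnramifiedAt q := by
  refine bs91_isUnramifiedAt H.ρ H.residual_absIrr q (fun P hP τ hτ g => ?_)
  -- `p` lies in the maximal ideal of `T`
  have hpT : (p : T) ∈ IsLocalRing.maximalIdeal T := by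
    have h1 : (algebraMap 𝒪 T) (p : 𝒪) ∈ IsLocalRing.maximalIdeal T := by
      rw [IsLocalRing.mem_maximalIdeal, mem_nonunits_iff] at hp𝒪 ⊢
      exact fun hu => hp𝒪 (isUnit_of_map_unit (algebraMap 𝒪 T) _ hu)
    rwa [map_natCast] at h1
  -- the congruence modulo every power of the maximal ideal
  have key : ∀ n : ℕ, LinearMap.trace T H.ρ.V (H.ρ.ρ (g * τ))
      - LinearMap.trace T H.ρ.V (H.ρ.ρ g) ∈ IsLocalRing.maximalIdeal T ^ n := by
    intro n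
    obtain ⟨E, hE, hcont⟩ := H.ρ.isAdicContinuous n
    haveI := hE
    obtain ⟨ℓ₁, ℓ₂, hℓ₁, hℓ₂, hℓ₁N, hℓ₂N, hℓ₁S, hℓ₂S, A₁, A₂, τ₁, τ₂, j₁, j₂, hA₁, hA₂, hτ₁,
      hτ₂, hg₁, hg₂, t', ht'⟩ := s31j1_hecke_congr N S hp hpS hNS n hq hqS P hP τ hτ g E
    have c1 := s31e60_trace_congr H.ρ.ρ (IsLocalRing.maximalIdeal T ^ n) g (τ₁ ^ j₁)
      (fun v => hcont _ (s31e60_inv_mul_fix E g (τ₁ ^ j₁) hg₁) v)
    have c2 := s31e60_trace_congr H.ρ.ρ (IsLocalRing.maximalIdeal T ^ n) (g * τ) (τ₂ ^ j₂)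
      (fun v => hcont _ (s31e60_inv_mul_fix E (g * τ) (τ₂ ^ j₂) hg₂) v)
    rw [s31e60_frob_trace H hℓ₁ hℓ₁N hℓ₁S A₁ hA₁ τ₁ hτ₁ j₁] at c1
    rw [s31e60_frob_trace H hℓ₂ hℓ₂N hℓ₂S A₂ hA₂ τ₂ hτ₂ j₂] at c2
    have c3 : aeval (H.π (CuspForm.heckeAlgebra.T hℓ₁ hℓ₁N hℓ₁S)) (s31e60_lucV (ℓ₁ : ℤ) j₁)
        - aeval (H.π (CuspForm.heckeAlgebra.T hℓ₂ hℓ₂N hℓ₂S)) (s31e60_lucV (ℓ₂ : ℤ) j₂)
        ∈ IsLocalRing.maximalIdeal T ^ n := by
      have h3 := congrArg H.π ht'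
      rw [map_sub, s31e60_map_aeval_lucV, s31e60_map_aeval_lucV, map_zsmul, zsmul_eq_mul,
        Int.cast_pow, Int.cast_natCast] at h3
      rw [h3]
      exact Ideal.mul_mem_right _ _ (Ideal.pow_mem_pow hpT n)
    have e : LinearMap.trace T H.ρ.V (H.ρ.ρ (g * τ)) - LinearMap.trace T H.ρ.V (H.ρ.ρ g)
        = (aeval (H.π (CuspForm.heckeAlgebra.T hℓ₁ hℓ₁N hℓ₁S)) (s31e60_lucV (ℓ₁ : ℤ) j₁)
            - LinearMap.trace T H.ρ.V (H.ρ.ρ g))
          - (aeval (H.π (CuspForm.heckeAlgebra.T hℓ₂ hℓ₂N hℓ₂S)) (s31e60_lucV (ℓ₂ : ℤ) j₂)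
            - LinearMap.trace T H.ρ.V (H.ρ.ρ (g * τ)))
          - (aeval (H.π (CuspForm.heckeAlgebra.T hℓ₁ hℓ₁N hℓ₁S)) (s31e60_lucV (ℓ₁ : ℤ) j₁)
            - aeval (H.π (CuspForm.heckeAlgebra.T hℓ₂ hℓ₂N hℓ₂S))
                (s31e60_lucV (ℓ₂ : ℤ) j₂)) := by
      ring
    rw [e]
    exact Ideal.sub_mem _ (Ideal.sub_mem _ c1 c2) c3
  -- separatedness of `T`
  have hH : IsHausdorff (IsLocalRing.maximalIdeal T) T := inferInstance
  have h0 := hH.haus' (LinearMap.trace T H.ρ.V (H.ρ.ρ (g * τ))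
      - LinearMap.trace T H.ρ.V (H.ρ.ρ g)) (fun n => by
    rw [SModEq.zero, smul_eq_mul, Ideal.mul_top]
    exact key n)
  exact sub_eq_zero.mp h0

end Main

end Fermat.Agent.S31
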