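/-
S31 rider, row E1 (helper66): Burnside for rank 2 + Nakayama, trace form ("Claim B").

For `ρ : GaloisRepAdic T` over a local ring `T` with absolutely irreducible residual
representation:
* `bs66_span`  : the operators `ρ g` span `End_T(V)`;
* `bs66_main`  : `tr (ρ g ∘ u) = 0` for all `g` implies `u = 0`;
* `bs66_eq_one`: if `tr ρ (g τ) = tr ρ g` for all `g` then `ρ τ = 1`;
* `bs66_isUnramifiedAt`: the corresponding unramifiedness criterion.
Matrix-level statements (`bs66_burnside`, `bs66_span_field`, `bs66_span_local`,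
`bs66_trace_local`) hold for an arbitrary monoid of `2 × 2` matrices.
-/
import Mathlib
import Fermat.Prelude.Def_GaloisRep_Adic

set_option autoImplicit false

namespace Fermat.Agent.S31

open Matrix

/-- Polarised Cayley–Hamilton for `2 × 2` matrices. -/
theorem bs66_mul_mul {R : Type*} [CommRing R] (B C : Matrix (Fin 2) (Fin 2) R) :
    B * C * B = (B * C).trace • B - B.det • C.adjugate := by
  ext i j
  fin_cases i <;> fin_cases j <;>
    simp [Matrix.mul_apply, Fin.sum_univ_two, Matrix.trace, Matrix.det_fin_two,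
      Matrix.adjugate_fin_two] <;> ring

theorem bs66_mul_mul_of_det {R : Type*} [CommRing R] (B C : Matrix (Fin 2) (Fin 2) R)
    (hB : B.det = 0) (hC : (B * C).trace = 0) : B * C * B = 0 := by
  rw [bs66_mul_mul, hB, hC, zero_smul, zero_smul, sub_zero]

variable {K : Type*} [Field K]

theorem bs66_eq_zero_of_indep (M : Matrix (Fin 2) (Fin 2) K) (x y : Fin 2 → K) (hx : x ≠ 0)
    (hy : ∀ c : K, y ≠ c • x) (h1 : M *ᵥ x = 0) (h2 : M *ᵥ y = 0) : M = 0 := by
  have hd : x 0 * y 1 - x 1 * y 0 ≠ 0 := by
    intro hd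
    by_cases h0 : x 0 = 0
    · have h1' : x 1 ≠ 0 := by
        intro h1'
        apply hx
        funext i
        fin_cases i
        · exact h0
        · exact h1'
      have hy0 : y 0 = 0 := by
        rw [h0, zero_mul, zero_sub, neg_eq_zero] at hd
        exact (mul_eq_zero.mp hd).resolve_left h1'
      apply hy (y 1 / x 1)
      funext i
      fin_cases i
      · simp [hy0, h0]
      · simp [h1']
    · apply hy (y 0 / x 0)
      funext i
      fin_cases i
      · simp [h0]
      · simp only [Fin.mk_one, Pi.smul_apply, smul_eq_mul]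
        field_simp
        linear_combination hd
  have e1 : ∀ i, M i 0 * x 0 + M i 1 * x 1 = 0 := by
    intro i
    have := congrFun h1 i
    simpa [Matrix.mulVec, dotProduct, Fin.sum_univ_two] using this
  have e2 : ∀ i, M i 0 * y 0 + M i 1 * y 1 = 0 := by
    intro i
    have := congrFun h2 i
    simpa [Matrix.mulVec, dotProduct, Fin.sum_univ_two] using this
  ext i j
  fin_cases j
  · have : M i 0 * (x 0 * y 1 - x 1 * y 0) = 0 := by
      linear_combination y 1 * e1 i - x 1 * e2 i
    simpa using (mul_eq_zero.mp this).resolve_right hd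
  · have : M i 1 * (x 0 * y 1 - x 1 * y 0) = 0 := by
      linear_combination x 0 * e2 i - y 0 * e1 i
    simpa using (mul_eq_zero.mp this).resolve_right hd


/-- **Burnside for `2 × 2` matrices, trace form.**  If a monoid of `2 × 2` matrices over an
algebraically closed field has no common eigenvector, then the trace form separates:
`tr (R g * U) = 0` for all `g` forces `U = 0`. -/
theorem bs66_burnside [IsAlgClosed K] {G : Type*} [Monoid G]
    (R : G →* Matrix (Fin 2) (Fin 2) K)
    (hirr : ∀ v : Fin 2 → K, v ≠ 0 → ∃ g : G, ∀ c : K, R g *ᵥ v ≠ c • v)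
    (U : Matrix (Fin 2) (Fin 2) K) (hU : ∀ g, (R g * U).trace = 0) : U = 0 := by
  classical
  obtain ⟨g0, hg0⟩ := hirr (Pi.single 0 1) (by
    intro h
    have := congrFun h 0
    simp at this)
  obtain ⟨lam, hlam⟩ := Module.End.exists_eigenvalue (Matrix.toLin' (R g0))
  obtain ⟨v, hv⟩ := hlam.exists_hasEigenvector
  have hv0 : v ≠ 0 := hv.2
  have hAv : R g0 *ᵥ v = lam • v := by
    have := hv.apply_eq_smul
    simpa [Matrix.toLin'_apply] using this
  obtain ⟨B, hB⟩ : ∃ B : Matrix (Fin 2) (Fin 2) K, B = R g0 - lam • (1 : Matrix (Fin 2) (Fin 2) K) :=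
    ⟨_, rfl⟩
  have hBv : B *ᵥ v = 0 := by
    rw [hB, Matrix.sub_mulVec, hAv, Matrix.smul_mulVec, Matrix.one_mulVec, sub_self]
  have hBdet : B.det = 0 := Matrix.exists_mulVec_eq_zero_iff.mp ⟨v, hv0, hBv⟩
  have hB0 : B ≠ 0 := by
    intro h0
    have hAeq : R g0 = lam • (1 : Matrix (Fin 2) (Fin 2) K) := sub_eq_zero.mp (hB ▸ h0)
    apply hg0 lam
    rw [hAeq, Matrix.smul_mulVec, Matrix.one_mulVec]
  have key : ∀ g1 g2 : G, B * (R g2 * U * R g1) * B = 0 := by
    intro g1 g2
    apply bs66_mul_mul_of_det _ _ hBdet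
    have e1 : (R g0 * (R g2 * U * R g1)).trace = 0 := by
      have h1 : R g0 * (R g2 * U * R g1) = (R g0 * R g2 * U) * R g1 := by
        simp only [Matrix.mul_assoc]
      rw [h1, Matrix.trace_mul_comm, ← Matrix.mul_assoc, ← Matrix.mul_assoc, ← map_mul, ← map_mul]
      exact hU _
    have e2 : (R g2 * U * R g1).trace = 0 := by
      rw [Matrix.trace_mul_comm, ← Matrix.mul_assoc, ← map_mul]
      exact hU _
    rw [hB, Matrix.sub_mul, Matrix.trace_sub, e1, Matrix.smul_mul, Matrix.one_mul,
      Matrix.trace_smul, e2, smul_zero, sub_zero]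
  obtain ⟨x, hx⟩ : ∃ x : Fin 2 → K, B *ᵥ x ≠ 0 := by
    by_contra hcon
    have hcon : ∀ x : Fin 2 → K, B *ᵥ x = 0 := fun x => by
      by_contra hx
      exact hcon ⟨x, hx⟩
    apply hB0
    ext i j
    have := congrFun (hcon (Pi.single j 1)) i
    simpa using this
  have step1 : ∀ g1 : G, U *ᵥ (R g1 *ᵥ (B *ᵥ x)) = 0 := by
    intro g1
    by_contra hz
    obtain ⟨g, hg⟩ := hirr _ hz
    apply hB0
    refine bs66_eq_zero_of_indep B _ _ hz hg ?_ ?_
    · have h := key g1 1
      have h2 : B *ᵥ (U *ᵥ (R g1 *ᵥ (B *ᵥ x))) = (B * (R 1 * U * R g1) * B) *ᵥ x := by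
        simp only [map_one, Matrix.one_mul, Matrix.mulVec_mulVec, Matrix.mul_assoc]
      rw [h2, h, Matrix.zero_mulVec]
    · have h := key g1 g
      have h2 : B *ᵥ (R g *ᵥ (U *ᵥ (R g1 *ᵥ (B *ᵥ x)))) = (B * (R g * U * R g1) * B) *ᵥ x := by
        simp only [Matrix.mulVec_mulVec, Matrix.mul_assoc]
      rw [h2, h, Matrix.zero_mulVec]
  obtain ⟨g, hg⟩ := hirr _ hx
  refine bs66_eq_zero_of_indep U _ _ hx hg ?_ (step1 g)
  have := step1 1
  simpa using this

/-- Descent of the span: over any field `k` with a map to an algebraically closed field in which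
the representation has no common eigenvector, the matrices `R g` span `M₂(k)`. -/
theorem bs66_span_field {k : Type*} [Field k] [IsAlgClosed K] (φ : k →+* K)
    {G : Type*} [Monoid G] (R : G →* Matrix (Fin 2) (Fin 2) k)
    (hirr : ∀ v : Fin 2 → K, v ≠ 0 → ∃ g : G, ∀ c : K, (R g).map φ *ᵥ v ≠ c • v) :
    Submodule.span k (Set.range R) = ⊤ := by
  classical
  by_contra hne
  obtain ⟨f, hf0, hf⟩ := Submodule.exists_le_ker_of_lt_top _ (lt_top_iff_ne_top.mpr hne)
  obtain ⟨U0, hU0⟩ : ∃ U0 : Matrix (Fin 2) (Fin 2) k,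
      ∀ i j, U0 i j = f (Matrix.single j i 1) := ⟨Matrix.of fun i j => f (Matrix.single j i 1),
    fun i j => rfl⟩
  have hfA : ∀ A : Matrix (Fin 2) (Fin 2) k, f A = (A * U0).trace := by
    intro A
    have hA : A = ∑ i, ∑ j, A i j • Matrix.single i j (1 : k) := by
      conv_lhs => rw [Matrix.matrix_eq_sum_single A]
      simp [Matrix.smul_single]
    conv_lhs => rw [hA]
    simp only [map_sum, map_smul, smul_eq_mul, Matrix.trace, Matrix.diag, Matrix.mul_apply, hU0]
  have hRK : ∀ g, ((φ.mapMatrix.toMonoidHom.comp R) g * U0.map φ).trace = 0 := by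
    intro g
    have h1 : f (R g) = 0 := hf (Submodule.subset_span ⟨g, rfl⟩)
    rw [hfA] at h1
    have h2 : (φ.mapMatrix.toMonoidHom.comp R) g * U0.map φ = (R g * U0).map φ := by
      rw [Matrix.map_mul]
      rfl
    rw [h2, ← AddMonoidHom.map_trace, h1, map_zero]
  have hU0' : U0.map φ = 0 :=
    bs66_burnside (φ.mapMatrix.toMonoidHom.comp R) hirr (U0.map φ) hRK
  have hU00 : U0 = 0 := by
    apply Matrix.map_injective φ.injective
    show U0.map φ = (0 : Matrix (Fin 2) (Fin 2) k).map φ
    rw [hU0']
    ext i j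
    simp
  apply hf0
  ext A
  rw [hfA, hU00, Matrix.mul_zero, Matrix.trace_zero]
  rfl

/-- Nakayama: over a local ring, if the residual representation has no common eigenvector over
an algebraically closed extension of the residue field, the matrices `R g` span `M₂(T)`. -/
theorem bs66_span_local {T : Type*} [CommRing T] [IsLocalRing T] [IsAlgClosed K]
    (φ : IsLocalRing.ResidueField T →+* K) {G : Type*} [Monoid G]
    (R : G →* Matrix (Fin 2) (Fin 2) T)
    (hirr : ∀ v : Fin 2 → K, v ≠ 0 → ∃ g : G, ∀ c : K,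
      ((R g).map (IsLocalRing.residue T)).map φ *ᵥ v ≠ c • v) :
    Submodule.span T (Set.range R) = ⊤ := by
  classical
  have hk : Submodule.span (IsLocalRing.ResidueField T)
      (Set.range ((IsLocalRing.residue T).mapMatrix.toMonoidHom.comp R)) = ⊤ :=
    bs66_span_field φ ((IsLocalRing.residue T).mapMatrix.toMonoidHom.comp R) hirr
  let S' : Submodule (IsLocalRing.ResidueField T)
      (Matrix (Fin 2) (Fin 2) (IsLocalRing.ResidueField T)) :=
    { carrier := {Abar | ∃ A ∈ Submodule.span T (Set.range R),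
        A.map (IsLocalRing.residue T) = Abar}
      add_mem' := by
        rintro _ _ ⟨A, hA, rfl⟩ ⟨A', hA', rfl⟩
        exact ⟨A + A', Submodule.add_mem _ hA hA', by ext i j; simp⟩
      zero_mem' := ⟨0, Submodule.zero_mem _, by ext i j; simp⟩
      smul_mem' := by
        rintro c _ ⟨A, hA, rfl⟩
        obtain ⟨t, rfl⟩ := IsLocalRing.residue_surjective c
        exact ⟨t • A, Submodule.smul_mem _ t hA, by ext i j; simp⟩ }
  have hS' : ∀ Abar : Matrix (Fin 2) (Fin 2) (IsLocalRing.ResidueField T), Abar ∈ S' := by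
    intro Abar
    have h1 : Abar ∈ Submodule.span (IsLocalRing.ResidueField T)
        (Set.range ((IsLocalRing.residue T).mapMatrix.toMonoidHom.comp R)) := by
      rw [hk]; trivial
    refine (Submodule.span_le.mpr ?_) h1
    rintro _ ⟨g, rfl⟩
    exact ⟨R g, Submodule.subset_span ⟨g, rfl⟩, rfl⟩
  apply eq_top_iff.mpr
  apply Submodule.le_of_le_smul_of_le_jacobson_bot (I := IsLocalRing.maximalIdeal T)
    Module.Finite.fg_top (IsLocalRing.maximalIdeal_le_jacobson ⊥)
  intro A _
  obtain ⟨A', hA', hAA'⟩ := hS' (A.map (IsLocalRing.residue T))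
  have hent : ∀ i j, (A - A') i j ∈ IsLocalRing.maximalIdeal T := by
    intro i j
    rw [← IsLocalRing.residue_eq_zero_iff]
    have := congrFun (congrFun hAA' i) j
    simp only [Matrix.map_apply] at this
    simp [this]
  have hmem : A - A' ∈ IsLocalRing.maximalIdeal T •
      (⊤ : Submodule T (Matrix (Fin 2) (Fin 2) T)) := by
    rw [Matrix.matrix_eq_sum_single (A - A')]
    refine Submodule.sum_mem _ fun i _ => Submodule.sum_mem _ fun j _ => ?_
    have h1 : Matrix.single i j ((A - A') i j) = (A - A') i j • Matrix.single i j (1 : T) := by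
      simp [Matrix.smul_single]
    rw [h1]
    exact Submodule.smul_mem_smul (hent i j) Submodule.mem_top
  have h2 : A = A' + (A - A') := by abel
  rw [h2]
  exact Submodule.add_mem_sup hA' hmem

/-- Trace form over a local ring. -/
theorem bs66_trace_local {T : Type*} [CommRing T] [IsLocalRing T] [IsAlgClosed K]
    (φ : IsLocalRing.ResidueField T →+* K) {G : Type*} [Monoid G]
    (R : G →* Matrix (Fin 2) (Fin 2) T)
    (hirr : ∀ v : Fin 2 → K, v ≠ 0 → ∃ g : G, ∀ c : K,
      ((R g).map (IsLocalRing.residue T)).map φ *ᵥ v ≠ c • v)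
    (U : Matrix (Fin 2) (Fin 2) T) (hU : ∀ g, (R g * U).trace = 0) : U = 0 := by
  classical
  have hspan := bs66_span_local φ R hirr
  have hall : ∀ A : Matrix (Fin 2) (Fin 2) T, (A * U).trace = 0 := by
    intro A
    have hA : A ∈ Submodule.span T (Set.range R) := by rw [hspan]; trivial
    induction hA using Submodule.span_induction with
    | mem x hx => obtain ⟨g, rfl⟩ := hx; exact hU g
    | zero => simp
    | add x y _ _ hx hy => rw [Matrix.add_mul, Matrix.trace_add, hx, hy, add_zero]
    | smul a x _ hx => rw [Matrix.smul_mul, Matrix.trace_smul, hx, smul_zero]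
  rw [Matrix.ext_iff_trace_mul_left]
  intro A
  rw [hall A, Matrix.mul_zero, Matrix.trace_zero]


section Adic

open scoped TensorProduct
open Module

variable {T : Type} [CommRing T] [IsLocalRing T]

/-- The matrix form of a rank-2 adic Galois representation with respect to a basis. -/
noncomputable def bs66_mat (ρ : GaloisRepAdic T) (b : Basis (Fin 2) T ρ.V) :
    (AlgebraicClosure ℚ ≃ₐ[ℚ] AlgebraicClosure ℚ) →* Matrix (Fin 2) (Fin 2) T where
  toFun g := LinearMap.toMatrix b b (ρ.ρ g)
  map_one' := by rw [map_one]; exact LinearMap.toMatrix_one b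
  map_mul' g h := by rw [map_mul]; exact LinearMap.toMatrix_mul b _ _

theorem bs66_mat_apply (ρ : GaloisRepAdic T) (b : Basis (Fin 2) T ρ.V)
    (g : AlgebraicClosure ℚ ≃ₐ[ℚ] AlgebraicClosure ℚ) :
    bs66_mat ρ b g = LinearMap.toMatrix b b (ρ.ρ g) := rfl

/-- Residual absolute irreducibility, in matrix form: no common eigenvector over the algebraic
closure of the residue field. -/
theorem bs66_hirr (ρ : GaloisRepAdic T) (hirr : ρ.residual.IsAbsolutelyIrreducible)
    (b : Basis (Fin 2) T ρ.V) :
    ∀ v : Fin 2 → AlgebraicClosure (IsLocalRing.ResidueField T), v ≠ 0 → ∃ g,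
      ∀ c : AlgebraicClosure (IsLocalRing.ResidueField T),
      ((bs66_mat ρ b g).map (IsLocalRing.residue T)).map
        (algebraMap (IsLocalRing.ResidueField T)
          (AlgebraicClosure (IsLocalRing.ResidueField T))) *ᵥ v ≠ c • v := by
  classical
  intro v hv
  by_contra hcon
  have hcon : ∀ g, ∃ c : AlgebraicClosure (IsLocalRing.ResidueField T),
      ((bs66_mat ρ b g).map (IsLocalRing.residue T)).map
        (algebraMap (IsLocalRing.ResidueField T)
          (AlgebraicClosure (IsLocalRing.ResidueField T))) *ᵥ v = c • v := by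
    intro g
    by_contra hg
    exact hcon ⟨g, fun c hc => hg ⟨c, hc⟩⟩
  let bk : Basis (Fin 2) (IsLocalRing.ResidueField T) (IsLocalRing.ResidueField T ⊗[T] ρ.V) :=
    Algebra.TensorProduct.basis (IsLocalRing.ResidueField T) b
  let bK : Basis (Fin 2) (AlgebraicClosure (IsLocalRing.ResidueField T))
      (ρ.residual.baseChange (AlgebraicClosure (IsLocalRing.ResidueField T))).V :=
    Algebra.TensorProduct.basis (AlgebraicClosure (IsLocalRing.ResidueField T)) bk
  have hmat : ∀ g, LinearMap.toMatrix bK bK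
      ((ρ.residual.baseChange (AlgebraicClosure (IsLocalRing.ResidueField T))).ρ g) =
      ((bs66_mat ρ b g).map (IsLocalRing.residue T)).map
        (algebraMap (IsLocalRing.ResidueField T)
          (AlgebraicClosure (IsLocalRing.ResidueField T))) := by
    intro g
    show LinearMap.toMatrix
      (Algebra.TensorProduct.basis (AlgebraicClosure (IsLocalRing.ResidueField T)) bk)
      (Algebra.TensorProduct.basis (AlgebraicClosure (IsLocalRing.ResidueField T)) bk)
      (((ρ.ρ g).baseChange (IsLocalRing.ResidueField T)).baseChange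
      (AlgebraicClosure (IsLocalRing.ResidueField T))) = _
    rw [LinearMap.toMatrix_baseChange, LinearMap.toMatrix_baseChange,
      IsLocalRing.ResidueField.algebraMap_eq]
    rfl
  obtain ⟨w, hw⟩ : ∃ w : (ρ.residual.baseChange
      (AlgebraicClosure (IsLocalRing.ResidueField T))).V, bK.equivFun w = v :=
    ⟨bK.equivFun.symm v, LinearEquiv.apply_symm_apply _ _⟩
  have hw0 : w ≠ 0 := by
    rintro rfl
    apply hv
    rw [← hw, map_zero]
  have hstab : ∀ g, ∃ c : AlgebraicClosure (IsLocalRing.ResidueField T),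
      (ρ.residual.baseChange (AlgebraicClosure (IsLocalRing.ResidueField T))).ρ g w = c • w := by
    intro g
    obtain ⟨c, hc⟩ := hcon g
    refine ⟨c, bK.equivFun.injective ?_⟩
    rw [map_smul, hw, ← hc, ← hmat g, ← hw]
    exact (LinearMap.toMatrix_mulVec_repr bK bK
      ((ρ.residual.baseChange (AlgebraicClosure (IsLocalRing.ResidueField T))).ρ g) w).symm
  have hL := hirr (Submodule.span (AlgebraicClosure (IsLocalRing.ResidueField T)) {w}) (by
    intro g x hx
    obtain ⟨a, rfl⟩ := Submodule.mem_span_singleton.mp hx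
    obtain ⟨c, hc⟩ := hstab g
    rw [LinearMap.map_smul, hc]
    exact Submodule.smul_mem _ _ (Submodule.smul_mem _ _ (Submodule.mem_span_singleton_self w)))
  rcases hL with hL | hL
  · apply hw0
    have : w ∈ Submodule.span (AlgebraicClosure (IsLocalRing.ResidueField T)) {w} :=
      Submodule.mem_span_singleton_self w
    rw [hL] at this
    exact (Submodule.mem_bot _).mp this
  · have h1 := finrank_span_singleton (K := AlgebraicClosure (IsLocalRing.ResidueField T)) hw0
    rw [hL, finrank_top] at h1
    have h2 := (ρ.residual.baseChange (AlgebraicClosure (IsLocalRing.ResidueField T))).finrank_eq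
    omega

/-- **Claim B (Burnside + Nakayama).**  For a rank-2 representation over a local ring whose
residual representation is absolutely irreducible, the operators `ρ g` span `End_T(V)`. -/
theorem bs66_span (ρ : GaloisRepAdic T) (hirr : ρ.residual.IsAbsolutelyIrreducible) :
    Submodule.span T (Set.range ρ.ρ) = ⊤ := by
  classical
  let b : Basis (Fin 2) T ρ.V := Module.finBasisOfFinrankEq T ρ.V ρ.finrank_eq
  have h := bs66_span_local (algebraMap (IsLocalRing.ResidueField T)
    (AlgebraicClosure (IsLocalRing.ResidueField T))) (bs66_mat ρ b) (bs66_hirr ρ hirr b)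
  apply eq_top_iff.mpr
  intro f _
  have hf : LinearMap.toMatrix b b f ∈ Submodule.span T (Set.range (bs66_mat ρ b)) := by
    rw [h]; trivial
  have himg : Submodule.span T (Set.range (bs66_mat ρ b)) =
      (Submodule.span T (Set.range ρ.ρ)).map (LinearMap.toMatrix b b).toLinearMap := by
    rw [Submodule.map_span, ← Set.range_comp]
    rfl
  rw [himg] at hf
  obtain ⟨f', hf', hff'⟩ := hf
  have : f' = f := (LinearMap.toMatrix b b).injective hff'
  rw [← this]
  exact hf'

/-- **Claim B, trace form.**  If `tr (ρ g ∘ u) = 0` for every `g` then `u = 0`. -/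
theorem bs66_main (ρ : GaloisRepAdic T) (hirr : ρ.residual.IsAbsolutelyIrreducible)
    (u : Module.End T ρ.V) (h : ∀ g, LinearMap.trace T ρ.V (ρ.ρ g * u) = 0) : u = 0 := by
  classical
  let b : Basis (Fin 2) T ρ.V := Module.finBasisOfFinrankEq T ρ.V ρ.finrank_eq
  have hU := bs66_trace_local (algebraMap (IsLocalRing.ResidueField T)
    (AlgebraicClosure (IsLocalRing.ResidueField T))) (bs66_mat ρ b) (bs66_hirr ρ hirr b)
    (LinearMap.toMatrix b b u) (by
      intro g
      rw [bs66_mat_apply, ← LinearMap.toMatrix_mul, ← LinearMap.trace_eq_matrix_trace T b]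
      exact h g)
  exact (LinearMap.toMatrix b b).injective (by rw [hU, map_zero])

/-- Consequence used for unramifiedness: if right translation by `τ` does not change any trace,
then `ρ τ = 1`. -/
theorem bs66_eq_one (ρ : GaloisRepAdic T) (hirr : ρ.residual.IsAbsolutelyIrreducible)
    (τ : AlgebraicClosure ℚ ≃ₐ[ℚ] AlgebraicClosure ℚ)
    (h : ∀ g, ρ.trace (g * τ) = ρ.trace g) : ρ.ρ τ = 1 := by
  have h0 := bs66_main ρ hirr (ρ.ρ τ - 1) (by
    intro g
    rw [mul_sub, mul_one, map_sub, ← map_mul, sub_eq_zero]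
    exact h g)
  exact sub_eq_zero.mp h0

/-- Unramifiedness criterion: if inertia at `q` does not change traces, `ρ` is unramified
at `q`. -/
theorem bs66_isUnramifiedAt (ρ : GaloisRepAdic T) (hirr : ρ.residual.IsAbsolutelyIrreducible)
    (q : ℕ)
    (h : ∀ P : ValuationSubring (AlgebraicClosure ℚ), P.LiesOverPrime q →
      ∀ τ ∈ P.inertiaSubgroupIn ℚ, ∀ g, ρ.trace (g * τ) = ρ.trace g) :
    ρ.IsUnramifiedAt q :=
  fun P hP τ hτ => bs66_eq_one ρ hirr τ (h P hP τ hτ)

end Adic

end Fermat.Agent.S31
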