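import Mathlib
import Fermat.Prelude.Def_GaloisRep_Adic

/-!
# S31 rider, safety twin of row E6 (helper72), part 1: generic algebra

* `s31g72_trace_mem` : an endomorphism of a finite free module with image in `I • ⊤` has trace
  in `I`.
* `s31g72_trace_sub_mem` : adic continuity at level `n`: if `g'⁻¹ g` fixes the level-`n` field,
  then `tr ρ(g) - tr ρ(g') ∈ 𝔪 ^ n`.
* `s31g72_aeval_intertwine` : an additive map intertwining two endomorphisms intertwines all
  integer polynomials in them.
* `s31g72_fst_aeval`, `s31g72_snd_aeval` : components of `aeval` in a product algebra.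
* `s31g72_map_mem_of_normal`, `s31g72_fix_mul_inv`, `s31g72_fix_inv_mul` : automorphisms agreeing
  on a normal subfield.

All names are prefixed `s31g72_`.
-/

set_option autoImplicit false

namespace Fermat.Agent.S31

open Polynomial

local notation "Qb" => AlgebraicClosure ℚ
local notation "GQ" => AlgebraicClosure ℚ ≃ₐ[ℚ] AlgebraicClosure ℚ

section Trace

variable {A : Type*} [CommRing A] {V : Type*} [AddCommGroup V] [Module A V]

/-- Coordinates of an element of `I • ⊤` lie in `I`. -/
theorem s31g72_repr_mem {ι : Type*} (b : Module.Basis ι A V) (I : Ideal A) {x : V}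
    (hx : x ∈ I • (⊤ : Submodule A V)) (i : ι) : b.repr x i ∈ I := by
  refine Submodule.smul_induction_on (p := fun x => b.repr x i ∈ I) hx ?_ ?_
  · intro a ha w _
    rw [map_smul, Finsupp.smul_apply, smul_eq_mul]
    exact I.mul_mem_right _ ha
  · intro x y hx hy
    rw [map_add, Finsupp.add_apply]
    exact I.add_mem hx hy

/-- An endomorphism of a finite free module with image in `I • ⊤` has trace in `I`. -/
theorem s31g72_trace_mem [Module.Free A V] [Module.Finite A V] (I : Ideal A)
    (f : Module.End A V) (hf : ∀ v, f v ∈ I • (⊤ : Submodule A V)) :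
    LinearMap.trace A V f ∈ I := by
  classical
  rw [LinearMap.trace_eq_matrix_trace A (Module.Free.chooseBasis A V) f, Matrix.trace]
  refine I.sum_mem fun i _ => ?_
  rw [Matrix.diag_apply, LinearMap.toMatrix_apply]
  exact s31g72_repr_mem _ I (hf _) i

/-- A linear map preserves `I • ⊤`. -/
theorem s31g72_map_smul_top (I : Ideal A) (f : Module.End A V) {x : V}
    (hx : x ∈ I • (⊤ : Submodule A V)) : f x ∈ I • (⊤ : Submodule A V) := by
  refine Submodule.smul_induction_on (p := fun x => f x ∈ I • (⊤ : Submodule A V)) hx ?_ ?_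
  · intro a ha w _
    rw [map_smul]
    exact Submodule.smul_mem_smul ha Submodule.mem_top
  · intro x y hx hy
    rw [map_add]
    exact Submodule.add_mem _ hx hy

end Trace

section Continuity

variable {T : Type} [CommRing T] [IsLocalRing T]

/-- **Trace congruence from adic continuity.**  If `g'⁻¹ * g` acts trivially modulo `𝔪 ^ n`
then `tr ρ(g) ≡ tr ρ(g')` modulo `𝔪 ^ n`. -/
theorem s31g72_trace_sub_mem (ρ : GaloisRepAdic T) (n : ℕ) (g g' : GQ)
    (h : ∀ v : ρ.V, ρ.ρ (g'⁻¹ * g) v - v ∈
      (IsLocalRing.maximalIdeal T ^ n) • (⊤ : Submodule T ρ.V)) :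
    LinearMap.trace T ρ.V (ρ.ρ g) - LinearMap.trace T ρ.V (ρ.ρ g') ∈
      IsLocalRing.maximalIdeal T ^ n := by
  rw [← map_sub]
  refine s31g72_trace_mem _ _ fun v => ?_
  have e : ρ.ρ g = ρ.ρ g' * ρ.ρ (g'⁻¹ * g) := by
    rw [← map_mul, mul_inv_cancel_left]
  have e2 : (ρ.ρ g - ρ.ρ g') v = ρ.ρ g' (ρ.ρ (g'⁻¹ * g) v - v) := by
    rw [LinearMap.sub_apply, e, Module.End.mul_apply, map_sub]
  rw [e2]
  exact s31g72_map_smul_top _ _ (h v)

end Continuity

section Intertwine

/-- An additive map intertwining two endomorphisms intertwines every integer polynomial in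
them. -/
theorem s31g72_aeval_intertwine {M₁ M₂ : Type*} [AddCommGroup M₁] [AddCommGroup M₂]
    (Θ : M₁ →+ M₂) (T₁ : Module.End ℤ M₁) (T₂ : Module.End ℤ M₂)
    (h : ∀ x, Θ (T₁ x) = T₂ (Θ x)) (q : Polynomial ℤ) (x : M₁) :
    Θ (aeval T₁ q x) = aeval T₂ q (Θ x) := by
  have hpow : ∀ (n : ℕ) (x : M₁), Θ ((T₁ ^ n) x) = (T₂ ^ n) (Θ x) := by
    intro n
    induction n with
    | zero => intro x; simp
    | succ n ih =>
      intro x
      rw [pow_succ, pow_succ, Module.End.mul_apply, Module.End.mul_apply, ih, h]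
  induction q using Polynomial.induction_on' with
  | add q₁ q₂ h₁ h₂ =>
    rw [map_add, map_add, LinearMap.add_apply, LinearMap.add_apply, map_add, h₁, h₂]
  | monomial n a =>
    rw [aeval_monomial, aeval_monomial, Module.algebraMap_end_eq_smul_id,
      Module.algebraMap_end_eq_smul_id]
    simp only [LinearMap.smul_apply, Module.End.mul_apply, LinearMap.id_coe, id_eq, map_zsmul,
      hpow]

/-- First component of `aeval` in a product algebra. -/
theorem s31g72_fst_aeval {A B : Type*} [Ring A] [Ring B] (a : A) (b : B) (q : Polynomial ℤ) :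
    (aeval ((a, b) : A × B) q).1 = aeval a q :=
  (Polynomial.aeval_algHom_apply (AlgHom.fst ℤ A B) ((a, b) : A × B) q).symm

/-- Second component of `aeval` in a product algebra. -/
theorem s31g72_snd_aeval {A B : Type*} [Ring A] [Ring B] (a : A) (b : B) (q : Polynomial ℤ) :
    (aeval ((a, b) : A × B) q).2 = aeval b q :=
  (Polynomial.aeval_algHom_apply (AlgHom.snd ℤ A B) ((a, b) : A × B) q).symm

end Intertwine

section Normal

/-- An automorphism of `ℚ̄` maps a normal subfield into itself. -/
theorem s31g72_map_mem_of_normal (E : IntermediateField ℚ Qb) [Normal ℚ E] (σ : GQ) {x : Qb}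
    (hx : x ∈ E) : σ x ∈ E := by
  have h := AlgEquiv.restrictNormal_commutes σ E ⟨x, hx⟩
  have h2 : σ x = ((σ.restrictNormal E ⟨x, hx⟩ : E) : Qb) := h.symm
  rw [h2]
  exact (σ.restrictNormal E ⟨x, hx⟩).2

/-- If `a` and `b` agree on `E` then `b⁻¹ * a` fixes `E` pointwise. -/
theorem s31g72_fix_inv_mul (E : IntermediateField ℚ Qb) (a b : GQ)
    (h : ∀ x ∈ E, a x = b x) : ∀ x ∈ E, (b⁻¹ * a) x = x := by
  intro x hx
  show b⁻¹ (a x) = x
  rw [h x hx]
  exact b.symm_apply_apply x

/-- If `a` and `b` agree on the normal subfield `E` then `a * b⁻¹` fixes `E` pointwise. -/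
theorem s31g72_fix_mul_inv (E : IntermediateField ℚ Qb) [Normal ℚ E] (a b : GQ)
    (h : ∀ x ∈ E, a x = b x) : ∀ x ∈ E, (a * b⁻¹) x = x := by
  intro x hx
  show a (b⁻¹ x) = x
  rw [h _ (s31g72_map_mem_of_normal E b⁻¹ hx)]
  exact b.apply_symm_apply x

end Normal

end Fermat.Agent.S31
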