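import Mathlib

/-!
# S31 endgame (helper60), part E2: Lucas sequences

* `s31e60_lucV d j : ℤ[X]` : the Lucas polynomial `V_j(X, d)` (`V_0 = 2`, `V_1 = X`,
  `V_{j+2} = X V_{j+1} - d V_j`).
* `s31e60_lucas_ring` : in any ring, if `τ² - a τ + d = 0` with `a` commuting with `τ`, then
  `(τ^j)² - V_j(a, d) τ^j + d^j = 0`.
* `s31e60_lucas_on` : the same statement element-wise on a submodule stable under two
  endomorphisms.
* `s31e60_trace_pow` : for an endomorphism `f` of a free module of rank `2` with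
  `f² - a f + d = 0` and `tr f = a` : `tr (f^j) = V_j(a, d)`.
-/

set_option autoImplicit false

namespace Fermat.Agent.S31

open Polynomial

/-- The Lucas polynomial `V_j(X, d)`. -/
noncomputable def s31e60_lucV (d : ℤ) : ℕ → Polynomial ℤ
  | 0 => 2
  | 1 => X
  | (j + 2) => X * s31e60_lucV d (j + 1) - C d * s31e60_lucV d j

@[simp] theorem s31e60_lucV_zero (d : ℤ) : s31e60_lucV d 0 = 2 := by
  rw [s31e60_lucV]

@[simp] theorem s31e60_lucV_one (d : ℤ) : s31e60_lucV d 1 = X := by
  rw [s31e60_lucV]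

theorem s31e60_lucV_succ_succ (d : ℤ) (j : ℕ) :
    s31e60_lucV d (j + 2) = X * s31e60_lucV d (j + 1) - C d * s31e60_lucV d j := by
  rw [s31e60_lucV]

/-- Evaluation of the Lucas polynomials: the recursion. -/
theorem s31e60_aeval_lucV_succ_succ {R : Type*} [Ring R] (a : R) (d : ℤ) (j : ℕ) :
    aeval a (s31e60_lucV d (j + 2)) =
      a * aeval a (s31e60_lucV d (j + 1)) - (d : R) * aeval a (s31e60_lucV d j) := by
  rw [s31e60_lucV_succ_succ, map_sub, map_mul, map_mul, aeval_X, aeval_C]
  simp

/-- The Lucas polynomials are compatible with ring homomorphisms. -/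
theorem s31e60_map_aeval_lucV {R S : Type*} [Ring R] [Ring S] (φ : R →+* S) (a : R) (d : ℤ)
    (j : ℕ) : φ (aeval a (s31e60_lucV d j)) = aeval (φ a) (s31e60_lucV d j) := by
  have h := Polynomial.aeval_algHom_apply (φ.toIntAlgHom) a (s31e60_lucV d j)
  exact h.symm

/-- `V_j(a, d) = τ^j + β^j` when `τ + β = a` and `τ β = β τ = d`. -/
theorem s31e60_lucV_eq_add_pow {R : Type*} [Ring R] (τ β : R) (d : ℤ)
    (h1 : τ * β = (d : R)) (h2 : β * τ = (d : R)) (j : ℕ) :
    aeval (τ + β) (s31e60_lucV d j) = τ ^ j + β ^ j := by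
  induction j using Nat.twoStepInduction with
  | zero =>
    rw [s31e60_lucV_zero, pow_zero, pow_zero,
      show (2 : Polynomial ℤ) = 1 + 1 from one_add_one_eq_two.symm, map_add, map_one]
  | one => simp
  | more j ih0 ih1 =>
    rw [s31e60_aeval_lucV_succ_succ, ih1, ih0]
    have e1 : β * τ ^ (j + 1) = (d : R) * τ ^ j := by rw [pow_succ', ← mul_assoc, h2]
    have e2 : τ * β ^ (j + 1) = (d : R) * β ^ j := by rw [pow_succ', ← mul_assoc, h1]
    have e3 : τ * τ ^ (j + 1) = τ ^ (j + 2) := by rw [← pow_succ']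
    have e4 : β * β ^ (j + 1) = β ^ (j + 2) := by rw [← pow_succ']
    calc (τ + β) * (τ ^ (j + 1) + β ^ (j + 1)) - (d : R) * (τ ^ j + β ^ j)
        = τ * τ ^ (j + 1) + τ * β ^ (j + 1) + β * τ ^ (j + 1) + β * β ^ (j + 1)
            - ((d : R) * τ ^ j + (d : R) * β ^ j) := by noncomm_ring
      _ = τ ^ (j + 2) + β ^ (j + 2) := by rw [e1, e2, e3, e4]; abel

/-- **Lucas, ring form.** If `τ² - a τ + d = 0` and `a` commutes with `τ`, then
`(τ^j)² - V_j(a, d) τ^j + d^j = 0`. -/
theorem s31e60_lucas_ring {R : Type*} [Ring R] (τ a : R) (d : ℤ) (hc : Commute a τ)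
    (h : τ * τ - a * τ + (d : R) = 0) (j : ℕ) :
    τ ^ j * τ ^ j - aeval a (s31e60_lucV d j) * τ ^ j + (d : R) ^ j = 0 := by
  set β : R := a - τ with hβ
  have h2 : β * τ = (d : R) := by
    have : β * τ = a * τ - τ * τ := by rw [hβ, sub_mul]
    rw [this]
    have h' := h
    rw [sub_add_eq_add_sub, sub_eq_zero] at h'
    rw [← h']; abel
  have h1 : τ * β = (d : R) := by
    have : τ * β = τ * a - τ * τ := by rw [hβ, mul_sub]
    rw [this, ← hc.eq]
    rw [← h2, hβ, sub_mul]
  have ha : a = τ + β := by rw [hβ]; abel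
  have hcomm : Commute β τ := by
    show β * τ = τ * β
    rw [h1, h2]
  rw [ha, s31e60_lucV_eq_add_pow τ β d h1 h2 j, add_mul]
  have : β ^ j * τ ^ j = (d : R) ^ j := by rw [← hcomm.mul_pow, h2]
  rw [this]; abel

/-- `aeval` of a restricted endomorphism is the restriction of `aeval`. -/
theorem s31e60_aeval_restrict {M : Type*} [AddCommGroup M] (T : Module.End ℤ M)
    (P : Submodule ℤ M) (hT : ∀ x ∈ P, T x ∈ P) (q : Polynomial ℤ) (y : P) :
    ((aeval (T.restrict hT) q) y : M) = (aeval T q) (y : M) := by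
  induction q using Polynomial.induction_on' with
  | add q₁ q₂ h₁ h₂ =>
    rw [map_add, map_add, LinearMap.add_apply, LinearMap.add_apply, Submodule.coe_add, h₁, h₂]
  | monomial n a =>
    rw [aeval_monomial, aeval_monomial, Module.algebraMap_end_eq_smul_id,
      Module.algebraMap_end_eq_smul_id, Module.End.pow_restrict n hT]
    simp

/-- **Lucas, element-wise form on a stable submodule.** -/
theorem s31e60_lucas_on {M : Type*} [AddCommGroup M] (τ T : Module.End ℤ M) (d : ℤ)
    (P : Submodule ℤ M) (hτ : ∀ x ∈ P, τ x ∈ P) (hT : ∀ x ∈ P, T x ∈ P)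
    (hc : ∀ x ∈ P, T (τ x) = τ (T x))
    (h : ∀ x ∈ P, τ (τ x) - T (τ x) + d • x = 0) (j : ℕ) (x : M) (hx : x ∈ P) :
    (τ ^ j) ((τ ^ j) x) - (aeval T (s31e60_lucV d j)) ((τ ^ j) x) + d ^ j • x = 0 := by
  have hcomm : Commute (T.restrict hT) (τ.restrict hτ) := by
    apply LinearMap.ext
    intro y
    apply Subtype.ext
    show T (τ (y : M)) = τ (T (y : M))
    exact hc y y.2
  have hrel : τ.restrict hτ * τ.restrict hτ - T.restrict hT * τ.restrict hτ
      + ((d : ℤ) : Module.End ℤ P) = 0 := by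
    apply LinearMap.ext
    intro y
    apply Subtype.ext
    have := h y y.2
    simpa using this
  have key := s31e60_lucas_ring (τ.restrict hτ) (T.restrict hT) d hcomm hrel j
  have key2 := congrArg (fun F : Module.End ℤ P => ((F ⟨x, hx⟩ : P) : M)) key
  simp only [LinearMap.add_apply, LinearMap.sub_apply, Module.End.mul_apply,
    LinearMap.zero_apply, Submodule.coe_add, Submodule.coe_sub, Submodule.coe_zero,
    s31e60_aeval_restrict] at key2
  rw [Module.End.pow_restrict j hτ] at key2
  have e3 : ((((d : ℤ) : Module.End ℤ P) ^ j) ⟨x, hx⟩ : M) = d ^ j • x := by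
    rw [← Int.cast_pow, Module.End.intCast_apply, Submodule.coe_smul]
  simp only [LinearMap.restrict_apply] at key2
  rw [e3] at key2
  exact key2

/-- On a free module of rank `2`: if `f² - a f + d = 0` and `tr f = a`, then
`tr (f ^ j) = V_j(a, d)`. -/
theorem s31e60_trace_pow {A : Type*} [CommRing A] {V : Type*} [AddCommGroup V] [Module A V]
    [Module.Free A V] [Module.Finite A V] (hV : Module.finrank A V = 2) (f : Module.End A V)
    (a : A) (d : ℤ) (hf : f * f - a • f + (d : A) • (1 : Module.End A V) = 0)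
    (htr : LinearMap.trace A V f = a) (j : ℕ) :
    LinearMap.trace A V (f ^ j) = aeval a (s31e60_lucV d j) := by
  induction j using Nat.twoStepInduction with
  | zero =>
    rw [pow_zero, LinearMap.trace_one, hV, s31e60_lucV_zero,
      show (2 : Polynomial ℤ) = 1 + 1 from one_add_one_eq_two.symm, map_add, map_one]
    norm_num
  | one => rw [pow_one, htr, s31e60_lucV_one, aeval_X]
  | more j ih0 ih1 =>
    have hf2 : f * f = a • f - (d : A) • (1 : Module.End A V) := by
      have h' := hf
      rw [sub_add_eq_add_sub, sub_eq_zero] at h'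
      rw [eq_sub_iff_add_eq, h']
    have e : f ^ (j + 2) = a • f ^ (j + 1) - (d : A) • f ^ j := by
      rw [pow_add, pow_two, hf2, mul_sub, mul_smul_comm, mul_smul_comm, mul_one, ← pow_succ]
    rw [e, map_sub, map_smul, map_smul, ih0, ih1, s31e60_aeval_lucV_succ_succ, smul_eq_mul,
      smul_eq_mul]

/-- Trace and quadratic relation from a characteristic polynomial `X² - a X + d`. -/
theorem s31e60_of_charpoly {A : Type*} [CommRing A] [Nontrivial A] {V : Type*} [AddCommGroup V]
    [Module A V] [Module.Free A V] [Module.Finite A V] (f : Module.End A V) (a b : A)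
    (h : LinearMap.charpoly f = X ^ 2 - C a * X + C b) :
    LinearMap.trace A V f = a ∧ f * f - a • f + b • (1 : Module.End A V) = 0 := by
  constructor
  · classical
    rw [LinearMap.trace_eq_matrix_trace A (Module.Free.chooseBasis A V) f,
      Matrix.trace_eq_neg_charpoly_nextCoeff, ← LinearMap.charpoly_def, h]
    have hdeg : (X ^ 2 - C a * X + C b : A[X]).natDegree = 2 := by
      have h1 : (X ^ 2 - C a * X + C b : A[X]) = C 1 * X ^ 2 + C (-a) * X + C b := by
        rw [C_neg, C_1]; ring
      rw [h1]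
      exact natDegree_quadratic one_ne_zero
    rw [nextCoeff_of_natDegree_pos (by rw [hdeg]; norm_num), hdeg]
    simp [coeff_C, coeff_X_pow]
  · have hch := LinearMap.aeval_self_charpoly f
    rw [h] at hch
    simpa [pow_two, Algebra.smul_def] using hch

end Fermat.Agent.S31
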