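import Mathlib
import Fermat.Prelude.Def_CuspForm_HeckeGaloisRepDatum
import Fermat.Agent.S31.EndgameAlg72
import Fermat.Agent.S31.Lucas60
import Fermat.Agent.S31.Burnside91
import Fermat.Agent.S31.RootsUnity58
import Fermat.Agent.S42.FrobPow37
import Fermat.Agent.S42.FrobInertia69
import Fermat.Agent.S42.HeckeGalois25
import Fermat.Agent.S42.OpenStab25
import Fermat.Agent.S42.EigenClass54

/-!
# S31 rider, safety twin of row E6 (helper72), part 2: the endgame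

`s31g72_main` : frozen S31 from

* `(A)` for all `n` : `s31g72_ThetaZ N (p ^ n)` (the interface (I-Theta-Z) / THETA-INT at the
  modulus `p ^ n`, literally the conclusion of `thz31_I_Theta_Z`), and
* `(B)` : `s31g72_Sat N S p` (row E34 of the S31 registry, literally the shape of ruling R1).

Everything else is on main: `fp37_frob_pow_field` (every Galois element is a power of a genuine
Frobenius on a number field), `fi69_inertia` / `fi69_frob` (M10), `hg25_hecke_galois`,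
`os25_open_stab_galois`, `ru58_pow_modEq` / `ru58_exists_level` (E5), `s31e60_*` (E2, Lucas),
`bs91_isUnramifiedAt` (E1), `m9e54_fg` / `m9e54_TL` (the lattice).
-/

set_option autoImplicit false
set_option linter.unusedSectionVars false
set_option linter.unusedVariables false
set_option linter.style.longLine false
set_option linter.style.haveILetI false

open CongruenceSubgroup ModularCurve ModularCurve.Period AlgebraicCurve Polynomial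
open scoped MatrixGroups

namespace Fermat.Agent.S31

open Fermat.Agent.S16 Fermat.Agent.S42

local notation "Qb" => AlgebraicClosure ℚ
local notation "GQ" => AlgebraicClosure ℚ ≃ₐ[ℚ] AlgebraicClosure ℚ

/-! ### The two interfaces -/

/-- **(A)** = (I-Theta-Z) at the modulus `m`. -/
def s31g72_ThetaZ (N m : ℕ) [NeZero N] : Prop :=
  ∃ Θ : ↥(parabolicHoms ℤ (Gamma0 N) ℤ) →+ JZero N,
    (∀ χ, (m : ℤ) • Θ χ = 0) ∧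
    (∀ χ, Θ χ = 0 → ∃ χ' : ↥(parabolicHoms ℤ (Gamma0 N) ℤ), χ = m • χ') ∧
    ∀ ℓ : Nat.Primes, ¬ (ℓ : ℕ) ∣ N * m → ∀ χ : ↥(parabolicHoms ℤ (Gamma0 N) ℤ),
      ∃ hχ : heckeHom N ℓ ℤ χ ∈ parabolicHoms ℤ (Gamma0 N) ℤ,
        heckeOperatorBar N ℓ (Θ χ) = Θ ⟨heckeHom N ℓ ℤ χ, hχ⟩

/-- The generators of the relation algebra of (B). -/
def s31g72_gens (N : ℕ) [NeZero N] (S : Set ℕ) :
    Set (Module.End ℤ ↥(parabolicHoms ℤ (Gamma0 N) ℤ) × CuspForm.heckeAlgebra N 2 S) :=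
  {w | ∃ (ℓ : ℕ) (hℓ : ℓ.Prime) (hℓN : ¬ ℓ ∣ N) (hℓS : ℓ ∉ S),
    w.2 = CuspForm.heckeAlgebra.T hℓ hℓN hℓS ∧
    ∀ x : ↥(parabolicHoms ℤ (Gamma0 N) ℤ),
      ((w.1 x : ↥(parabolicHoms ℤ (Gamma0 N) ℤ)) : Additive ↥(Gamma0 N) →+ ℤ) =
        heckeHom N ℓ ℤ (x : Additive ↥(Gamma0 N) →+ ℤ)}

/-- **(B)** = row E34: saturation + faithfulness of the Hecke algebra on the lattice. -/
def s31g72_Sat (N : ℕ) [NeZero N] (S : Set ℕ) (p : ℕ) : Prop :=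
  ∃ c : ℕ, ∀ (k : ℕ)
    (z : Module.End ℤ ↥(parabolicHoms ℤ (Gamma0 N) ℤ) × CuspForm.heckeAlgebra N 2 S),
    z ∈ Algebra.adjoin ℤ (s31g72_gens N S) →
    (∀ x : ↥(parabolicHoms ℤ (Gamma0 N) ℤ), ∃ y : ↥(parabolicHoms ℤ (Gamma0 N) ℤ),
      z.1 x = ((p : ℤ) ^ (k + c)) • y) →
    ∃ t' : CuspForm.heckeAlgebra N 2 S, z.2 = ((p : ℤ) ^ k) • t'

/-! ### The Galois action on `J₀(N)` as `ℤ`-linear maps -/

/-- The Galois action on `JZero N`, as a monoid homomorphism into the `ℤ`-endomorphisms. -/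
noncomputable def s31g72_gal (N : ℕ) : GQ →* Module.End ℤ (JZero N) where
  toFun σ := (DistribSMul.toAddMonoidHom (JZero N) σ).toIntLinearMap
  map_one' := by
    apply LinearMap.ext
    intro x
    show (1 : GQ) • x = x
    exact one_smul _ x
  map_mul' σ τ := by
    apply LinearMap.ext
    intro x
    show (σ * τ) • x = σ • τ • x
    exact mul_smul σ τ x

theorem s31g72_gal_apply (N : ℕ) (σ : GQ) (x : JZero N) : s31g72_gal N σ x = σ • x := rfl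

theorem s31g72_smul_nsmul (N : ℕ) (σ : GQ) (m : ℕ) (x : JZero N) :
    σ • (m • x) = m • (σ • x) :=
  map_nsmul (DistribSMul.toAddMonoidHom (JZero N) σ) m x

theorem s31g72_smul_tors (N : ℕ) (σ : GQ) (m : ℕ) (x : JZero N) (hx : m • x = 0) :
    m • (σ • x) = 0 := by
  rw [← s31g72_smul_nsmul, hx]
  exact map_zero (DistribSMul.toAddMonoidHom (JZero N) σ)

/-! ### The Jacobian side -/

/-- **Lucas on the `p`-power torsion of `J₀(N)`**: for a Frobenius element `σ` at `ℓ ∤ N p`,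
`V_j(T_ℓ, ℓ) y = σ^j y + ℓ^j σ^{-j} y`. -/
theorem s31g72_lucas_jac (N p : ℕ) [NeZero N] (ℓ : ℕ) (hℓ : ℓ.Prime) (hN : ¬ ℓ ∣ N)
    (hp : ¬ ℓ ∣ p) (A : ValuationSubring Qb) (hA : A.LiesOverPrime ℓ) (σ : GQ)
    (hσ : A.IsFrobeniusAt σ ℓ) (n j : ℕ) (y : JZero N) (hy : p ^ n • y = 0) :
    aeval (heckeOperatorBar N ⟨ℓ, hℓ⟩) (s31e60_lucV (ℓ : ℤ) j) y
      = (σ ^ j) • y + ((ℓ : ℤ) ^ j) • ((σ ^ j)⁻¹ • y) := by
  let P : Submodule ℤ (JZero N) := Submodule.torsionBy ℤ (JZero N) ((p ^ n : ℕ) : ℤ)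
  have hP : ∀ x : JZero N, x ∈ P ↔ p ^ n • x = 0 := by
    intro x
    rw [Submodule.mem_torsionBy_iff, natCast_zsmul]
  have key := s31e60_lucas_on (s31g72_gal N σ) (heckeOperatorBar N ⟨ℓ, hℓ⟩) (ℓ : ℤ) P
    (fun x hx => (hP _).mpr (s31g72_smul_tors N σ _ x ((hP x).mp hx)))
    (fun x hx => (hP _).mpr (by rw [← map_nsmul, (hP x).mp hx, map_zero]))
    (fun x _ => (hg25_hecke_galois N ⟨ℓ, hℓ⟩ σ x).symm)
    (fun x hx => by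
      have h := fi69_frob N p ℓ hℓ hN hp A hA σ hσ x n ((hP x).mp hx)
      rw [natCast_zsmul]
      exact h)
    j ((σ ^ j)⁻¹ • y) ((hP _).mpr (s31g72_smul_tors N _ _ y hy))
  rw [← map_pow, s31g72_gal_apply, s31g72_gal_apply, smul_inv_smul] at key
  have key2 : aeval (heckeOperatorBar N ⟨ℓ, hℓ⟩) (s31e60_lucV (ℓ : ℤ) j) y
      = (σ ^ j) • y + ((ℓ : ℤ) ^ j) • ((σ ^ j)⁻¹ • y) := by
    rw [sub_add_eq_add_sub, sub_eq_zero] at key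
    exact key.symm
  exact key2

/-- **The Jacobian side of Claim A.**  Let `y` be a class killed by `p ^ n` and fixed by the
fixing group of a normal subfield `E ⊇ μ_{p^n}`; let `g = σ₁ ^ j₁` and `g τ = σ₂ ^ j₂` on `E`
with `σᵢ` Frobenius elements at `ℓᵢ ∤ N p` and `τ` in an inertia group at `q ∤ N p`.  Then
`V_{j₂}(T_{ℓ₂}, ℓ₂) y = V_{j₁}(T_{ℓ₁}, ℓ₁) y`. -/
theorem s31g72_delta (N : ℕ) [NeZero N] {p : ℕ} (hp : p.Prime) (n : ℕ)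
    (E : IntermediateField ℚ Qb) [Normal ℚ E]
    (hEμ : ∀ z : Qb, z ^ (p ^ n) = 1 → z ∈ E)
    {ℓ₁ : ℕ} (hℓ₁ : ℓ₁.Prime) (hℓ₁N : ¬ ℓ₁ ∣ N) (hℓ₁p : ℓ₁ ≠ p)
    (A₁ : ValuationSubring Qb) (hA₁ : A₁.LiesOverPrime ℓ₁) (σ₁ : GQ)
    (hσ₁ : A₁.IsFrobeniusAt σ₁ ℓ₁) (j₁ : ℕ)
    {ℓ₂ : ℕ} (hℓ₂ : ℓ₂.Prime) (hℓ₂N : ¬ ℓ₂ ∣ N) (hℓ₂p : ℓ₂ ≠ p)
    (A₂ : ValuationSubring Qb) (hA₂ : A₂.LiesOverPrime ℓ₂) (σ₂ : GQ)
    (hσ₂ : A₂.IsFrobeniusAt σ₂ ℓ₂) (j₂ : ℕ)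
    {q : ℕ} (hq : q.Prime) (hqN : ¬ q ∣ N) (hqp : q ≠ p)
    (P : ValuationSubring Qb) (hP : P.LiesOverPrime q) (τ : GQ)
    (hτ : τ ∈ P.inertiaSubgroupIn ℚ)
    (g : GQ) (hg : ∀ x ∈ E, g x = (σ₁ ^ j₁) x) (hgτ : ∀ x ∈ E, (g * τ) x = (σ₂ ^ j₂) x)
    (y : JZero N) (hy : p ^ n • y = 0)
    (hyE : ∀ σ : GQ, (∀ a ∈ E, σ a = a) → σ • y = y) :
    aeval (heckeOperatorBar N ⟨ℓ₂, hℓ₂⟩) (s31e60_lucV (ℓ₂ : ℤ) j₂) y
      = aeval (heckeOperatorBar N ⟨ℓ₁, hℓ₁⟩) (s31e60_lucV (ℓ₁ : ℤ) j₁) y := by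
  have hnd : ∀ {ℓ : ℕ}, ℓ.Prime → ℓ ≠ p → ¬ ℓ ∣ p := fun hℓ hne hd =>
    hne ((Nat.prime_dvd_prime_iff_eq hℓ hp).mp hd)
  have hcop : ∀ {ℓ : ℕ}, ℓ.Prime → ℓ ≠ p → Nat.Coprime ℓ (p ^ n) := fun hℓ hne =>
    Nat.Coprime.pow_right n ((Nat.coprime_primes hℓ hp).mpr hne)
  have hm : 0 < p ^ n := pow_pos hp.pos n
  rw [s31g72_lucas_jac N p ℓ₁ hℓ₁ hℓ₁N (hnd hℓ₁ hℓ₁p) A₁ hA₁ σ₁ hσ₁ n j₁ y hy,
    s31g72_lucas_jac N p ℓ₂ hℓ₂ hℓ₂N (hnd hℓ₂ hℓ₂p) A₂ hA₂ σ₂ hσ₂ n j₂ y hy]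
  -- the four identifications
  have e1 : (σ₁ ^ j₁) • y = g • y := by
    have h := hyE _ (s31g72_fix_inv_mul E g (σ₁ ^ j₁) hg)
    rw [mul_smul, inv_smul_eq_iff] at h
    exact h.symm
  have e2 : (σ₁ ^ j₁)⁻¹ • y = g⁻¹ • y := by
    have h := hyE _ (s31g72_fix_mul_inv E g (σ₁ ^ j₁) hg)
    rw [mul_smul] at h
    rw [eq_inv_smul_iff]
    exact h
  have hτy : τ • y = y := fi69_inertia N p q hq hqN (hnd hq hqp) P hP τ hτ y n hy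
  have e3 : (σ₂ ^ j₂) • y = g • y := by
    have h := hyE _ (s31g72_fix_inv_mul E (g * τ) (σ₂ ^ j₂) hgτ)
    rw [mul_smul, inv_smul_eq_iff] at h
    rw [← h, mul_smul, hτy]
  have hgy : p ^ n • (g⁻¹ • y) = 0 := s31g72_smul_tors N _ _ y hy
  have e4 : (σ₂ ^ j₂)⁻¹ • y = g⁻¹ • y := by
    have h := hyE _ (s31g72_fix_mul_inv E (g * τ) (σ₂ ^ j₂) hgτ)
    rw [mul_smul] at h
    have h2 : (σ₂ ^ j₂)⁻¹ • y = (g * τ)⁻¹ • y := by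
      rw [eq_inv_smul_iff]
      exact h
    rw [h2, mul_inv_rev, mul_smul]
    exact fi69_inertia N p q hq hqN (hnd hq hqp) P hP τ⁻¹
      ((P.inertiaSubgroupIn ℚ).inv_mem hτ) (g⁻¹ • y) n hgy
  rw [e1, e2, e3, e4]
  -- the cyclotomic congruence
  have hmod : ℓ₁ ^ j₁ ≡ ℓ₂ ^ j₂ [MOD p ^ n] :=
    ru58_pow_modEq hm A₁ hA₁ σ₁ hσ₁ (hcop hℓ₁ hℓ₁p) A₂ hA₂ σ₂ hσ₂ (hcop hℓ₂ hℓ₂p) P hP τ hτ
      (hcop hq hqp) g j₁ j₂ (fun z hz => hg z (hEμ z hz)) (fun z hz => hgτ z (hEμ z hz))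
  have hdvd : ((p ^ n : ℕ) : ℤ) ∣ (ℓ₂ : ℤ) ^ j₂ - (ℓ₁ : ℤ) ^ j₁ := by
    have h := (Nat.modEq_iff_dvd.mp hmod)
    push_cast at h ⊢
    exact h
  obtain ⟨d, hd⟩ := hdvd
  have hzero : ((ℓ₂ : ℤ) ^ j₂ - (ℓ₁ : ℤ) ^ j₁) • (g⁻¹ • y) = 0 := by
    rw [hd, mul_comm, mul_smul, natCast_zsmul, hgy, smul_zero]
  have hsub : ((ℓ₂ : ℤ) ^ j₂) • (g⁻¹ • y) = ((ℓ₁ : ℤ) ^ j₁) • (g⁻¹ • y) := by
    rw [sub_smul, sub_eq_zero] at hzero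
    exact hzero
  rw [hsub]

/-! ### The `T`-side -/

section Tside

variable {p : ℕ} {N : ℕ} [NeZero N] {S : Finset ℕ}
  {𝒪 : Type} [CommRing 𝒪] [IsDomain 𝒪] [IsDiscreteValuationRing 𝒪]
  [IsAdicComplete (IsLocalRing.maximalIdeal 𝒪) 𝒪]
  {θ : CuspForm.heckeAlgebra N 2 (↑S : Set ℕ) →+* IsLocalRing.ResidueField 𝒪}
  {T : Type} [CommRing T] [IsLocalRing T] [IsNoetherianRing T]
  [IsAdicComplete (IsLocalRing.maximalIdeal T) T] [Algebra 𝒪 T] [IsLocalHom (algebraMap 𝒪 T)]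
  [Module.Finite 𝒪 T] [Module.Free 𝒪 T]

/-- **The trace of a power of a Frobenius element** is the image of a Lucas polynomial in the
Hecke operator. -/
theorem s31g72_trace_frob_pow (H : CuspForm.HeckeGaloisRepDatum N (↑S : Set ℕ) 𝒪 θ T)
    {ℓ : ℕ} (hℓ : ℓ.Prime) (hℓN : ¬ ℓ ∣ N) (hℓS : ℓ ∉ (↑S : Set ℕ))
    (A : ValuationSubring Qb) (hA : A.LiesOverPrime ℓ) (σ : GQ) (hσ : A.IsFrobeniusAt σ ℓ)
    (j : ℕ) :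
    LinearMap.trace T H.ρ.V (H.ρ.ρ (σ ^ j))
      = H.π (aeval (CuspForm.heckeAlgebra.T hℓ hℓN hℓS) (s31e60_lucV (ℓ : ℤ) j)) := by
  have hch := H.charpoly_frob ℓ hℓ hℓN hℓS A hA σ hσ
  obtain ⟨htr, hquad⟩ := s31e60_of_charpoly (H.ρ.ρ σ) _ _ hch
  rw [map_pow, s31e60_map_aeval_lucV]
  refine s31e60_trace_pow H.ρ.finrank_eq (H.ρ.ρ σ) _ (ℓ : ℤ) ?_ htr j
  rw [Int.cast_natCast]
  exact hquad

end Tside

/-! ### The endgame -/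

section Main

variable {p : ℕ} {N : ℕ} [NeZero N] {S : Finset ℕ}
  {𝒪 : Type} [CommRing 𝒪] [IsDomain 𝒪] [IsDiscreteValuationRing 𝒪]
  [IsAdicComplete (IsLocalRing.maximalIdeal 𝒪) 𝒪]
  {θ : CuspForm.heckeAlgebra N 2 (↑S : Set ℕ) →+* IsLocalRing.ResidueField 𝒪}
  {T : Type} [CommRing T] [IsLocalRing T] [IsNoetherianRing T]
  [IsAdicComplete (IsLocalRing.maximalIdeal T) T] [Algebra 𝒪 T] [IsLocalHom (algebraMap 𝒪 T)]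
  [Module.Finite 𝒪 T] [Module.Free 𝒪 T]

/-- A class fixed on generators of the lattice is fixed on the whole lattice. -/
theorem s31g72_fixed_of_span (Θ : ↥(parabolicHoms ℤ (Gamma0 N) ℤ) →+ JZero N)
    (s : Finset ↥(parabolicHoms ℤ (Gamma0 N) ℤ))
    (hs : Submodule.span ℤ (s : Set ↥(parabolicHoms ℤ (Gamma0 N) ℤ)) = ⊤) (σ : GQ)
    (h : ∀ x ∈ s, σ • Θ x = Θ x) (χ : ↥(parabolicHoms ℤ (Gamma0 N) ℤ)) : σ • Θ χ = Θ χ := by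
  have hχ : χ ∈ Submodule.span ℤ (s : Set ↥(parabolicHoms ℤ (Gamma0 N) ℤ)) := by
    rw [hs]; exact Submodule.mem_top
  induction hχ using Submodule.span_induction with
  | mem x hx => exact h x hx
  | zero => rw [map_zero]; exact map_zero (DistribSMul.toAddMonoidHom (JZero N) σ)
  | add x y _ _ hx hy =>
    rw [map_add]
    exact (map_add (DistribSMul.toAddMonoidHom (JZero N) σ) (Θ x) (Θ y)).trans
      (congrArg₂ (· + ·) hx hy)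
  | smul a x _ hx =>
    rw [map_zsmul]
    exact (map_zsmul (DistribSMul.toAddMonoidHom (JZero N) σ) a _).trans
      (congrArg (a • ·) hx)

/-- **S31 from (A) and (B).** -/
theorem s31g72_main (hp : p.Prime)
    (hp𝒪 : (p : 𝒪) ∈ IsLocalRing.maximalIdeal 𝒪) (hpS : p ∈ S)
    (hNS : ∀ q : ℕ, q.Prime → q ∣ N → q ∈ S)
    (H : CuspForm.HeckeGaloisRepDatum N (↑S : Set ℕ) 𝒪 θ T)
    (hA : ∀ n : ℕ, s31g72_ThetaZ N (p ^ n))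
    (hB : s31g72_Sat N (↑S : Set ℕ) p)
    (q : ℕ) (hq : q.Prime) (hqS : q ∉ S) :
    H.ρ.IsUnramifiedAt q := by
  classical
  -- `p` lies in the maximal ideal of `T`
  have hpT : (p : T) ∈ IsLocalRing.maximalIdeal T := by
    have h1 : (p : T) = algebraMap 𝒪 T (p : 𝒪) := (map_natCast (algebraMap 𝒪 T) p).symm
    rw [h1, IsLocalRing.mem_maximalIdeal, mem_nonunits_iff]
    intro hu
    exact ((IsLocalRing.mem_maximalIdeal _).mp hp𝒪) (isUnit_of_map_unit (algebraMap 𝒪 T) _ hu)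
  have hqN : ¬ q ∣ N := fun h => hqS (hNS q hq h)
  have hqp : q ≠ p := fun h => hqS (h ▸ hpS)
  obtain ⟨c, hc⟩ := hB
  refine bs91_isUnramifiedAt H.ρ H.residual_absIrr q fun P hP τ hτ g => ?_
  -- Krull's intersection theorem
  have hkrull : ∀ d : T, (∀ k : ℕ, d ∈ IsLocalRing.maximalIdeal T ^ k) → d = 0 := by
    intro d hd
    have h := Ideal.iInf_pow_eq_bot_of_isLocalRing (IsLocalRing.maximalIdeal T)
      (Ideal.IsMaximal.ne_top inferInstance)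
    have h2 : d ∈ ⨅ i, IsLocalRing.maximalIdeal T ^ i := (Ideal.mem_iInf).mpr hd
    rw [h] at h2
    exact h2
  rw [← sub_eq_zero]
  refine hkrull _ fun k => ?_
  -- the level
  obtain ⟨Θ, htors, hker, hhec⟩ := hA (k + c)
  have hy : ∀ χ, p ^ (k + c) • Θ χ = 0 := fun χ => by
    have h := htors χ
    rw [natCast_zsmul] at h
    exact h
  -- generators of the lattice
  haveI : Module.Finite ℤ ↥(parabolicHoms ℤ (Gamma0 N) ℤ) :=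
    Module.Finite.iff_fg.mpr (m9e54_fg N)
  obtain ⟨s, hs⟩ :=
    (Module.Finite.fg_top : (⊤ : Submodule ℤ ↥(parabolicHoms ℤ (Gamma0 N) ℤ)).FG)
  -- the three number fields
  obtain ⟨F₁, hF₁fd, -, hF₁⟩ := os25_open_stab_galois N (s.image Θ)
  obtain ⟨F₂, hF₂fd, hF₂⟩ := H.ρ.isAdicContinuous k
  obtain ⟨F₃, hF₃fd, hF₃⟩ := ru58_exists_level (p ^ (k + c)) (pow_pos hp.pos (k + c))
  haveI := hF₁fd
  haveI := hF₂fd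
  haveI := hF₃fd
  -- a finite normal extension containing them
  have halg : Algebra.IsAlgebraic ℚ Qb := AlgebraicClosure.isAlgebraic ℚ
  haveI : IsAlgClosure ℚ Qb := ⟨inferInstance, halg⟩
  haveI : Normal ℚ Qb := IsAlgClosure.normal ℚ Qb
  let E₀ : IntermediateField ℚ Qb := F₁ ⊔ F₂ ⊔ F₃
  haveI : FiniteDimensional ℚ ↥(F₁ ⊔ F₂) := IntermediateField.finiteDimensional_sup F₁ F₂
  haveI : FiniteDimensional ℚ E₀ := IntermediateField.finiteDimensional_sup (F₁ ⊔ F₂) F₃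
  let E : IntermediateField ℚ Qb := IntermediateField.normalClosure ℚ E₀ Qb
  haveI hEfd : FiniteDimensional ℚ E := normalClosure.is_finiteDimensional ℚ E₀ Qb
  haveI hEn : Normal ℚ E := normalClosure.normal ℚ E₀ Qb
  have hE₀E : E₀ ≤ E := E₀.le_normalClosure
  have hF₁E : F₁ ≤ E := le_trans (le_trans le_sup_left le_sup_left) hE₀E
  have hF₂E : F₂ ≤ E := le_trans (le_trans le_sup_right le_sup_left) hE₀E
  have hF₃E : F₃ ≤ E := le_trans le_sup_right hE₀E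
  -- the classes `Θ χ` are fixed by the fixing group of `E`
  have hyE : ∀ χ, ∀ σ : GQ, (∀ a ∈ E, σ a = a) → σ • Θ χ = Θ χ := by
    intro χ σ hσ
    refine s31g72_fixed_of_span Θ s hs σ (fun x hx => ?_) χ
    exact hF₁ σ (fun a ha => hσ a (hF₁E ha)) (Θ x) (Finset.mem_image_of_mem Θ hx)
  -- the two Frobenius elements
  obtain ⟨ℓ₁, A₁, σ₁, j₁, hℓ₁, hℓ₁S, hA₁, hσ₁, hg₁⟩ := fp37_frob_pow_field E g S
  obtain ⟨ℓ₂, A₂, σ₂, j₂, hℓ₂, hℓ₂S, hA₂, hσ₂, hg₂⟩ := fp37_frob_pow_field E (g * τ) S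
  have hℓ₁N : ¬ ℓ₁ ∣ N := fun h => hℓ₁S (hNS ℓ₁ hℓ₁ h)
  have hℓ₂N : ¬ ℓ₂ ∣ N := fun h => hℓ₂S (hNS ℓ₂ hℓ₂ h)
  have hℓ₁p : ℓ₁ ≠ p := fun h => hℓ₁S (h ▸ hpS)
  have hℓ₂p : ℓ₂ ≠ p := fun h => hℓ₂S (h ▸ hpS)
  have hℓ₁S' : ℓ₁ ∉ (↑S : Set ℕ) := fun h => hℓ₁S (Finset.mem_coe.mp h)
  have hℓ₂S' : ℓ₂ ∉ (↑S : Set ℕ) := fun h => hℓ₂S (Finset.mem_coe.mp h)
  -- traces modulo `𝔪 ^ k`
  have ht₁ := s31g72_trace_sub_mem H.ρ k g (σ₁ ^ j₁) (fun v =>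
    hF₂ _ (fun x hx => s31g72_fix_inv_mul E g (σ₁ ^ j₁) hg₁ x (hF₂E hx)) v)
  have ht₂ := s31g72_trace_sub_mem H.ρ k (g * τ) (σ₂ ^ j₂) (fun v =>
    hF₂ _ (fun x hx => s31g72_fix_inv_mul E (g * τ) (σ₂ ^ j₂) hg₂ x (hF₂E hx)) v)
  rw [s31g72_trace_frob_pow H hℓ₁ hℓ₁N hℓ₁S' A₁ hA₁ σ₁ hσ₁ j₁] at ht₁
  rw [s31g72_trace_frob_pow H hℓ₂ hℓ₂N hℓ₂S' A₂ hA₂ σ₂ hσ₂ j₂] at ht₂
  -- the relation element
  let w₁ : Module.End ℤ ↥(parabolicHoms ℤ (Gamma0 N) ℤ) × CuspForm.heckeAlgebra N 2 (↑S : Set ℕ) :=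
    (m9e54_TL N ⟨ℓ₁, hℓ₁, hℓ₁N⟩, CuspForm.heckeAlgebra.T hℓ₁ hℓ₁N hℓ₁S')
  let w₂ : Module.End ℤ ↥(parabolicHoms ℤ (Gamma0 N) ℤ) × CuspForm.heckeAlgebra N 2 (↑S : Set ℕ) :=
    (m9e54_TL N ⟨ℓ₂, hℓ₂, hℓ₂N⟩, CuspForm.heckeAlgebra.T hℓ₂ hℓ₂N hℓ₂S')
  have hw₁ : w₁ ∈ s31g72_gens N (↑S : Set ℕ) := ⟨ℓ₁, hℓ₁, hℓ₁N, hℓ₁S', rfl, fun x => rfl⟩
  have hw₂ : w₂ ∈ s31g72_gens N (↑S : Set ℕ) := ⟨ℓ₂, hℓ₂, hℓ₂N, hℓ₂S', rfl, fun x => rfl⟩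
  let z := aeval w₂ (s31e60_lucV (ℓ₂ : ℤ) j₂) - aeval w₁ (s31e60_lucV (ℓ₁ : ℤ) j₁)
  have hz : z ∈ Algebra.adjoin ℤ (s31g72_gens N (↑S : Set ℕ)) :=
    Subalgebra.sub_mem _
      (Algebra.adjoin_mono (Set.singleton_subset_iff.mpr hw₂)
        (Polynomial.aeval_mem_adjoin_singleton ℤ w₂))
      (Algebra.adjoin_mono (Set.singleton_subset_iff.mpr hw₁)
        (Polynomial.aeval_mem_adjoin_singleton ℤ w₁))
  have hz1 : z.1 = aeval (m9e54_TL N ⟨ℓ₂, hℓ₂, hℓ₂N⟩) (s31e60_lucV (ℓ₂ : ℤ) j₂)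
      - aeval (m9e54_TL N ⟨ℓ₁, hℓ₁, hℓ₁N⟩) (s31e60_lucV (ℓ₁ : ℤ) j₁) := by
    show (aeval w₂ (s31e60_lucV (ℓ₂ : ℤ) j₂) - aeval w₁ (s31e60_lucV (ℓ₁ : ℤ) j₁)).1 = _
    rw [Prod.fst_sub, s31g72_fst_aeval, s31g72_fst_aeval]
  have hz2 : z.2 = aeval (CuspForm.heckeAlgebra.T hℓ₂ hℓ₂N hℓ₂S') (s31e60_lucV (ℓ₂ : ℤ) j₂)
      - aeval (CuspForm.heckeAlgebra.T hℓ₁ hℓ₁N hℓ₁S') (s31e60_lucV (ℓ₁ : ℤ) j₁) := by
    show (aeval w₂ (s31e60_lucV (ℓ₂ : ℤ) j₂) - aeval w₁ (s31e60_lucV (ℓ₁ : ℤ) j₁)).2 = _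
    rw [Prod.snd_sub, s31g72_snd_aeval, s31g72_snd_aeval]
  -- Hecke equivariance of `Θ`
  have hnd : ∀ {ℓ : ℕ}, ℓ.Prime → ¬ ℓ ∣ N → ℓ ≠ p → ¬ ℓ ∣ N * p ^ (k + c) := by
    intro ℓ hℓ hℓN hℓp hd
    rcases (Nat.Prime.dvd_mul hℓ).mp hd with h | h
    · exact hℓN h
    · exact hℓp ((Nat.prime_dvd_prime_iff_eq hℓ hp).mp (hℓ.dvd_of_dvd_pow h))
  have hΘT : ∀ {ℓ : ℕ} (hℓ : ℓ.Prime) (hℓN : ¬ ℓ ∣ N), ℓ ≠ p →
      ∀ x, Θ (m9e54_TL N ⟨ℓ, hℓ, hℓN⟩ x) = heckeOperatorBar N ⟨ℓ, hℓ⟩ (Θ x) := by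
    intro ℓ hℓ hℓN hℓp x
    obtain ⟨hχ, he⟩ := hhec ⟨ℓ, hℓ⟩ (hnd hℓ hℓN hℓp) x
    exact he.symm
  -- the Jacobian side: `z.1` maps the lattice into `p ^ (k + c)` times itself
  have hzL : ∀ x : ↥(parabolicHoms ℤ (Gamma0 N) ℤ), ∃ y : ↥(parabolicHoms ℤ (Gamma0 N) ℤ),
      z.1 x = ((p : ℤ) ^ (k + c)) • y := by
    intro x
    have h0 : Θ (z.1 x) = 0 := by
      rw [hz1, LinearMap.sub_apply, map_sub,
        s31g72_aeval_intertwine Θ _ _ (hΘT hℓ₂ hℓ₂N hℓ₂p),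
        s31g72_aeval_intertwine Θ _ _ (hΘT hℓ₁ hℓ₁N hℓ₁p), sub_eq_zero]
      exact s31g72_delta N hp (k + c) E (fun z hz => hF₃E (hF₃ z hz))
        hℓ₁ hℓ₁N hℓ₁p A₁ hA₁ σ₁ hσ₁ j₁ hℓ₂ hℓ₂N hℓ₂p A₂ hA₂ σ₂ hσ₂ j₂ hq hqN hqp P hP τ hτ
        g hg₁ hg₂ (Θ x) (hy x) (hyE x)
    obtain ⟨χ', hχ'⟩ := hker _ h0
    refine ⟨χ', ?_⟩
    rw [hχ', ← natCast_zsmul]
    push_cast
    rfl
  obtain ⟨t', ht'⟩ := hc k z hz hzL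
  -- conclusion
  have hπ : H.π (aeval (CuspForm.heckeAlgebra.T hℓ₂ hℓ₂N hℓ₂S') (s31e60_lucV (ℓ₂ : ℤ) j₂))
      - H.π (aeval (CuspForm.heckeAlgebra.T hℓ₁ hℓ₁N hℓ₁S') (s31e60_lucV (ℓ₁ : ℤ) j₁))
      ∈ IsLocalRing.maximalIdeal T ^ k := by
    rw [← map_sub, ← hz2, ht', map_zsmul, zsmul_eq_mul]
    refine Ideal.mul_mem_right _ _ ?_
    have h3 : (((p : ℤ) ^ k : ℤ) : T) = (p : T) ^ k := by push_cast; rfl
    rw [h3]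
    exact Ideal.pow_mem_pow hpT k
  have hfin : LinearMap.trace T H.ρ.V (H.ρ.ρ (g * τ)) - LinearMap.trace T H.ρ.V (H.ρ.ρ g)
      = (LinearMap.trace T H.ρ.V (H.ρ.ρ (g * τ))
          - H.π (aeval (CuspForm.heckeAlgebra.T hℓ₂ hℓ₂N hℓ₂S') (s31e60_lucV (ℓ₂ : ℤ) j₂)))
        + (H.π (aeval (CuspForm.heckeAlgebra.T hℓ₂ hℓ₂N hℓ₂S') (s31e60_lucV (ℓ₂ : ℤ) j₂))
          - H.π (aeval (CuspForm.heckeAlgebra.T hℓ₁ hℓ₁N hℓ₁S') (s31e60_lucV (ℓ₁ : ℤ) j₁)))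
        - (LinearMap.trace T H.ρ.V (H.ρ.ρ g)
          - H.π (aeval (CuspForm.heckeAlgebra.T hℓ₁ hℓ₁N hℓ₁S') (s31e60_lucV (ℓ₁ : ℤ) j₁))) := by
    ring
  rw [hfin]
  exact Ideal.sub_mem _ (Ideal.add_mem _ ht₂ hπ) ht₁

end Main

end Fermat.Agent.S31
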