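import Fermat.Agent.S31.JacSide1
import Fermat.Agent.S31.HeckeSat42
import Fermat.Agent.S31.Burnside91
import Fermat.Agent.S31.Lucas60
import Fermat.Agent.S42.ThetaClosedZ31
import Fermat.Prelude.Def_CuspForm_HeckeGaloisRepDatum

/-!
# S31 rider, row E6 (TWIN, helper87): the endgame

For a Hecke–Galois datum `H` of level `N` away from `S` (`p ∈ S`, every prime of `N` in `S`),
the representation `H.ρ` is unramified at every prime `q ∉ S`.

Chain (all inputs are on main, hypothesis-free):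

* `thz31_closed_I_Theta_Z N (p ^ m)` : the Kummer map `Θ : Hom_par(Γ₀(N), ℤ) → J₀(N)` at the
  modulus `p ^ m` (killed by `p ^ m`, kernel `p ^ m L`, Hecke-equivariant);
* `s31j1_delta` (helper1) : for `g ∈ G_ℚ`, `t` in an inertia group at `q`, a number field `F`:
  Frobenius elements `τ₁`, `τ₂` away from `S` with `g = τ₁ ^ j₁`, `g t = τ₂ ^ j₂` on `F` and
  `V_{j₁}(T_{ℓ₁}, ℓ₁) - V_{j₂}(T_{ℓ₂}, ℓ₂)` mapping `L` into `p ^ m L`;
* `hs42_sat_act` (helper42) : saturation of the Hecke algebra in `End_ℤ(L)`;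
* `s31e60_of_charpoly` (helper60) + the Lucas trace recurrence : `tr ρ(τ ^ j) = π(V_j(T_ℓ, ℓ))`;
* adic continuity of `ρ` : `tr ρ(g) ≡ tr ρ(τ₁ ^ j₁)` modulo `𝔪_T ^ n`;
* Krull's intersection theorem, and `bs91_isUnramifiedAt` (helper91).

Main results: `s31t87_trace_inertia` (Claim A) and `s31t87_unram` (the frozen S31 statement shape).
-/

set_option autoImplicit false
set_option linter.style.haveILetI false

namespace Fermat.Agent.S31

open ModularCurve ModularCurve.Period CongruenceSubgroup Fermat.Agent.S42 Polynomial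

local notation "Qb" => AlgebraicClosure ℚ
local notation "GQ" => AlgebraicClosure ℚ ≃ₐ[ℚ] AlgebraicClosure ℚ

section Lucas

/-- The Lucas sequence `V₀ = 2`, `V₁ = a`, `V_{j+2} = a V_{j+1} - d V_j` in a ring. -/
def s31t87_V {R : Type*} [Ring R] (a : R) (d : ℕ) : ℕ → R
  | 0 => 2
  | 1 => a
  | (j + 2) => a * s31t87_V a d (j + 1) - (d : R) * s31t87_V a d j

theorem s31t87_V_zero {R : Type*} [Ring R] (a : R) (d : ℕ) : s31t87_V a d 0 = 2 := by
  rw [s31t87_V]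

theorem s31t87_V_one {R : Type*} [Ring R] (a : R) (d : ℕ) : s31t87_V a d 1 = a := by
  rw [s31t87_V]

theorem s31t87_V_succ_succ {R : Type*} [Ring R] (a : R) (d : ℕ) (j : ℕ) :
    s31t87_V a d (j + 2) = a * s31t87_V a d (j + 1) - (d : R) * s31t87_V a d j := by
  rw [s31t87_V]

/-- The Lucas sequence is compatible with ring homomorphisms. -/
theorem s31t87_V_map {R R' : Type*} [Ring R] [Ring R'] (φ : R →+* R') (a : R) (d j : ℕ) :
    φ (s31t87_V a d j) = s31t87_V (φ a) d j := by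
  induction j using Nat.twoStepInduction with
  | zero => rw [s31t87_V_zero, s31t87_V_zero, map_ofNat]
  | one => rw [s31t87_V_one, s31t87_V_one]
  | more j ih0 ih1 =>
    rw [s31t87_V_succ_succ, s31t87_V_succ_succ, map_sub, map_mul, map_mul, map_natCast, ih0, ih1]

/-- In an endomorphism ring of an abelian group, the Lucas sequence is `s31j1_V`. -/
theorem s31t87_V_end {M : Type*} [AddCommGroup M] (T : Module.End ℤ M) (d j : ℕ) :
    s31t87_V T d j = s31j1_V T d j := by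
  induction j using Nat.twoStepInduction with
  | zero =>
    rw [s31t87_V_zero, s31j1_V_zero, two_smul]
    exact one_add_one_eq_two.symm
  | one => rw [s31t87_V_one, s31j1_V_one]
  | more j ih0 ih1 =>
    rw [s31t87_V_succ_succ, s31j1_V_succ_succ, ih0, ih1, natCast_zsmul, nsmul_eq_mul]

/-- On a free module of rank `2`: if `f² - a f + d = 0` and `tr f = a`, then
`tr (f ^ j) = V_j(a, d)`. -/
theorem s31t87_trace_pow {A : Type*} [CommRing A] {V : Type*} [AddCommGroup V] [Module A V]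
    [Module.Free A V] [Module.Finite A V] (hV : Module.finrank A V = 2) (f : Module.End A V)
    (a : A) (d : ℕ) (hf : f * f - a • f + (d : A) • (1 : Module.End A V) = 0)
    (htr : LinearMap.trace A V f = a) (j : ℕ) :
    LinearMap.trace A V (f ^ j) = s31t87_V a d j := by
  induction j using Nat.twoStepInduction with
  | zero =>
    rw [pow_zero, LinearMap.trace_one, hV, s31t87_V_zero]
    norm_num
  | one => rw [pow_one, htr, s31t87_V_one]
  | more j ih0 ih1 =>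
    have hf2 : f * f = a • f - (d : A) • (1 : Module.End A V) := by
      have h' := hf
      rw [sub_add_eq_add_sub, sub_eq_zero] at h'
      rw [eq_sub_iff_add_eq, h']
    have e : f ^ (j + 2) = a • f ^ (j + 1) - (d : A) • f ^ j := by
      rw [pow_add, pow_two, hf2, mul_sub, mul_smul_comm, mul_smul_comm, mul_one, ← pow_succ]
    rw [e, map_sub, map_smul, map_smul, ih0, ih1, smul_eq_mul, smul_eq_mul, s31t87_V_succ_succ]

end Lucas

section Trace

variable {A : Type*} [CommRing A] {V : Type*} [AddCommGroup V] [Module A V]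

/-- A linear map preserves `I • ⊤`. -/
theorem s31t87_map_smul_top (I : Ideal A) (f : Module.End A V) {x : V}
    (hx : x ∈ I • (⊤ : Submodule A V)) : f x ∈ I • (⊤ : Submodule A V) := by
  refine Submodule.smul_induction_on (p := fun x => f x ∈ I • (⊤ : Submodule A V)) hx ?_ ?_
  · intro r hr w _
    rw [map_smul]
    exact Submodule.smul_mem_smul hr Submodule.mem_top
  · intro x y hx hy
    rw [map_add]
    exact Submodule.add_mem _ hx hy

/-- The trace of an endomorphism with values in `I • ⊤` lies in `I`. -/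
theorem s31t87_trace_mem [Module.Free A V] [Module.Finite A V] (I : Ideal A) (f : Module.End A V)
    (hf : ∀ v, f v ∈ I • (⊤ : Submodule A V)) : LinearMap.trace A V f ∈ I := by
  classical
  have key : ∀ x ∈ I • (⊤ : Submodule A V), ∀ i,
      (Module.Free.chooseBasis A V).repr x i ∈ I := by
    intro x hx i
    refine Submodule.smul_induction_on
      (p := fun x => (Module.Free.chooseBasis A V).repr x i ∈ I) hx ?_ ?_
    · intro r hr w _
      rw [map_smul, Finsupp.smul_apply, smul_eq_mul]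
      exact I.mul_mem_right _ hr
    · intro x y hx hy
      rw [map_add, Finsupp.add_apply]
      exact I.add_mem hx hy
  rw [LinearMap.trace_eq_matrix_trace A (Module.Free.chooseBasis A V) f, Matrix.trace]
  refine Ideal.sum_mem _ (fun i _ => ?_)
  rw [Matrix.diag_apply, LinearMap.toMatrix_apply]
  exact key _ (hf _) i

end Trace

section Galois

variable {T : Type} [CommRing T] [IsLocalRing T]

/-- If `g` and `h` agree on a field whose fixing group acts trivially modulo `𝔪 ^ n`, then the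
traces of `ρ(g)` and `ρ(h)` agree modulo `𝔪 ^ n`. -/
theorem s31t87_trace_congr (ρ : GaloisRepAdic T) (n : ℕ) (F : IntermediateField ℚ Qb)
    (hF : ∀ σ : GQ, (∀ x ∈ F, σ x = x) →
      ∀ v : ρ.V, ρ.ρ σ v - v ∈ (IsLocalRing.maximalIdeal T ^ n) • (⊤ : Submodule T ρ.V))
    (g h : GQ) (hgh : ∀ x ∈ F, g x = h x) :
    LinearMap.trace T ρ.V (ρ.ρ g) - LinearMap.trace T ρ.V (ρ.ρ h)
      ∈ IsLocalRing.maximalIdeal T ^ n := by
  rw [← map_sub]
  refine s31t87_trace_mem _ _ (fun v => ?_)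
  have hσ : ∀ x ∈ F, (h⁻¹ * g) x = x := by
    intro x hx
    rw [AlgEquiv.mul_apply, hgh x hx, ← AlgEquiv.mul_apply, inv_mul_cancel, AlgEquiv.one_apply]
  have e : (ρ.ρ g - ρ.ρ h) v = ρ.ρ h (ρ.ρ (h⁻¹ * g) v - v) := by
    rw [map_sub, ← Module.End.mul_apply, ← map_mul, mul_inv_cancel_left, LinearMap.sub_apply]
  rw [e]
  exact s31t87_map_smul_top _ _ (hF _ hσ v)

end Galois

section Main

variable {p : ℕ} {N : ℕ} [NeZero N] {S : Finset ℕ}
  {𝒪 : Type} [CommRing 𝒪] [IsDomain 𝒪] [IsDiscreteValuationRing 𝒪]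
  [IsAdicComplete (IsLocalRing.maximalIdeal 𝒪) 𝒪]
  {θ : CuspForm.heckeAlgebra N 2 (↑S : Set ℕ) →+* IsLocalRing.ResidueField 𝒪}
  {T : Type} [CommRing T] [IsLocalRing T] [IsNoetherianRing T]
  [IsAdicComplete (IsLocalRing.maximalIdeal T) T] [Algebra 𝒪 T] [IsLocalHom (algebraMap 𝒪 T)]
  [Module.Finite 𝒪 T] [Module.Free 𝒪 T]

/-- **Claim A**: the trace of `H.ρ` is invariant under right multiplication by inertia at a
prime `q ∉ S`. -/
theorem s31t87_trace_inertia (hp : p.Prime)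
    (hp𝒪 : (p : 𝒪) ∈ IsLocalRing.maximalIdeal 𝒪) (hpS : p ∈ S)
    (hNS : ∀ q : ℕ, q.Prime → q ∣ N → q ∈ S)
    (H : CuspForm.HeckeGaloisRepDatum N (↑S : Set ℕ) 𝒪 θ T)
    (q : ℕ) (hq : q.Prime) (hqS : q ∉ S)
    (P : ValuationSubring Qb) (hP : P.LiesOverPrime q) (t : GQ)
    (ht : t ∈ P.inertiaSubgroupIn ℚ) (g : GQ) :
    LinearMap.trace T H.ρ.V (H.ρ.ρ (g * t)) = LinearMap.trace T H.ρ.V (H.ρ.ρ g) := by
  classical
  have hqN : ¬ q ∣ N := fun h => hqS (hNS q hq h)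
  have hqp : q ≠ p := fun h => hqS (h ▸ hpS)
  have hpT : (p : T) ∈ IsLocalRing.maximalIdeal T := by
    have h1 := map_nonunit (algebraMap 𝒪 T) (p : 𝒪) hp𝒪
    rwa [map_natCast] at h1
  obtain ⟨c, hc⟩ := hs42_sat_act N (↑S : Set ℕ) (p : ℤ) (by exact_mod_cast hp.ne_zero)
  have hmain : ∀ n : ℕ, LinearMap.trace T H.ρ.V (H.ρ.ρ (g * t))
      - LinearMap.trace T H.ρ.V (H.ρ.ρ g) ∈ IsLocalRing.maximalIdeal T ^ n := by
    intro n
    obtain ⟨F, hFfin, hF⟩ := H.ρ.isAdicContinuous n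
    haveI := hFfin
    haveI : NeZero (p ^ (n + c)) := ⟨pow_ne_zero _ hp.ne_zero⟩
    obtain ⟨Θ, hΘ1, hΘ2, hΘ3⟩ := thz31_closed_I_Theta_Z N (p ^ (n + c))
    obtain ⟨ℓ₁, ℓ₂, A₁, A₂, τ₁, τ₂, j₁, j₂, hℓ₁S, hℓ₂S, hA₁, hA₂, hτ₁, hτ₂, hg₁, hg₂, hdiv⟩ :=
      s31j1_delta N hp (n + c) Θ
        (fun x => by
          have h1 := hΘ1 x
          rwa [natCast_zsmul] at h1)
        hΘ2
        (fun ℓ hℓp x => by
          have hnd : ¬ (ℓ : ℕ) ∣ N * p ^ (n + c) := by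
            intro h
            rcases (Nat.Prime.dvd_mul ℓ.2.1).mp h with h | h
            · exact ℓ.2.2 h
            · exact hℓp ((Nat.prime_dvd_prime_iff_eq ℓ.2.1 hp).mp (ℓ.2.1.dvd_of_dvd_pow h))
          obtain ⟨hχ, h⟩ := hΘ3 ⟨ℓ, ℓ.2.1⟩ hnd x
          rw [h]
          rfl)
        hq hqN hqp P hP t ht g F S hpS hNS
    have hℓ₁S' : (ℓ₁ : ℕ) ∉ (↑S : Set ℕ) := fun h => hℓ₁S (Finset.mem_coe.mp h)
    have hℓ₂S' : (ℓ₂ : ℕ) ∉ (↑S : Set ℕ) := fun h => hℓ₂S (Finset.mem_coe.mp h)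
    set t₁ : CuspForm.heckeAlgebra N 2 (↑S : Set ℕ) :=
      CuspForm.heckeAlgebra.T ℓ₁.2.1 ℓ₁.2.2 hℓ₁S' with ht₁
    set t₂ : CuspForm.heckeAlgebra N 2 (↑S : Set ℕ) :=
      CuspForm.heckeAlgebra.T ℓ₂.2.1 ℓ₂.2.2 hℓ₂S' with ht₂
    have e₁ : hl42_TL N (ℓ₁ : ℕ) = m9e54_TL N ℓ₁ := LinearMap.ext fun x => Subtype.ext rfl
    have e₂ : hl42_TL N (ℓ₂ : ℕ) = m9e54_TL N ℓ₂ := LinearMap.ext fun x => Subtype.ext rfl
    have hact : hl42_act N (↑S : Set ℕ) (s31t87_V t₁ ℓ₁ j₁ - s31t87_V t₂ ℓ₂ j₂)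
        = s31j1_V (m9e54_TL N ℓ₁) ℓ₁ j₁ - s31j1_V (m9e54_TL N ℓ₂) ℓ₂ j₂ := by
      rw [map_sub, s31t87_V_map, s31t87_V_map, ht₁, ht₂, hl42_act_T, hl42_act_T, s31t87_V_end,
        s31t87_V_end, e₁, e₂]
    obtain ⟨t', ht'⟩ := hc n (s31t87_V t₁ ℓ₁ j₁ - s31t87_V t₂ ℓ₂ j₂) (fun x => by
      obtain ⟨y, hy⟩ := hdiv x
      refine ⟨y, ?_⟩
      rw [hact, LinearMap.sub_apply, hy, ← natCast_zsmul, Nat.cast_pow])
    have hπΔ : H.π (s31t87_V t₁ ℓ₁ j₁ - s31t87_V t₂ ℓ₂ j₂) ∈ IsLocalRing.maximalIdeal T ^ n := by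
      rw [ht', map_zsmul, zsmul_eq_mul, Int.cast_pow, Int.cast_natCast]
      exact Ideal.mul_mem_right _ _ (Ideal.pow_mem_pow hpT n)
    have htr₁ : LinearMap.trace T H.ρ.V (H.ρ.ρ (τ₁ ^ j₁)) = H.π (s31t87_V t₁ ℓ₁ j₁) := by
      obtain ⟨h1, h2⟩ := s31e60_of_charpoly (H.ρ.ρ τ₁) (H.π t₁) (((ℓ₁ : ℕ) : T))
        (H.charpoly_frob ℓ₁ ℓ₁.2.1 ℓ₁.2.2 hℓ₁S' A₁ hA₁ τ₁ hτ₁)
      rw [map_pow, s31t87_trace_pow H.ρ.finrank_eq _ _ _ h2 h1, s31t87_V_map]
    have htr₂ : LinearMap.trace T H.ρ.V (H.ρ.ρ (τ₂ ^ j₂)) = H.π (s31t87_V t₂ ℓ₂ j₂) := by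
      obtain ⟨h1, h2⟩ := s31e60_of_charpoly (H.ρ.ρ τ₂) (H.π t₂) (((ℓ₂ : ℕ) : T))
        (H.charpoly_frob ℓ₂ ℓ₂.2.1 ℓ₂.2.2 hℓ₂S' A₂ hA₂ τ₂ hτ₂)
      rw [map_pow, s31t87_trace_pow H.ρ.finrank_eq _ _ _ h2 h1, s31t87_V_map]
    have hc₁ := s31t87_trace_congr H.ρ n F hF g (τ₁ ^ j₁) hg₁
    have hc₂ := s31t87_trace_congr H.ρ n F hF (g * t) (τ₂ ^ j₂) hg₂
    have hsplit : LinearMap.trace T H.ρ.V (H.ρ.ρ (g * t)) - LinearMap.trace T H.ρ.V (H.ρ.ρ g)
        = (LinearMap.trace T H.ρ.V (H.ρ.ρ (g * t)) - LinearMap.trace T H.ρ.V (H.ρ.ρ (τ₂ ^ j₂)))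
          - (LinearMap.trace T H.ρ.V (H.ρ.ρ g) - LinearMap.trace T H.ρ.V (H.ρ.ρ (τ₁ ^ j₁)))
          - H.π (s31t87_V t₁ ℓ₁ j₁ - s31t87_V t₂ ℓ₂ j₂) := by
      rw [htr₁, htr₂, map_sub]
      ring
    rw [hsplit]
    exact Ideal.sub_mem _ (Ideal.sub_mem _ hc₂ hc₁) hπΔ
  have hbot := Ideal.iInf_pow_eq_bot_of_isLocalRing (IsLocalRing.maximalIdeal T)
    Ideal.IsPrime.ne_top'
  have hmem : LinearMap.trace T H.ρ.V (H.ρ.ρ (g * t)) - LinearMap.trace T H.ρ.V (H.ρ.ρ g)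
      ∈ (⨅ i : ℕ, IsLocalRing.maximalIdeal T ^ i) := (Ideal.mem_iInf).mpr hmain
  rw [hbot, Ideal.mem_bot, sub_eq_zero] at hmem
  exact hmem

/-- **S31 (frozen statement shape)**: in a Hecke–Galois datum of level `N` away from `S`
(`p ∈ S`, every prime of `N` in `S`), the Galois representation is unramified at every prime
`q ∉ S`. -/
theorem s31t87_unram (hp : p.Prime)
    (hp𝒪 : (p : 𝒪) ∈ IsLocalRing.maximalIdeal 𝒪) (hpS : p ∈ S)
    (hNS : ∀ q : ℕ, q.Prime → q ∣ N → q ∈ S)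
    (H : CuspForm.HeckeGaloisRepDatum N (↑S : Set ℕ) 𝒪 θ T)
    (q : ℕ) (hq : q.Prime) (hqS : q ∉ S) :
    H.ρ.IsUnramifiedAt q :=
  bs91_isUnramifiedAt H.ρ H.residual_absIrr q
    (fun P hP τ hτ g => s31t87_trace_inertia hp hp𝒪 hpS hNS H q hq hqS P hP τ hτ g)

end Main

end Fermat.Agent.S31
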