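/-
S31 rider, row E4 "HeckeLattice" (helper50, twin).

The Hecke algebra `CuspForm.heckeAlgebra N 2 S` (the `ℤ`-subalgebra of `End_ℂ (S₂(Γ₀(N)))` generated
by the `T_ℓ`, `ℓ ∤ N`, `ℓ ∉ S`, and the `U_q`, `q ∣ N`, `q ∉ S`) acts FAITHFULLY on the lattice
`L = Hom_par(Γ₀(N), ℤ)` of integral parabolic homomorphisms, `T_ℓ` and `U_q` acting as
`Fermat.Agent.S16.heckeHom N ℓ ℤ`:

* `hl50_exists` : an injective RING homomorphism `Φ : heckeAlgebra N 2 S →+* End_ℤ(L)` with
  `Φ (T_ℓ) x = heckeHom N ℓ ℤ x` and `Φ (U_q) x = heckeHom N q ℤ x`.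

Route: the Eichler–Shimura pair `periodHomPair N : S₂ × S₂ → Hom(Γ₀(N), ℂ)` is injective with
range `Hom_par(Γ₀(N), ℂ)` (`S21.result`) and Hecke equivariant (`es60_heckeHom_periodHomPair`);
the lattice `L` spans `Hom_par(Γ₀(N), ℂ)` over `ℂ` (`el2_exists_symbol` + `slp10_decomp`); the
abstract transport statement is `hl50_abstract`.
-/
import Mathlib
import Fermat.Prelude.Def_CuspForm_HeckeAlgebra
import Fermat.Agent.S41.ESTransfer60
import Fermat.Agent.S42.EigenClass54
import Fermat.Agent.S42.HeckePar88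

set_option autoImplicit false

open CongruenceSubgroup ModularCurve ModularCurve.Period

namespace Fermat.Agent.S31

open Fermat.Agent.S16 Fermat.Agent.S41 Fermat.Agent.S42

section Abstract

variable {W V L : Type*} [AddCommGroup W] [Module ℂ W] [AddCommGroup V] [Module ℂ V]
  [AddCommGroup L]

/-- `t` on `W` and `u` on `L` correspond under `php : W × W → V` and `ι : L → V`. -/
def hl50_Rel (php : (W × W) →ₗ[ℂ] V) (ι : L →+ V) (t : Module.End ℂ W) (u : Module.End ℤ L) :
    Prop :=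
  ∀ (w : W × W) (x : L), php w = ι x → php (t w.1, t w.2) = ι (u x)

/-- The subring of corresponding pairs. -/
def hl50_A (php : (W × W) →ₗ[ℂ] V) (ι : L →+ V) : Subring (Module.End ℂ W × Module.End ℤ L) where
  carrier := {a | hl50_Rel php ι a.1 a.2}
  mul_mem' := by
    intro a b ha hb w x h
    have h1 := hb w x h
    have h2 := ha _ _ h1
    exact h2
  one_mem' := by
    intro w x h
    exact h
  add_mem' := by
    intro a b ha hb w x h
    have h1 := ha w x h
    have h2 := hb w x h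
    show php ((a.1 + b.1) w.1, (a.1 + b.1) w.2) = ι ((a.2 + b.2) x)
    rw [LinearMap.add_apply, LinearMap.add_apply, LinearMap.add_apply, ← Prod.mk_add_mk, map_add,
      map_add, h1, h2]
  zero_mem' := by
    intro w x _
    show php ((0 : Module.End ℂ W) w.1, (0 : Module.End ℂ W) w.2) = ι ((0 : Module.End ℤ L) x)
    rw [LinearMap.zero_apply, LinearMap.zero_apply, LinearMap.zero_apply, map_zero]
    exact map_zero php
  neg_mem' := by
    intro a ha w x h
    have h1 := ha w x h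
    show php ((-a.1) w.1, (-a.1) w.2) = ι ((-a.2) x)
    rw [LinearMap.neg_apply, LinearMap.neg_apply, LinearMap.neg_apply, ← Prod.neg_mk, map_neg,
      map_neg, h1]

theorem hl50_mem_A {php : (W × W) →ₗ[ℂ] V} {ι : L →+ V}
    {a : Module.End ℂ W × Module.End ℤ L} : a ∈ hl50_A php ι ↔ hl50_Rel php ι a.1 a.2 :=
  Iff.rfl

/-- First projection of the subring of corresponding pairs. -/
def hl50_pr1 (php : (W × W) →ₗ[ℂ] V) (ι : L →+ V) : ↥(hl50_A php ι) →+* Module.End ℂ W :=
  (RingHom.fst _ _).comp (hl50_A php ι).subtype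

/-- Second projection of the subring of corresponding pairs. -/
def hl50_pr2 (php : (W × W) →ₗ[ℂ] V) (ι : L →+ V) : ↥(hl50_A php ι) →+* Module.End ℤ L :=
  (RingHom.snd _ _).comp (hl50_A php ι).subtype

theorem hl50_pr1_injective (php : (W × W) →ₗ[ℂ] V) (ι : L →+ V) (hι : Function.Injective ι)
    (hιr : ∀ x, ι x ∈ LinearMap.range php) : Function.Injective (hl50_pr1 php ι) := by
  rw [injective_iff_map_eq_zero]
  rintro ⟨⟨t, u⟩, ha⟩ h0
  have ht : t = 0 := h0
  subst ht
  have hu : u = 0 := by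
    apply LinearMap.ext
    intro x
    obtain ⟨w, hw⟩ := hιr x
    have h1 := ha w x hw
    apply hι
    rw [LinearMap.zero_apply, map_zero]
    rw [← h1]
    show php ((0 : Module.End ℂ W) w.1, (0 : Module.End ℂ W) w.2) = 0
    rw [LinearMap.zero_apply, LinearMap.zero_apply]
    exact map_zero php
  subst hu
  rfl

theorem hl50_pr2_injective (php : (W × W) →ₗ[ℂ] V) (ι : L →+ V) (hphp : Function.Injective php)
    (hιr : ∀ x, ι x ∈ LinearMap.range php)
    (hspan : LinearMap.range php ≤ Submodule.span ℂ (Set.range ι)) :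
    Function.Injective (hl50_pr2 php ι) := by
  rw [injective_iff_map_eq_zero]
  rintro ⟨⟨t, u⟩, ha⟩ h0
  have hu : u = 0 := h0
  subst hu
  have ht : t = 0 := by
    let Q : Submodule ℂ (W × W) := LinearMap.ker (t.prodMap t)
    have hQ : Submodule.span ℂ (Set.range ι) ≤ Q.map php := by
      rw [Submodule.span_le]
      rintro _ ⟨x, rfl⟩
      obtain ⟨w, hw⟩ := hιr x
      refine ⟨w, ?_, hw⟩
      have h1 := ha w x hw
      rw [LinearMap.zero_apply, map_zero] at h1
      have h2 : (t w.1, t w.2) = 0 := hphp (h1.trans (map_zero php).symm)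
      show (t.prodMap t) w = 0
      exact h2
    apply LinearMap.ext
    intro v
    have h3 : php (v, 0) ∈ Q.map php := hQ (hspan ⟨(v, 0), rfl⟩)
    obtain ⟨w', hw', hw'e⟩ := h3
    have h4 : w' = (v, 0) := hphp hw'e
    rw [h4] at hw'
    have h5 : (t.prodMap t) (v, 0) = 0 := hw'
    have h6 : (t v, t 0) = (0 : W × W) := h5
    exact congrArg Prod.fst h6
  subst ht
  rfl

/-- **Abstract transport.**  If `php : W × W → V` is injective, the lattice `ι(L)` lies in and
spans the range of `php`, and every generator of the subalgebra `Algebra.adjoin ℤ gens` of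
`End_ℂ(W)` corresponds to an endomorphism of `L`, then the whole subalgebra acts faithfully on `L`
by a ring homomorphism sending each element to ITS corresponding endomorphism. -/
theorem hl50_abstract (php : (W × W) →ₗ[ℂ] V) (ι : L →+ V) (hphp : Function.Injective php)
    (hι : Function.Injective ι) (hιr : ∀ x, ι x ∈ LinearMap.range php)
    (hspan : LinearMap.range php ≤ Submodule.span ℂ (Set.range ι))
    (gens : Set (Module.End ℂ W))
    (hgens : ∀ t ∈ gens, ∃ u : Module.End ℤ L, hl50_Rel php ι t u) :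
    ∃ Φ : ↥(Algebra.adjoin ℤ gens) →+* Module.End ℤ L,
      Function.Injective Φ ∧
      (∀ (t : Module.End ℂ W) (ht : t ∈ Algebra.adjoin ℤ gens) (u : Module.End ℤ L),
        hl50_Rel php ι t u → Φ ⟨t, ht⟩ = u) ∧
      (∀ a : ↥(Algebra.adjoin ℤ gens),
        hl50_Rel php ι (a : Module.End ℂ W) (Φ a)) := by
  have h1inj := hl50_pr1_injective php ι hι hιr
  have h2inj := hl50_pr2_injective php ι hphp hιr hspan
  have hle : Algebra.adjoin ℤ gens ≤ subalgebraOfSubring (hl50_pr1 php ι).range := by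
    apply Algebra.adjoin_le
    intro t ht
    obtain ⟨u, hu⟩ := hgens t ht
    exact ⟨⟨(t, u), hu⟩, rfl⟩
  have hle' : ∀ a : ↥(Algebra.adjoin ℤ gens),
      (a : Module.End ℂ W) ∈ (hl50_pr1 php ι).range := fun a => hle a.2
  let e : ↥(hl50_A php ι) ≃+* ↥(hl50_pr1 php ι).range :=
    RingEquiv.ofBijective (hl50_pr1 php ι).rangeRestrict
      ⟨fun a b hab => h1inj (congrArg Subtype.val hab), RingHom.rangeRestrict_surjective _⟩
  let incl : ↥(Algebra.adjoin ℤ gens) →+* ↥(hl50_pr1 php ι).range :=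
    ((Algebra.adjoin ℤ gens).val : ↥(Algebra.adjoin ℤ gens) →+* Module.End ℂ W).codRestrict
      (hl50_pr1 php ι).range hle'
  have hincl : Function.Injective incl := by
    intro a b hab
    have h := congrArg Subtype.val hab
    exact Subtype.ext h
  let Φ : ↥(Algebra.adjoin ℤ gens) →+* Module.End ℤ L :=
    (hl50_pr2 php ι).comp (e.symm.toRingHom.comp incl)
  have hΦ : ∀ a, Φ a = hl50_pr2 php ι (e.symm (incl a)) := fun _ => rfl
  have hkey : ∀ a : ↥(Algebra.adjoin ℤ gens),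
      hl50_pr1 php ι (e.symm (incl a)) = (a : Module.End ℂ W) := by
    intro a
    have h := e.apply_symm_apply (incl a)
    exact congrArg Subtype.val h
  refine ⟨Φ, ?_, ?_, ?_⟩
  · intro a b hab
    rw [hΦ, hΦ] at hab
    exact hincl (e.symm.injective (h2inj hab))
  · intro t ht u hu
    have h1 : e.symm (incl ⟨t, ht⟩) = ⟨(t, u), hu⟩ := by
      apply h1inj
      rw [hkey]
      rfl
    rw [hΦ, h1]
    rfl
  · intro a
    have h1 := (e.symm (incl a)).2
    rw [hl50_mem_A] at h1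
    have h2 := hkey a
    have h3 : ((e.symm (incl a) : ↥(hl50_A php ι)) :
        Module.End ℂ W × Module.End ℤ L).1 = (a : Module.End ℂ W) := h2
    rw [h3] at h1
    exact h1

end Abstract

section Concrete

variable (N : ℕ)

/-- Complexification of an integral parabolic homomorphism. -/
noncomputable def hl50_iota :
    ↥(parabolicHoms ℤ (Gamma0 N) ℤ) →+ (Additive (Gamma0 N) →+ ℂ) where
  toFun x := (Int.castAddHom ℂ).comp (x : Additive (Gamma0 N) →+ ℤ)
  map_zero' := by
    refine AddMonoidHom.ext fun γ => ?_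
    simp
  map_add' x y := by
    refine AddMonoidHom.ext fun γ => ?_
    simp

theorem hl50_iota_apply (x : ↥(parabolicHoms ℤ (Gamma0 N) ℤ)) (γ : Additive (Gamma0 N)) :
    hl50_iota N x γ = (((x : Additive (Gamma0 N) →+ ℤ) γ : ℤ) : ℂ) := rfl

theorem hl50_iota_injective : Function.Injective (hl50_iota N) := by
  intro x y hxy
  apply Subtype.ext
  refine AddMonoidHom.ext fun γ => ?_
  have h := congrArg (fun φ : Additive (Gamma0 N) →+ ℂ => φ γ) hxy
  simp only [hl50_iota_apply] at h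
  exact_mod_cast h

theorem hl50_iota_parabolic (x : ↥(parabolicHoms ℤ (Gamma0 N) ℤ)) :
    IsParabolicHom (Gamma0 N) (hl50_iota N x) := by
  intro γ hγ
  have h : (x : Additive (Gamma0 N) →+ ℤ) (Additive.ofMul γ) = 0 := x.2 γ hγ
  rw [hl50_iota_apply, h]
  exact Int.cast_zero

/-- The lattice of integral parabolic homomorphisms spans the complex ones. -/
theorem hl50_span [NeZero N] (χ : Additive (Gamma0 N) →+ ℂ) (hχ : IsParabolicHom (Gamma0 N) χ) :
    χ ∈ Submodule.span ℂ (Set.range (hl50_iota N)) := by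
  obtain ⟨Φ, hΦ, hinv, hν⟩ := el2_exists_symbol N χ hχ
  obtain ⟨n', m, ψ', hψ', hdec⟩ := slp10_decomp (M := N) (Φ := Φ) ⟨hΦ, hinv⟩
  let χ' : Fin n' → ↥(parabolicHoms ℤ (Gamma0 N) ℤ) := fun k =>
    ⟨sc71_nu N (ψ' k) (hψ' k).1 (hψ' k).2, sc71_nu_parabolic (hψ' k).1 (hψ' k).2⟩
  have hsum : χ = ∑ k, m k • hl50_iota N (χ' k) := by
    rw [← hν]
    refine AddMonoidHom.ext fun γ => ?_
    obtain ⟨γ, rfl⟩ := Additive.ofMul.surjective γ
    have h1 : sc71_nu N Φ hΦ hinv (Additive.ofMul γ) =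
        ∑ k, m k * (((χ' k : Additive (Gamma0 N) →+ ℤ) (Additive.ofMul γ) : ℤ) : ℂ) := by
      show Φ _ = _
      rw [hdec]
      refine Finset.sum_congr rfl (fun k _ => ?_)
      rw [zsmul_eq_mul, mul_comm]
      rfl
    rw [h1]
    simp only [AddMonoidHom.finsetSum_apply, AddMonoidHom.smul_apply, smul_eq_mul,
      hl50_iota_apply]
  rw [hsum]
  exact Submodule.sum_mem _ fun k _ =>
    Submodule.smul_mem _ _ (Submodule.subset_span ⟨χ' k, rfl⟩)

/-- The Hecke operator at a prime `ℓ` on the lattice of integral parabolic homomorphisms. -/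
noncomputable def hl50_TL {ℓ : ℕ} (hℓ : ℓ.Prime) :
    Module.End ℤ ↥(parabolicHoms ℤ (Gamma0 N) ℤ) :=
  AddMonoidHom.toIntLinearMap
    { toFun := fun x => ⟨heckeHom N ℓ ℤ (x : Additive (Gamma0 N) →+ ℤ),
        hpg88_isParabolicHom_prime hℓ _ x.2⟩
      map_zero' := by
        apply Subtype.ext
        exact map_zero (heckeHom N ℓ ℤ)
      map_add' := fun x y => by
        apply Subtype.ext
        exact map_add (heckeHom N ℓ ℤ) _ _ }

theorem hl50_TL_coe {ℓ : ℕ} (hℓ : ℓ.Prime) (x : ↥(parabolicHoms ℤ (Gamma0 N) ℤ)) :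
    ((hl50_TL N hℓ x : ↥(parabolicHoms ℤ (Gamma0 N) ℤ)) : Additive (Gamma0 N) →+ ℤ) =
      heckeHom N ℓ ℤ (x : Additive (Gamma0 N) →+ ℤ) := rfl

theorem hl50_rel [NeZero N] {ℓ : ℕ} (hℓ : ℓ.Prime) :
    hl50_Rel (periodHomPair N) (hl50_iota N) (es60_T N ℓ) (hl50_TL N hℓ) := by
  intro w x h
  rw [← es60_heckeHom_periodHomPair, Prod.mk.eta, h]
  show heckeHom N ℓ ℂ ((Int.castAddHom ℂ).comp (x : Additive (Gamma0 N) →+ ℤ)) = _
  rw [heckeHom_comp]
  rfl

end Concrete

/-- **E4 (HeckeLattice), full form.**  The weight-2 Hecke algebra of level `N` (any set `S` of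
removed primes) acts faithfully on the lattice `Hom_par(Γ₀(N), ℤ)` by a ring homomorphism `Φ`;
the action is the one transported through the Eichler–Shimura pair (third clause), and an
element corresponding to `u` is sent to `u` (second clause). -/
theorem hl50_exists_full (N : ℕ) [NeZero N] (S : Set ℕ) :
    ∃ Φ : CuspForm.heckeAlgebra N 2 S →+* Module.End ℤ ↥(parabolicHoms ℤ (Gamma0 N) ℤ),
      Function.Injective Φ ∧
      (∀ (t : Module.End ℂ (CuspForm (Gamma0 N) 2)) (ht : t ∈ CuspForm.heckeAlgebra N 2 S)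
        (u : Module.End ℤ ↥(parabolicHoms ℤ (Gamma0 N) ℤ)),
        hl50_Rel (periodHomPair N) (hl50_iota N) t u → Φ ⟨t, ht⟩ = u) ∧
      (∀ a : CuspForm.heckeAlgebra N 2 S,
        hl50_Rel (periodHomPair N) (hl50_iota N)
          (a : Module.End ℂ (CuspForm (Gamma0 N) 2)) (Φ a)) := by
  obtain ⟨hinj, hrange⟩ := Fermat.Agent.S21.result N
  have hιr : ∀ x, hl50_iota N x ∈ LinearMap.range (periodHomPair N) := by
    intro x
    rw [hrange]
    exact hl50_iota_parabolic N x
  have hspan : LinearMap.range (periodHomPair N) ≤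
      Submodule.span ℂ (Set.range (hl50_iota N)) := by
    rw [hrange]
    intro χ hχ
    exact hl50_span N χ hχ
  have hgens : ∀ t ∈ CuspForm.heckeGenerators N 2 S,
      ∃ u : Module.End ℤ ↥(parabolicHoms ℤ (Gamma0 N) ℤ),
        hl50_Rel (periodHomPair N) (hl50_iota N) t u := by
    rintro t (⟨ℓ, hℓ, hℓN, -, rfl⟩ | ⟨q, hqN, hq, -, rfl⟩)
    · refine ⟨hl50_TL N hℓ, ?_⟩
      rw [← es60_T_of_not_dvd hℓ hℓN]
      exact hl50_rel N hℓ
    · refine ⟨hl50_TL N hq, ?_⟩
      rw [← es60_T_of_dvd hq hqN]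
      exact hl50_rel N hq
  exact hl50_abstract (periodHomPair N) (hl50_iota N) hinj
    (hl50_iota_injective N) hιr hspan (CuspForm.heckeGenerators N 2 S) hgens

/-- **E4 (HeckeLattice).**  The weight-2 Hecke algebra of level `N` (any set `S` of removed
primes) acts faithfully on the lattice `Hom_par(Γ₀(N), ℤ)` by a ring homomorphism, the generators
`T_ℓ` (`ℓ ∤ N`) and `U_q` (`q ∣ N`) acting as `heckeHom N ℓ ℤ`. -/
theorem hl50_exists (N : ℕ) [NeZero N] (S : Set ℕ) :
    ∃ Φ : CuspForm.heckeAlgebra N 2 S →+* Module.End ℤ ↥(parabolicHoms ℤ (Gamma0 N) ℤ),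
      Function.Injective Φ ∧
      (∀ (ℓ : ℕ) (hℓ : ℓ.Prime) (hℓN : ¬ ℓ ∣ N) (hℓS : ℓ ∉ S)
        (x : ↥(parabolicHoms ℤ (Gamma0 N) ℤ)),
        ((Φ (CuspForm.heckeAlgebra.T hℓ hℓN hℓS) x : ↥(parabolicHoms ℤ (Gamma0 N) ℤ)) :
          Additive (Gamma0 N) →+ ℤ) = heckeHom N ℓ ℤ (x : Additive (Gamma0 N) →+ ℤ)) ∧
      (∀ (q : ℕ) (hq : q.Prime) (hqN : q ∣ N) (hqS : q ∉ S)
        (x : ↥(parabolicHoms ℤ (Gamma0 N) ℤ)),
        ((Φ (CuspForm.heckeAlgebra.U hq hqN hqS) x : ↥(parabolicHoms ℤ (Gamma0 N) ℤ)) :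
          Additive (Gamma0 N) →+ ℤ) = heckeHom N q ℤ (x : Additive (Gamma0 N) →+ ℤ)) := by
  obtain ⟨Φ, hΦinj, hΦspec, -⟩ := hl50_exists_full N S
  refine ⟨Φ, hΦinj, ?_, ?_⟩
  · intro ℓ hℓ hℓN hℓS x
    have h1 : Φ (CuspForm.heckeAlgebra.T hℓ hℓN hℓS) = hl50_TL N hℓ := by
      refine hΦspec _ _ _ ?_
      rw [← es60_T_of_not_dvd hℓ hℓN]
      exact hl50_rel N hℓ
    rw [h1]
    rfl
  · intro q hq hqN hqS x
    have h1 : Φ (CuspForm.heckeAlgebra.U hq hqN hqS) = hl50_TL N hq := by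
      refine hΦspec _ _ _ ?_
      rw [← es60_T_of_dvd hq hqN]
      exact hl50_rel N hq
    rw [h1]
    rfl

end Fermat.Agent.S31
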