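import Fermat.Agent.S31.RootsUnity58
import Fermat.Agent.S42.FrobInertia69
import Fermat.Agent.S42.OpenStab25
import Fermat.Agent.S42.FrobPow37
import Fermat.Agent.S42.EigenClass54

/-!
# S31 rider, row E6-J (helper1): the Jacobian-side half of Claim A

`L = Hom_par(Γ₀(N), ℤ)` (`parabolicHoms ℤ (Gamma0 N) ℤ`), `T_ℓ = m9e54_TL N ℓ` on `L`,
`heckeOperatorBar N ℓ` on `JZero N`.

* `s31j1_V T d j` : the Lucas operators `V₀ = 2`, `V₁ = T`, `V_{j+2} = T V_{j+1} - d V_j` in the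
  endomorphism ring of an abelian group.
* `s31j1_V_transfer` : an additive map intertwining `T` intertwines the Lucas operators.
* `s31j1_V_powsum` : if `T y = τ y + d τ⁻¹ y` on the classes killed by `m`, then
  `V_j(T, d) x = τ^j x + d^j τ^{-j} x` there.
* `s31j1_theta_delta` (abstract) and `s31j1_delta` (concrete): for `θ : L → JZero N` killed by
  `p ^ n`, with kernel `p ^ n L` and Hecke-equivariant at the primes `ℓ ∤ N p`, for `g ∈ G_ℚ`,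
  `t` in an inertia group at a prime `q ∤ N p`, a number field `F` and a finite set `S` of primes
  containing `p` and the primes of `N`: there are Frobenius elements `τ₁` at `ℓ₁ ∉ S`, `τ₂` at
  `ℓ₂ ∉ S` and exponents `j₁`, `j₂` with `g = τ₁ ^ j₁` and `g t = τ₂ ^ j₂` on `F` such that
  `V_{j₁}(T_{ℓ₁}, ℓ₁) - V_{j₂}(T_{ℓ₂}, ℓ₂)` maps `L` into `p ^ n L`.
-/

set_option autoImplicit false
set_option linter.style.haveILetI false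

namespace Fermat.Agent.S31

open ModularCurve ModularCurve.Period CongruenceSubgroup Fermat.Agent.S42

local notation "Qb" => AlgebraicClosure ℚ
local notation "GQ" => AlgebraicClosure ℚ ≃ₐ[ℚ] AlgebraicClosure ℚ

section Abstract

/-- The Lucas operators `V₀ = 2`, `V₁ = T`, `V_{j+2} = T V_{j+1} - d V_j`. -/
noncomputable def s31j1_V {M : Type*} [AddCommGroup M] (T : Module.End ℤ M) (d : ℕ) :
    ℕ → Module.End ℤ M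
  | 0 => (2 : ℤ) • (1 : Module.End ℤ M)
  | 1 => T
  | (j + 2) => T * s31j1_V T d (j + 1) - (d : ℤ) • s31j1_V T d j

theorem s31j1_V_zero {M : Type*} [AddCommGroup M] (T : Module.End ℤ M) (d : ℕ) :
    s31j1_V T d 0 = (2 : ℤ) • (1 : Module.End ℤ M) := by
  rw [s31j1_V]

theorem s31j1_V_one {M : Type*} [AddCommGroup M] (T : Module.End ℤ M) (d : ℕ) :
    s31j1_V T d 1 = T := by
  rw [s31j1_V]

theorem s31j1_V_succ_succ {M : Type*} [AddCommGroup M] (T : Module.End ℤ M) (d : ℕ) (j : ℕ) :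
    s31j1_V T d (j + 2) = T * s31j1_V T d (j + 1) - (d : ℤ) • s31j1_V T d j := by
  rw [s31j1_V]

theorem s31j1_V_zero_apply {M : Type*} [AddCommGroup M] (T : Module.End ℤ M) (d : ℕ) (x : M) :
    s31j1_V T d 0 x = (2 : ℤ) • x := by
  rw [s31j1_V_zero, LinearMap.smul_apply, Module.End.one_apply]

theorem s31j1_V_succ_succ_apply {M : Type*} [AddCommGroup M] (T : Module.End ℤ M) (d : ℕ)
    (j : ℕ) (x : M) :
    s31j1_V T d (j + 2) x = T (s31j1_V T d (j + 1) x) - (d : ℤ) • s31j1_V T d j x := by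
  rw [s31j1_V_succ_succ, LinearMap.sub_apply, Module.End.mul_apply, LinearMap.smul_apply]

/-- An additive map intertwining `T` intertwines the Lucas operators. -/
theorem s31j1_V_transfer {L J : Type*} [AddCommGroup L] [AddCommGroup J] (θ : L →+ J)
    (TL : Module.End ℤ L) (TJ : Module.End ℤ J) (h : ∀ x, TJ (θ x) = θ (TL x)) (d : ℕ) :
    ∀ (j : ℕ) (x : L), s31j1_V TJ d j (θ x) = θ (s31j1_V TL d j x) := by
  intro j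
  induction j using Nat.twoStepInduction with
  | zero =>
    intro x
    rw [s31j1_V_zero_apply, s31j1_V_zero_apply, map_zsmul]
  | one =>
    intro x
    rw [s31j1_V_one, s31j1_V_one, h]
  | more j ih0 ih1 =>
    intro x
    rw [s31j1_V_succ_succ_apply, s31j1_V_succ_succ_apply, ih1, ih0, h, map_sub, map_zsmul]

/-- From the quadratic relation to `T = τ + d τ⁻¹` on the classes killed by `m`. -/
theorem s31j1_hecke_of_frob {G J : Type*} [Group G] [AddCommGroup J] [DistribMulAction G J]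
    (τ : G) (T : Module.End ℤ J) (d m : ℕ)
    (hf : ∀ x : J, m • x = 0 → τ • τ • x - T (τ • x) + d • x = 0) (y : J) (hy : m • y = 0) :
    T y = τ • y + d • τ⁻¹ • y := by
  have h1 : m • (τ⁻¹ • y) = 0 := by rw [smul_comm m τ⁻¹ y, hy, smul_zero]
  have h2 := hf (τ⁻¹ • y) h1
  rw [smul_inv_smul] at h2
  have h3 : T y = τ • y + d • τ⁻¹ • y - (τ • y - T y + d • τ⁻¹ • y) := by abel
  rw [h3, h2, sub_zero]

/-- Power sums: `V_j(T, d) x = τ^j x + d^j τ^{-j} x` on the classes killed by `m`. -/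
theorem s31j1_V_powsum {G J : Type*} [Group G] [AddCommGroup J] [DistribMulAction G J]
    (τ : G) (T : Module.End ℤ J) (d m : ℕ)
    (hT : ∀ y : J, m • y = 0 → T y = τ • y + d • τ⁻¹ • y) :
    ∀ (j : ℕ) (x : J), m • x = 0 → s31j1_V T d j x = τ ^ j • x + d ^ j • (τ ^ j)⁻¹ • x := by
  intro j
  induction j using Nat.twoStepInduction with
  | zero =>
    intro x _
    rw [s31j1_V_zero_apply, pow_zero, pow_zero, inv_one, one_smul, one_smul, two_smul]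
  | one =>
    intro x hx
    rw [s31j1_V_one, pow_one, pow_one, hT x hx]
  | more j ih0 ih1 =>
    intro x hx
    have ha : m • (τ ^ (j + 1) • x) = 0 := by rw [smul_comm m (τ ^ (j + 1)) x, hx, smul_zero]
    have hb : m • ((τ ^ (j + 1))⁻¹ • x) = 0 := by
      rw [smul_comm m (τ ^ (j + 1))⁻¹ x, hx, smul_zero]
    have g1 : τ • τ ^ (j + 1) • x = τ ^ (j + 2) • x := by
      rw [← mul_smul, ← pow_succ']
    have g2 : τ⁻¹ • τ ^ (j + 1) • x = τ ^ j • x := by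
      rw [← mul_smul, pow_succ', inv_mul_cancel_left]
    have g3 : τ • (τ ^ (j + 1))⁻¹ • x = (τ ^ j)⁻¹ • x := by
      rw [← mul_smul]
      congr 1
      rw [pow_succ, mul_inv_rev, mul_inv_cancel_left]
    have g4 : τ⁻¹ • (τ ^ (j + 1))⁻¹ • x = (τ ^ (j + 2))⁻¹ • x := by
      rw [← mul_smul]
      congr 1
      rw [← mul_inv_rev, ← pow_succ]
    rw [s31j1_V_succ_succ_apply, ih1 x hx, ih0 x hx, map_add, map_nsmul, hT _ ha, hT _ hb,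
      g1, g2, g3, g4]
    have e1 : d ^ (j + 1) • (d • (τ ^ (j + 2))⁻¹ • x) = d ^ (j + 2) • (τ ^ (j + 2))⁻¹ • x := by
      rw [smul_smul, ← pow_succ]
    have e2 : (d : ℤ) • (d ^ j • (τ ^ j)⁻¹ • x) = d ^ (j + 1) • (τ ^ j)⁻¹ • x := by
      rw [natCast_zsmul, smul_smul, ← pow_succ']
    rw [smul_add, smul_add, e1, e2, natCast_zsmul]
    abel

/-- Congruent multipliers act equally on classes killed by the modulus. -/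
theorem s31j1_smul_congr {J : Type*} [AddCommGroup J] {a b m : ℕ} (h : a ≡ b [MOD m]) (y : J)
    (hy : m • y = 0) : a • y = b • y := by
  obtain ⟨k, hk⟩ := Int.modEq_iff_dvd.mp (Int.natCast_modEq_iff.mpr h)
  have h1 : (b : ℤ) = a + m * k := by linarith
  have h2 : (b : ℤ) • y = (a : ℤ) • y := by
    rw [h1, add_smul, mul_smul, natCast_zsmul (k • y) m, smul_comm m k y, hy, smul_zero, add_zero]
  rw [← natCast_zsmul y a, ← natCast_zsmul y b, h2]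

/-- **Abstract Jacobian-side identity.** -/
theorem s31j1_theta_delta {G L J : Type*} [Group G] [AddCommGroup L] [AddCommGroup J]
    [DistribMulAction G J] (θ : L →+ J) (m : ℕ)
    (T₁L T₂L : Module.End ℤ L) (T₁J T₂J : Module.End ℤ J)
    (hh₁ : ∀ x, T₁J (θ x) = θ (T₁L x)) (hh₂ : ∀ x, T₂J (θ x) = θ (T₂L x))
    (τ₁ τ₂ g t : G) (d₁ d₂ j₁ j₂ : ℕ)
    (hf₁ : ∀ x : J, m • x = 0 → τ₁ • τ₁ • x - T₁J (τ₁ • x) + d₁ • x = 0)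
    (hf₂ : ∀ x : J, m • x = 0 → τ₂ • τ₂ • x - T₂J (τ₂ • x) + d₂ • x = 0)
    (hin : ∀ x : J, m • x = 0 → t • x = x)
    (hmod : d₁ ^ j₁ ≡ d₂ ^ j₂ [MOD m])
    (c : L) (hc : m • θ c = 0)
    (hg₁ : g • θ c = τ₁ ^ j₁ • θ c) (hg₁' : g⁻¹ • θ c = (τ₁ ^ j₁)⁻¹ • θ c)
    (hg₂ : (g * t) • θ c = τ₂ ^ j₂ • θ c) (hg₂' : (g * t)⁻¹ • θ c = (τ₂ ^ j₂)⁻¹ • θ c) :
    θ (s31j1_V T₁L d₁ j₁ c - s31j1_V T₂L d₂ j₂ c) = 0 := by
  have hy : m • (g⁻¹ • θ c) = 0 := by rw [smul_comm m g⁻¹ (θ c), hc, smul_zero]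
  have e₁ : θ (s31j1_V T₁L d₁ j₁ c) = g • θ c + d₁ ^ j₁ • g⁻¹ • θ c := by
    rw [← s31j1_V_transfer θ T₁L T₁J hh₁,
      s31j1_V_powsum τ₁ T₁J d₁ m (s31j1_hecke_of_frob τ₁ T₁J d₁ m hf₁) j₁ (θ c) hc, hg₁, hg₁']
  have e₂ : θ (s31j1_V T₂L d₂ j₂ c) = g • θ c + d₂ ^ j₂ • g⁻¹ • θ c := by
    have k1 : (g * t) • θ c = g • θ c := by rw [mul_smul, hin (θ c) hc]
    have k2 : (g * t)⁻¹ • θ c = g⁻¹ • θ c := by
      rw [mul_inv_rev, mul_smul]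
      exact inv_smul_eq_iff.mpr (hin _ hy).symm
    rw [← s31j1_V_transfer θ T₂L T₂J hh₂,
      s31j1_V_powsum τ₂ T₂J d₂ m (s31j1_hecke_of_frob τ₂ T₂J d₂ m hf₂) j₂ (θ c) hc, ← hg₂, ← hg₂',
      k1, k2]
  rw [map_sub, e₁, e₂, add_sub_add_left_eq_sub, s31j1_smul_congr hmod _ hy, sub_self]

/-- If `g` agrees with `h` on a field whose fixing group fixes `x`, then `g x = h x`. -/
theorem s31j1_smul_eq_of_agree {J : Type*} [AddCommGroup J] [DistribMulAction GQ J]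
    (F₁ : IntermediateField ℚ Qb) (x : J) (hx : ∀ σ : GQ, (∀ a ∈ F₁, σ a = a) → σ • x = x)
    (g h : GQ) (hgh : ∀ a ∈ F₁, g a = h a) : g • x = h • x := by
  have h1 : (h⁻¹ * g) • x = x := by
    refine hx _ (fun a ha => ?_)
    rw [AlgEquiv.mul_apply, hgh a ha, ← AlgEquiv.mul_apply, inv_mul_cancel, AlgEquiv.one_apply]
  have h2 : g • x = h • (h⁻¹ * g) • x := by rw [← mul_smul, mul_inv_cancel_left]
  rw [h2, h1]

end Abstract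

section Concrete

variable (N : ℕ) [NeZero N]

/-- **The Jacobian-side half of Claim A.**  For `θ : Hom_par(Γ₀(N), ℤ) → JZero N` killed by
`p ^ n`, with kernel inside `p ^ n L` and Hecke-equivariant at the primes `ℓ ∤ N`, `ℓ ≠ p`:
for `g ∈ G_ℚ`, `t` in an inertia group at a prime `q ∤ N p`, a number field `F` and a finite set
`S` of primes containing `p` and the primes of `N`, there are Frobenius elements `τ₁` at `ℓ₁ ∉ S`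
and `τ₂` at `ℓ₂ ∉ S` with `g = τ₁ ^ j₁` and `g t = τ₂ ^ j₂` on `F` such that
`V_{j₁}(T_{ℓ₁}, ℓ₁) - V_{j₂}(T_{ℓ₂}, ℓ₂)` maps `L` into `p ^ n L`. -/
theorem s31j1_delta {p : ℕ} (hp : p.Prime) (n : ℕ)
    (θ : ↥(parabolicHoms ℤ (Gamma0 N) ℤ) →+ JZero N)
    (htors : ∀ x, (p ^ n) • θ x = 0)
    (hker : ∀ x, θ x = 0 → ∃ y, x = (p ^ n) • y)
    (hhec : ∀ ℓ : {ℓ : ℕ // ℓ.Prime ∧ ¬ ℓ ∣ N}, (ℓ : ℕ) ≠ p → ∀ x,
      heckeOperatorBar N ⟨ℓ, ℓ.2.1⟩ (θ x) = θ (m9e54_TL N ℓ x))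
    {q : ℕ} (hq : q.Prime) (hqN : ¬ q ∣ N) (hqp : q ≠ p)
    (P : ValuationSubring Qb) (hP : P.LiesOverPrime q) (t : GQ)
    (ht : t ∈ P.inertiaSubgroupIn ℚ)
    (g : GQ) (F : IntermediateField ℚ Qb) [FiniteDimensional ℚ F] (S : Finset ℕ) (hpS : p ∈ S)
    (hNS : ∀ r : ℕ, r.Prime → r ∣ N → r ∈ S) :
    ∃ (ℓ₁ ℓ₂ : {ℓ : ℕ // ℓ.Prime ∧ ¬ ℓ ∣ N}) (A₁ A₂ : ValuationSubring Qb) (τ₁ τ₂ : GQ)
      (j₁ j₂ : ℕ), (ℓ₁ : ℕ) ∉ S ∧ (ℓ₂ : ℕ) ∉ S ∧ A₁.LiesOverPrime ℓ₁ ∧ A₂.LiesOverPrime ℓ₂ ∧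
      A₁.IsFrobeniusAt τ₁ ℓ₁ ∧ A₂.IsFrobeniusAt τ₂ ℓ₂ ∧
      (∀ x ∈ F, g x = (τ₁ ^ j₁) x) ∧ (∀ x ∈ F, (g * t) x = (τ₂ ^ j₂) x) ∧
      ∀ x, ∃ y, s31j1_V (m9e54_TL N ℓ₁) ℓ₁ j₁ x - s31j1_V (m9e54_TL N ℓ₂) ℓ₂ j₂ x
        = (p ^ n) • y := by
  classical
  have hm : 0 < p ^ n := pow_pos hp.pos n
  haveI : Module.Finite ℤ ↥(parabolicHoms ℤ (Gamma0 N) ℤ) :=
    Module.Finite.iff_fg.mpr (m9e54_fg N)
  obtain ⟨s, hs⟩ :=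
    (Module.Finite.fg_top : (⊤ : Submodule ℤ ↥(parabolicHoms ℤ (Gamma0 N) ℤ)).FG)
  set tset : Finset (JZero N) :=
    s.image (fun c => θ c) ∪ s.image (fun c => g⁻¹ • θ c) ∪ s.image (fun c => (g * t)⁻¹ • θ c)
    with htset
  obtain ⟨F₁, hF₁fin, hF₁⟩ := os25_open_stab_finset N tset
  obtain ⟨F₂, hF₂fin, hF₂⟩ := ru58_exists_level (p ^ n) hm
  haveI := hF₁fin
  haveI := hF₂fin
  obtain ⟨ℓ₁, A₁, τ₁, j₁, hℓ₁, hℓ₁S, hA₁, hτ₁, h₁⟩ := fp37_frob_pow_field (F ⊔ F₁ ⊔ F₂) g S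
  obtain ⟨ℓ₂, A₂, τ₂, j₂, hℓ₂, hℓ₂S, hA₂, hτ₂, h₂⟩ :=
    fp37_frob_pow_field (F ⊔ F₁ ⊔ F₂) (g * t) S
  have hℓ₁N : ¬ ℓ₁ ∣ N := fun h => hℓ₁S (hNS ℓ₁ hℓ₁ h)
  have hℓ₂N : ¬ ℓ₂ ∣ N := fun h => hℓ₂S (hNS ℓ₂ hℓ₂ h)
  have hℓ₁p : ℓ₁ ≠ p := fun h => hℓ₁S (h ▸ hpS)
  have hℓ₂p : ℓ₂ ≠ p := fun h => hℓ₂S (h ▸ hpS)
  have hF : F ≤ F ⊔ F₁ ⊔ F₂ := le_sup_of_le_left le_sup_left
  have hF₁le : F₁ ≤ F ⊔ F₁ ⊔ F₂ := le_sup_of_le_left le_sup_right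
  have hF₂le : F₂ ≤ F ⊔ F₁ ⊔ F₂ := le_sup_right
  refine ⟨⟨ℓ₁, hℓ₁, hℓ₁N⟩, ⟨ℓ₂, hℓ₂, hℓ₂N⟩, A₁, A₂, τ₁, τ₂, j₁, j₂, hℓ₁S, hℓ₂S, hA₁, hA₂, hτ₁,
    hτ₂, fun x hx => h₁ x (hF hx), fun x hx => h₂ x (hF hx), ?_⟩
  have hcop₁ : Nat.Coprime ℓ₁ (p ^ n) :=
    Nat.Coprime.pow_right n ((Nat.coprime_primes hℓ₁ hp).mpr hℓ₁p)
  have hcop₂ : Nat.Coprime ℓ₂ (p ^ n) :=
    Nat.Coprime.pow_right n ((Nat.coprime_primes hℓ₂ hp).mpr hℓ₂p)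
  have hcopq : Nat.Coprime q (p ^ n) :=
    Nat.Coprime.pow_right n ((Nat.coprime_primes hq hp).mpr hqp)
  have hmod : ℓ₁ ^ j₁ ≡ ℓ₂ ^ j₂ [MOD p ^ n] :=
    ru58_pow_modEq hm A₁ hA₁ τ₁ hτ₁ hcop₁ A₂ hA₂ τ₂ hτ₂ hcop₂ P hP t ht hcopq g j₁ j₂
      (fun z hz => h₁ z (hF₂le (hF₂ z hz))) (fun z hz => h₂ z (hF₂le (hF₂ z hz)))
  have hnp₁ : ¬ ℓ₁ ∣ p := fun h => hℓ₁p ((Nat.prime_dvd_prime_iff_eq hℓ₁ hp).mp h)
  have hnp₂ : ¬ ℓ₂ ∣ p := fun h => hℓ₂p ((Nat.prime_dvd_prime_iff_eq hℓ₂ hp).mp h)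
  have hnpq : ¬ q ∣ p := fun h => hqp ((Nat.prime_dvd_prime_iff_eq hq hp).mp h)
  have hf₁ : ∀ x : JZero N, (p ^ n) • x = 0 →
      τ₁ • τ₁ • x - heckeOperatorBar N ⟨ℓ₁, hℓ₁⟩ (τ₁ • x) + ℓ₁ • x = 0 :=
    fun x hx => fi69_frob N p ℓ₁ hℓ₁ hℓ₁N hnp₁ A₁ hA₁ τ₁ hτ₁ x n hx
  have hf₂ : ∀ x : JZero N, (p ^ n) • x = 0 →
      τ₂ • τ₂ • x - heckeOperatorBar N ⟨ℓ₂, hℓ₂⟩ (τ₂ • x) + ℓ₂ • x = 0 :=
    fun x hx => fi69_frob N p ℓ₂ hℓ₂ hℓ₂N hnp₂ A₂ hA₂ τ₂ hτ₂ x n hx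
  have hin : ∀ x : JZero N, (p ^ n) • x = 0 → t • x = x :=
    fun x hx => fi69_inertia N p q hq hqN hnpq P hP t ht x n hx
  have stab : ∀ x ∈ tset, ∀ σ : GQ, (∀ a ∈ F₁, σ a = a) → σ • x = x :=
    fun x hx σ hσ => hF₁ σ hσ x hx
  have key : ∀ c ∈ s, θ (s31j1_V (m9e54_TL N ⟨ℓ₁, hℓ₁, hℓ₁N⟩) ℓ₁ j₁ c
      - s31j1_V (m9e54_TL N ⟨ℓ₂, hℓ₂, hℓ₂N⟩) ℓ₂ j₂ c) = 0 := by
    intro c hc
    have hx1 : θ c ∈ tset := by
      rw [htset]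
      exact Finset.mem_union_left _ (Finset.mem_union_left _ (Finset.mem_image_of_mem _ hc))
    have hx2 : g⁻¹ • θ c ∈ tset := by
      rw [htset]
      exact Finset.mem_union_left _ (Finset.mem_union_right _
        (Finset.mem_image_of_mem (fun c => g⁻¹ • θ c) hc))
    have hx3 : (g * t)⁻¹ • θ c ∈ tset := by
      rw [htset]
      exact Finset.mem_union_right _ (Finset.mem_image_of_mem (fun c => (g * t)⁻¹ • θ c) hc)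
    have a1 : g • θ c = τ₁ ^ j₁ • θ c :=
      s31j1_smul_eq_of_agree (J := JZero N) F₁ (θ c) (stab _ hx1) g (τ₁ ^ j₁)
        (fun a ha => h₁ a (hF₁le ha))
    have a1' : g • (g⁻¹ • θ c) = τ₁ ^ j₁ • (g⁻¹ • θ c) :=
      s31j1_smul_eq_of_agree (J := JZero N) F₁ (g⁻¹ • θ c) (stab _ hx2) g (τ₁ ^ j₁)
        (fun a ha => h₁ a (hF₁le ha))
    have b1 : g⁻¹ • θ c = (τ₁ ^ j₁)⁻¹ • θ c := by
      rw [smul_inv_smul] at a1'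
      exact eq_inv_smul_iff.mpr a1'.symm
    have a2 : (g * t) • θ c = τ₂ ^ j₂ • θ c :=
      s31j1_smul_eq_of_agree (J := JZero N) F₁ (θ c) (stab _ hx1) (g * t) (τ₂ ^ j₂)
        (fun a ha => h₂ a (hF₁le ha))
    have a2' : (g * t) • ((g * t)⁻¹ • θ c) = τ₂ ^ j₂ • ((g * t)⁻¹ • θ c) :=
      s31j1_smul_eq_of_agree (J := JZero N) F₁ ((g * t)⁻¹ • θ c) (stab _ hx3) (g * t) (τ₂ ^ j₂)
        (fun a ha => h₂ a (hF₁le ha))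
    have b2 : (g * t)⁻¹ • θ c = (τ₂ ^ j₂)⁻¹ • θ c := by
      rw [smul_inv_smul] at a2'
      exact eq_inv_smul_iff.mpr a2'.symm
    exact s31j1_theta_delta θ (p ^ n) (m9e54_TL N ⟨ℓ₁, hℓ₁, hℓ₁N⟩) (m9e54_TL N ⟨ℓ₂, hℓ₂, hℓ₂N⟩)
      (heckeOperatorBar N ⟨ℓ₁, hℓ₁⟩) (heckeOperatorBar N ⟨ℓ₂, hℓ₂⟩)
      (hhec ⟨ℓ₁, hℓ₁, hℓ₁N⟩ hℓ₁p) (hhec ⟨ℓ₂, hℓ₂, hℓ₂N⟩ hℓ₂p) τ₁ τ₂ g t ℓ₁ ℓ₂ j₁ j₂
      hf₁ hf₂ hin hmod c (htors c) a1 b1 a2 b2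
  have hΦ : θ.toIntLinearMap ∘ₗ (s31j1_V (m9e54_TL N ⟨ℓ₁, hℓ₁, hℓ₁N⟩) ℓ₁ j₁
      - s31j1_V (m9e54_TL N ⟨ℓ₂, hℓ₂, hℓ₂N⟩) ℓ₂ j₂) = 0 := by
    refine LinearMap.ext_on hs (fun c hc => ?_)
    rw [LinearMap.comp_apply, LinearMap.sub_apply, LinearMap.zero_apply]
    exact key c hc
  intro x
  refine hker _ ?_
  have h3 := LinearMap.congr_fun hΦ x
  rw [LinearMap.comp_apply, LinearMap.sub_apply, LinearMap.zero_apply] at h3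
  exact h3

end Concrete

end Fermat.Agent.S31
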