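import Fermat.Agent.S31.JacSide1
import Fermat.Agent.S31.Lucas60
import Fermat.Agent.S31.HeckeSat42
import Fermat.Agent.S42.ThetaClosedZ31

/-!
# S31 rider, row E6-J (helper1): the Jacobian side, hypothesis-free

`JacSide1.s31j1_delta` with its inputs discharged:

* `s31j1_V_eq_aeval` : the Lucas operators of `JacSide1` are the Lucas polynomials of `Lucas60`
  evaluated at the operator.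
* `s31j1_delta_closed` : (A) `= thz31_closed_I_Theta_Z N (p ^ n)` plugged into `s31j1_delta`: for
  `g ∈ G_ℚ`, `t` in an inertia group at `q ∤ N p`, a number field `F`, a finite set `S ∋ p` of
  primes containing the primes of `N` and every `n`: Frobenius elements `τ₁` at `ℓ₁ ∉ S`, `τ₂` at
  `ℓ₂ ∉ S` with `g = τ₁ ^ j₁`, `g t = τ₂ ^ j₂` on `F` and
  `V_{j₁}(T_{ℓ₁}, ℓ₁) - V_{j₂}(T_{ℓ₂}, ℓ₂) ∈ p ^ n End(L)` on `L = Hom_par(Γ₀(N), ℤ)`.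
* `s31j1_hecke_congr` : the same in the Hecke algebra `𝕋 = CuspForm.heckeAlgebra N 2 S`, through
  the saturation (B) `= hs42_sat_act`:
  `V_{j₁}(T_{ℓ₁}, ℓ₁) - V_{j₂}(T_{ℓ₂}, ℓ₂) ∈ p ^ k 𝕋` for every `k`.
-/

set_option autoImplicit false
set_option linter.style.haveILetI false

namespace Fermat.Agent.S31

open ModularCurve ModularCurve.Period CongruenceSubgroup Fermat.Agent.S42 Polynomial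

local notation "Qb" => AlgebraicClosure ℚ
local notation "GQ" => AlgebraicClosure ℚ ≃ₐ[ℚ] AlgebraicClosure ℚ

/-- The Lucas operators are the Lucas polynomials evaluated at the operator. -/
theorem s31j1_V_eq_aeval {M : Type*} [AddCommGroup M] (T : Module.End ℤ M) (d : ℕ) (j : ℕ) :
    s31j1_V T d j = aeval T (s31e60_lucV (d : ℤ) j) := by
  induction j using Nat.twoStepInduction with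
  | zero =>
    rw [s31j1_V_zero, s31e60_lucV_zero,
      show (2 : Polynomial ℤ) = 1 + 1 from one_add_one_eq_two.symm, map_add, map_one, two_smul]
  | one => rw [s31j1_V_one, s31e60_lucV_one, aeval_X]
  | more j ih0 ih1 =>
    rw [s31j1_V_succ_succ, s31e60_aeval_lucV_succ_succ, ih0, ih1, zsmul_eq_mul]

section Concrete

variable (N : ℕ) [NeZero N]

/-- `hl42_TL` and `m9e54_TL` are the same operator. -/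
theorem s31j1_TL_eq (ℓ : {ℓ : ℕ // ℓ.Prime ∧ ¬ ℓ ∣ N}) : m9e54_TL N ℓ = hl42_TL N ℓ :=
  LinearMap.ext fun _ => rfl

/-- **The Jacobian side of Claim A, hypothesis-free.** -/
theorem s31j1_delta_closed {p : ℕ} (hp : p.Prime) (n : ℕ)
    {q : ℕ} (hq : q.Prime) (hqN : ¬ q ∣ N) (hqp : q ≠ p)
    (P : ValuationSubring Qb) (hP : P.LiesOverPrime q) (t : GQ)
    (ht : t ∈ P.inertiaSubgroupIn ℚ)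
    (g : GQ) (F : IntermediateField ℚ Qb) [FiniteDimensional ℚ F] (S : Finset ℕ) (hpS : p ∈ S)
    (hNS : ∀ r : ℕ, r.Prime → r ∣ N → r ∈ S) :
    ∃ (ℓ₁ ℓ₂ : ℕ) (A₁ A₂ : ValuationSubring Qb) (τ₁ τ₂ : GQ) (j₁ j₂ : ℕ),
      ℓ₁.Prime ∧ ℓ₂.Prime ∧ ¬ ℓ₁ ∣ N ∧ ¬ ℓ₂ ∣ N ∧ ℓ₁ ∉ S ∧ ℓ₂ ∉ S ∧
      A₁.LiesOverPrime ℓ₁ ∧ A₂.LiesOverPrime ℓ₂ ∧
      A₁.IsFrobeniusAt τ₁ ℓ₁ ∧ A₂.IsFrobeniusAt τ₂ ℓ₂ ∧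
      (∀ x ∈ F, g x = (τ₁ ^ j₁) x) ∧ (∀ x ∈ F, (g * t) x = (τ₂ ^ j₂) x) ∧
      ∀ x, ∃ y, (aeval (hl42_TL N ℓ₁) (s31e60_lucV (ℓ₁ : ℤ) j₁)
        - aeval (hl42_TL N ℓ₂) (s31e60_lucV (ℓ₂ : ℤ) j₂)) x = ((p : ℤ) ^ n) • y := by
  haveI : NeZero (p ^ n) := ⟨pow_ne_zero n hp.ne_zero⟩
  obtain ⟨Θ, h1, h2, h3⟩ := thz31_closed_I_Theta_Z N (p ^ n)
  have htors : ∀ x, (p ^ n) • Θ x = 0 := by
    intro x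
    have := h1 x
    rwa [natCast_zsmul] at this
  have hhec : ∀ ℓ : {ℓ : ℕ // ℓ.Prime ∧ ¬ ℓ ∣ N}, (ℓ : ℕ) ≠ p → ∀ x,
      heckeOperatorBar N ⟨ℓ, ℓ.2.1⟩ (Θ x) = Θ (m9e54_TL N ℓ x) := by
    intro ℓ hne x
    have hnd : ¬ (ℓ : ℕ) ∣ N * p ^ n := fun h =>
      (ℓ.2.1.dvd_mul.mp h).elim ℓ.2.2
        (fun h' => hne ((Nat.prime_dvd_prime_iff_eq ℓ.2.1 hp).mp (ℓ.2.1.dvd_of_dvd_pow h')))
    obtain ⟨hχ, e⟩ := h3 ⟨ℓ, ℓ.2.1⟩ hnd x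
    exact e
  obtain ⟨ℓ₁, ℓ₂, A₁, A₂, τ₁, τ₂, j₁, j₂, hℓ₁S, hℓ₂S, hA₁, hA₂, hτ₁, hτ₂, hg₁, hg₂, hdiv⟩ :=
    s31j1_delta N hp n Θ htors h2 hhec hq hqN hqp P hP t ht g F S hpS hNS
  refine ⟨ℓ₁, ℓ₂, A₁, A₂, τ₁, τ₂, j₁, j₂, ℓ₁.2.1, ℓ₂.2.1, ℓ₁.2.2, ℓ₂.2.2, hℓ₁S, hℓ₂S, hA₁, hA₂,
    hτ₁, hτ₂, hg₁, hg₂, fun x => ?_⟩
  obtain ⟨y, hy⟩ := hdiv x
  refine ⟨y, ?_⟩
  rw [LinearMap.sub_apply, ← s31j1_TL_eq N ℓ₁, ← s31j1_TL_eq N ℓ₂, ← s31j1_V_eq_aeval,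
    ← s31j1_V_eq_aeval, hy, ← Nat.cast_pow, natCast_zsmul]

/-- **The Hecke-algebra congruence behind S31.**  For `S ∋ p` containing the primes of `N`,
`q ∉ S`, `t` in an inertia group at `q`, `g ∈ G_ℚ`, a number field `F` and every `k`: there are
Frobenius elements `τ₁` at `ℓ₁ ∉ S`, `τ₂` at `ℓ₂ ∉ S` with `g = τ₁ ^ j₁` and `g t = τ₂ ^ j₂` on
`F`, and `V_{j₁}(T_{ℓ₁}, ℓ₁) - V_{j₂}(T_{ℓ₂}, ℓ₂) ∈ p ^ k 𝕋`. -/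
theorem s31j1_hecke_congr (S : Finset ℕ) {p : ℕ} (hp : p.Prime) (hpS : p ∈ S)
    (hNS : ∀ r : ℕ, r.Prime → r ∣ N → r ∈ S) (k : ℕ)
    {q : ℕ} (hq : q.Prime) (hqS : q ∉ S)
    (P : ValuationSubring Qb) (hP : P.LiesOverPrime q) (t : GQ)
    (ht : t ∈ P.inertiaSubgroupIn ℚ)
    (g : GQ) (F : IntermediateField ℚ Qb) [FiniteDimensional ℚ F] :
    ∃ (ℓ₁ ℓ₂ : ℕ) (hℓ₁ : ℓ₁.Prime) (hℓ₂ : ℓ₂.Prime) (hℓ₁N : ¬ ℓ₁ ∣ N) (hℓ₂N : ¬ ℓ₂ ∣ N)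
      (hℓ₁S : ℓ₁ ∉ (S : Set ℕ)) (hℓ₂S : ℓ₂ ∉ (S : Set ℕ))
      (A₁ A₂ : ValuationSubring Qb) (τ₁ τ₂ : GQ) (j₁ j₂ : ℕ),
      A₁.LiesOverPrime ℓ₁ ∧ A₂.LiesOverPrime ℓ₂ ∧
      A₁.IsFrobeniusAt τ₁ ℓ₁ ∧ A₂.IsFrobeniusAt τ₂ ℓ₂ ∧
      (∀ x ∈ F, g x = (τ₁ ^ j₁) x) ∧ (∀ x ∈ F, (g * t) x = (τ₂ ^ j₂) x) ∧
      ∃ t' : CuspForm.heckeAlgebra N 2 (S : Set ℕ),
        aeval (CuspForm.heckeAlgebra.T hℓ₁ hℓ₁N hℓ₁S) (s31e60_lucV (ℓ₁ : ℤ) j₁)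
          - aeval (CuspForm.heckeAlgebra.T hℓ₂ hℓ₂N hℓ₂S) (s31e60_lucV (ℓ₂ : ℤ) j₂)
          = ((p : ℤ) ^ k) • t' := by
  obtain ⟨c, hc⟩ := hs42_sat_act N (S : Set ℕ) (p : ℤ) (by exact_mod_cast hp.ne_zero)
  have hqN : ¬ q ∣ N := fun h => hqS (hNS q hq h)
  have hqp : q ≠ p := fun h => hqS (h ▸ hpS)
  obtain ⟨ℓ₁, ℓ₂, A₁, A₂, τ₁, τ₂, j₁, j₂, hℓ₁, hℓ₂, hℓ₁N, hℓ₂N, hℓ₁S, hℓ₂S, hA₁, hA₂, hτ₁, hτ₂,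
    hg₁, hg₂, hdiv⟩ := s31j1_delta_closed N hp (k + c) hq hqN hqp P hP t ht g F S hpS hNS
  have hℓ₁S' : ℓ₁ ∉ (S : Set ℕ) := fun h => hℓ₁S (Finset.mem_coe.mp h)
  have hℓ₂S' : ℓ₂ ∉ (S : Set ℕ) := fun h => hℓ₂S (Finset.mem_coe.mp h)
  refine ⟨ℓ₁, ℓ₂, hℓ₁, hℓ₂, hℓ₁N, hℓ₂N, hℓ₁S', hℓ₂S', A₁, A₂, τ₁, τ₂, j₁, j₂, hA₁, hA₂, hτ₁,
    hτ₂, hg₁, hg₂, ?_⟩
  refine hc k _ (fun x => ?_)
  obtain ⟨y, hy⟩ := hdiv x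
  refine ⟨y, ?_⟩
  rw [map_sub, s31e60_map_aeval_lucV, s31e60_map_aeval_lucV, hl42_act_T, hl42_act_T]
  exact hy

end Concrete

end Fermat.Agent.S31
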