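import Fermat.Agent.S42.ThetaAbs70

/-!
# S31 / S30 riders, row TZ (helper64): the abstract Kummer map at an ARBITRARY modulus `n`,
and its integral form

`ThetaAbs70` (helper70) builds the Kummer map `Θ : Par → Pic0 K F` for a prime modulus `p`
(`th70_exists_theta` carries `[Fact p.Prime]`, although its proof only uses `p ≠ 0`; all the other
`th70_*` lemmas are already stated for an arbitrary modulus).  This file adds, without touching
anything:

* `tz64_exists_theta` : the same statement for an arbitrary modulus `n` with `[NeZero n]`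
  (the proof of `th70_exists_theta`, verbatim);
* `tz64_red n` : reduction mod `n` of integral characters, `Hom(Gam, ℤ) → Hom(Gam, ℤ/n)`;
* `tz64_exists_thetaZ` : the INTEGRAL form.  For a subgroup `L ≤ Hom(Gam, ℤ)` which is
  `n`-saturated, if every `χ ∈ L` has an admissible pair for `χ mod n`, there is an additive map
  `Θ : L → Pic0 K F` killed by `n`, with `Θ χ = 0 → χ ∈ n • L`, computed by ANY admissible pair
  for `χ mod n`.
-/

set_option autoImplicit false
set_option linter.unusedSectionVars false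
set_option linter.unusedVariables false
set_option linter.style.longLine false
set_option linter.style.haveILetI false

open AlgebraicCurve

namespace Fermat.Agent.S31

open Fermat.Agent.S42

section tz64_main

variable {K F : Type*} [Field K] [Field F] [Algebra K F]
variable {M : Type*} [Field M] {Gam : Type*} [Group Gam] [MulSemiringAction Gam M]

/-- **The abstract Kummer map at an arbitrary modulus `n ≠ 0`** (`th70_exists_theta` without
primality). -/
theorem tz64_exists_theta [HasPrincipalDivisors K F] (ev : F →+* M) (n : ℕ) [NeZero n]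
    (ζ : M) (hζ : IsPrimitiveRoot ζ n) (hζfix : ∀ g : Gam, g • ζ = ζ)
    (hfix : ∀ (g : Gam) (f : F), g • ev f = ev f)
    (hK2 : ∀ x : M, x ≠ 0 → (∀ g : Gam, g • x = x) → ∀ f : F, x ^ n = ev f →
      ∃ (w : F) (a : K), f = algebraMap K F a * w ^ n)
    (hconst : ∀ f : F, f ≠ 0 → (∀ v : Place K F, v.ord f = 0) → ∃ a : K, f = algebraMap K F a)
    (hroot : ∀ a : K, ∃ b : K, b ^ n = a)
    (Par : AddSubgroup (Additive Gam →+ ZMod n))
    (hex : ∀ χ ∈ Par, ∃ (h : M) (f : F), th70_Adm K ev n ζ χ h f) :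
    ∃ Θ : Par →+ Pic0 K F, Function.Injective Θ ∧ (∀ χ, (n : ℤ) • Θ χ = 0) ∧
      ∀ (χ : Par) (h : M) (f : F), th70_Adm K ev n ζ (χ : Additive Gam →+ ZMod n) h f →
        ∀ D : Divisor.degZero (K := K) (F := F), th70_IsDivOf n f (D : Divisor K F) →
          Θ χ = Pic0.mk D := by
  classical
  have hp : n ≠ 0 := NeZero.ne n
  have hζp : ζ ^ n = 1 := hζ.pow_eq_one
  have hζ0 : ζ ≠ 0 := hζ.ne_zero hp
  choose hh ff hA using fun χ : Par => hex χ.1 χ.2
  choose DD hDD hdeg using fun χ : Par =>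
    th70_exists_div (K := K) hp (hA χ).2.1 (hA χ).2.2.2.2
  let θ : Par → Pic0 K F := fun χ => Pic0.mk ⟨DD χ, hdeg χ⟩
  have heval : ∀ (χ : Par) (h : M) (f : F),
      th70_Adm K ev n ζ (χ : Additive Gam →+ ZMod n) h f →
        ∀ D : Divisor.degZero (K := K) (F := F), th70_IsDivOf n f (D : Divisor K F) →
          θ χ = Pic0.mk D := by
    intro χ h f H D hD
    exact th70_class_unique hp hζ0 hK2 H (hA χ) D ⟨DD χ, hdeg χ⟩ hD (hDD χ)
  have hadd : ∀ χ₁ χ₂ : Par, θ (χ₁ + χ₂) = θ χ₁ + θ χ₂ := by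
    intro χ₁ χ₂
    have H := th70_adm_mul (K := K) hζp (hA χ₁) (hA χ₂)
    have hD := th70_isDivOf_mul (hA χ₁).2.1 (hA χ₂).2.1 (hDD χ₁) (hDD χ₂)
    have := heval (χ₁ + χ₂) _ _ H (⟨DD χ₁, hdeg χ₁⟩ + ⟨DD χ₂, hdeg χ₂⟩) hD
    rw [this, Pic0.mk_add]
  refine ⟨AddMonoidHom.mk' θ hadd, ?_, ?_, heval⟩
  · -- injectivity
    rw [injective_iff_map_eq_zero]
    intro χ hχ
    have hχ' : Pic0.mk (⟨DD χ, hdeg χ⟩ : Divisor.degZero (K := K) (F := F)) = 0 := hχ
    unfold Pic0.mk at hχ'
    rw [QuotientAddGroup.eq_zero_iff, AddSubgroup.mem_addSubgroupOf] at hχ'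
    obtain ⟨w, hw, hwD⟩ := hχ'
    obtain ⟨a1, a2, a3, a4, a5⟩ := hA χ
    -- `f / w ^ n` has no zeros and poles
    have hwp : w ^ n ≠ 0 := pow_ne_zero _ hw
    have hord : ∀ v : Place K F, v.ord (ff χ / w ^ n) = 0 := by
      intro v
      rw [div_eq_mul_inv, v.ord_mul a2 (inv_ne_zero hwp), v.ord_inv, th70_ord_pow, ← hDD χ v]
      have := hwD v
      simp only at this
      rw [this]
      ring
    obtain ⟨a, ha⟩ := hconst _ (div_ne_zero a2 hwp) hord
    obtain ⟨b, hb⟩ := hroot a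
    have ha0 : a ≠ 0 := by
      rintro rfl
      rw [map_zero] at ha
      exact div_ne_zero a2 hwp ha
    have hb0 : b ≠ 0 := by
      rintro rfl
      rw [zero_pow hp] at hb
      exact ha0 hb.symm
    have hevb : ev (algebraMap K F b) ≠ 0 := by
      simpa using hb0
    have hevw : ev w ≠ 0 := by simpa using hw
    -- `y := h / (ev w * ev b)` is an `n`-th root of unity
    have hy : (hh χ / (ev w * ev (algebraMap K F b))) ^ n = 1 := by
      have hf : ff χ = algebraMap K F a * w ^ n := by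
        rw [← ha, div_mul_cancel₀ _ hwp]
      rw [div_pow, a4, hf, ← hb, map_mul, map_pow, map_pow, map_pow, mul_pow]
      have h1 : ev (algebraMap K F b) ^ n ≠ 0 := pow_ne_zero _ hevb
      have h2 : ev w ^ n ≠ 0 := pow_ne_zero _ hevw
      field_simp
    obtain ⟨i, -, hi⟩ := hζ.eq_pow_of_pow_eq_one hy
    have hhval : hh χ = ζ ^ i * (ev w * ev (algebraMap K F b)) := by
      rw [hi, div_mul_cancel₀ _ (mul_ne_zero hevw hevb)]
    have hinvh : ∀ g : Gam, g • hh χ = hh χ := by
      intro g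
      rw [hhval, smul_mul', smul_mul', smul_pow', hζfix, hfix, hfix]
    -- hence the character is trivial
    have hχ0 : (χ : Additive Gam →+ ZMod n) = 0 := by
      refine DFunLike.ext _ _ fun g => ?_
      have h1 := a3 (Additive.toMul g)
      rw [ofMul_toMul] at h1
      rw [hinvh] at h1
      have h2 : ζ ^ ((χ : Additive Gam →+ ZMod n) g).val = 1 := by
        have h3 : (ζ ^ ((χ : Additive Gam →+ ZMod n) g).val - 1) * hh χ = 0 := by
          rw [sub_mul, one_mul]
          exact sub_eq_zero.mpr h1.symm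
        rcases mul_eq_zero.mp h3 with h4 | h4
        · exact sub_eq_zero.mp h4
        · exact absurd h4 a1
      have h5 := (hζ.pow_eq_one_iff_dvd _).mp h2
      have h6 : ((χ : Additive Gam →+ ZMod n) g).val = 0 :=
        Nat.eq_zero_of_dvd_of_lt h5 (ZMod.val_lt _)
      rw [AddMonoidHom.zero_apply]
      exact (ZMod.val_eq_zero _).mp h6
    exact Subtype.ext hχ0
  · -- `n`-torsion
    intro χ
    show (n : ℤ) • θ χ = 0
    show (n : ℤ) • Pic0.mk (⟨DD χ, hdeg χ⟩ : Divisor.degZero (K := K) (F := F)) = 0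
    unfold Pic0.mk
    rw [← QuotientAddGroup.mk_zsmul, QuotientAddGroup.eq_zero_iff, AddSubgroup.mem_addSubgroupOf]
    refine ⟨ff χ, (hA χ).2.1, fun v => ?_⟩
    have := hDD χ v
    simpa using this

end tz64_main

section tz64_red

variable {Gam : Type*} [Group Gam]

/-- Reduction mod `n` of integral characters. -/
def tz64_red (Gam : Type*) [Group Gam] (n : ℕ) :
    (Additive Gam →+ ℤ) →+ (Additive Gam →+ ZMod n) where
  toFun χ := (Int.castAddHom (ZMod n)).comp χ
  map_zero' := by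
    ext g
    simp
  map_add' χ ψ := by
    ext g
    simp

@[simp]
theorem tz64_red_apply (n : ℕ) (χ : Additive Gam →+ ℤ) (g : Additive Gam) :
    tz64_red Gam n χ g = ((χ g : ℤ) : ZMod n) := rfl

theorem tz64_red_eq_comp (n : ℕ) (χ : Additive Gam →+ ℤ) :
    tz64_red Gam n χ = (Int.castAddHom (ZMod n)).comp χ := rfl

/-- A character which vanishes mod `n` is `n` times a character. -/
theorem tz64_exists_of_red_eq_zero {n : ℕ} (hn : n ≠ 0) (χ : Additive Gam →+ ℤ)
    (h : tz64_red Gam n χ = 0) : ∃ χ' : Additive Gam →+ ℤ, χ = n • χ' := by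
  have hdvd : ∀ g : Additive Gam, (n : ℤ) ∣ χ g := by
    intro g
    have h1 : ((χ g : ℤ) : ZMod n) = 0 := by
      have := congrArg (fun ψ : Additive Gam →+ ZMod n => ψ g) h
      simpa using this
    exact (ZMod.intCast_zmod_eq_zero_iff_dvd _ _).mp h1
  have hn' : (n : ℤ) ≠ 0 := by exact_mod_cast hn
  refine ⟨{ toFun := fun g => χ g / (n : ℤ), map_zero' := by simp, map_add' := ?_ }, ?_⟩
  · intro g g'
    rw [map_add]
    exact Int.add_ediv_of_dvd_left (hdvd g)
  · ext g
    show χ g = (n • _ : Additive Gam →+ ℤ) g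
    rw [AddMonoidHom.smul_apply]
    show χ g = n • (χ g / (n : ℤ))
    rw [nsmul_eq_mul, Int.mul_ediv_cancel' (hdvd g)]

end tz64_red

section tz64_integral

variable {K F : Type*} [Field K] [Field F] [Algebra K F]
variable {M : Type*} [Field M] {Gam : Type*} [Group Gam] [MulSemiringAction Gam M]

/-- **The integral Kummer map at modulus `n`.**  `L ≤ Hom(Gam, ℤ)` an `n`-saturated subgroup all
of whose elements have admissible pairs mod `n`.  Then there is an additive `Θ : L → Pic0 K F`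
killed by `n`, whose kernel is `n • L`, and which is computed by any admissible pair. -/
theorem tz64_exists_thetaZ [HasPrincipalDivisors K F] (ev : F →+* M) (n : ℕ) [NeZero n]
    (ζ : M) (hζ : IsPrimitiveRoot ζ n) (hζfix : ∀ g : Gam, g • ζ = ζ)
    (hfix : ∀ (g : Gam) (f : F), g • ev f = ev f)
    (hK2 : ∀ x : M, x ≠ 0 → (∀ g : Gam, g • x = x) → ∀ f : F, x ^ n = ev f →
      ∃ (w : F) (a : K), f = algebraMap K F a * w ^ n)
    (hconst : ∀ f : F, f ≠ 0 → (∀ v : Place K F, v.ord f = 0) → ∃ a : K, f = algebraMap K F a)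
    (hroot : ∀ a : K, ∃ b : K, b ^ n = a)
    (L : AddSubgroup (Additive Gam →+ ℤ))
    (hsat : ∀ χ' : Additive Gam →+ ℤ, n • χ' ∈ L → χ' ∈ L)
    (hex : ∀ χ ∈ L, ∃ (h : M) (f : F), th70_Adm K ev n ζ (tz64_red Gam n χ) h f) :
    ∃ Θ : L →+ Pic0 K F, (∀ χ, (n : ℤ) • Θ χ = 0) ∧
      (∀ χ : L, Θ χ = 0 → ∃ χ' : L, χ = n • χ') ∧
      ∀ (χ : L) (h : M) (f : F),
        th70_Adm K ev n ζ (tz64_red Gam n (χ : Additive Gam →+ ℤ)) h f →
        ∀ D : Divisor.degZero (K := K) (F := F), th70_IsDivOf n f (D : Divisor K F) →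
          Θ χ = Pic0.mk D := by
  have hex' : ∀ ψ ∈ L.map (tz64_red Gam n), ∃ (h : M) (f : F), th70_Adm K ev n ζ ψ h f := by
    rintro ψ ⟨χ, hχ, rfl⟩
    exact hex χ hχ
  obtain ⟨Θ, hinj, htors, heval⟩ :=
    tz64_exists_theta (K := K) ev n ζ hζ hζfix hfix hK2 hconst hroot (L.map (tz64_red Gam n)) hex'
  -- the restriction of the reduction map to `L`
  let r : L →+ L.map (tz64_red Gam n) :=
    ((tz64_red Gam n).comp L.subtype).codRestrict (L.map (tz64_red Gam n))
      (fun χ => ⟨χ.1, χ.2, rfl⟩)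
  have hr : ∀ χ : L, ((r χ : L.map (tz64_red Gam n)) : Additive Gam →+ ZMod n)
      = tz64_red Gam n (χ : Additive Gam →+ ℤ) := fun χ => rfl
  refine ⟨Θ.comp r, fun χ => htors (r χ), ?_, ?_⟩
  · intro χ hχ
    have h0 : r χ = 0 := by
      apply hinj
      rw [map_zero]
      exact hχ
    have h1 : tz64_red Gam n (χ : Additive Gam →+ ℤ) = 0 := by
      rw [← hr χ, h0]
      rfl
    obtain ⟨χ', hχ'⟩ := tz64_exists_of_red_eq_zero (NeZero.ne n) _ h1
    have hmem : χ' ∈ L := hsat χ' (hχ' ▸ χ.2)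
    exact ⟨⟨χ', hmem⟩, Subtype.ext hχ'⟩
  · intro χ h f H D hD
    exact heval (r χ) h f H D hD

end tz64_integral

end Fermat.Agent.S31
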