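import Fermat.Agent.S31.ThetaZInst64
import Fermat.Agent.S42.ThetaFinal30

/-!
# S31 / S30 riders, row TZ (helper64): (I-Theta-Z) at modulus `n` from (X) and the Hecke seam

`tz64_I_Theta_Z_final` : the interface (I-Theta-Z) at an arbitrary modulus `n ≠ 0`, at the
evaluation `ev0 := ff79_ev0 φ N` (helper79), with every hypothesis that is on main discharged:

* `hfix` : `ff79_ev0_fix` (helper79);
* `hK2`  : `tf30_hK2` (helper30; (K2) over `ℂ` of helper41 + power descent T3 of helper3), which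
           is already stated for an arbitrary exponent;
* `hex`  : from (X) at modulus `n` for integral parabolic characters (`tz64_XZ`), through (DESC)
           (`di3_desc_hom`, helper3) and the glue `eex17_hex` (helper17), both modulus-general.

What remains are the modulus-`n` forms of the two analytic/Hecke inputs of the `Θ`-spine:

* `tz64_XZ N n`    : (X) for the reductions mod `n` of the INTEGRAL parabolic homomorphisms
                     (implied by `tf30_X N n`, see `tz64_XZ_of_X`);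
* `tz64_HKZ φ N n` : the Hecke seam for the same characters (implied by `tf30_HK φ N n`, see
                     `tz64_HKZ_of_HK`).
-/

set_option autoImplicit false
set_option linter.unusedSectionVars false
set_option linter.unusedVariables false
set_option linter.style.longLine false
set_option linter.style.haveILetI false

open CongruenceSubgroup ModularCurve ModularCurve.Period AlgebraicCurve UpperHalfPlane
open scoped MatrixGroups

namespace Fermat.Agent.S31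

open Fermat.Agent.S16 Fermat.Agent.S42 Fermat.Agent.S37

local notation "Qb" => AlgebraicClosure ℚ

section tz64_final

variable (φ : AlgebraicClosure ℚ →+* ℂ) (N : ℕ) [NeZero N] (n : ℕ)

/-- **(X) at modulus `n`, integral form**: every integral parabolic `χ` has a nonzero meromorphic
`h` with character `ζ_n ^ χ` whose `n`-th power is `ev u`, `u ∈ F_ℂ(N)` with all orders divisible
by `n`. -/
def tz64_XZ : Prop :=
  ∀ χ ∈ parabolicHoms ℤ (Gamma0 N) ℤ,
    ∃ (h : mer95_MER) (u : ↥(laurentBaseChange ℂ (modularFunctionFieldFull N))),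
      h ≠ 0 ∧ th70_IsChar n (th70_zeta n) (tz64_red (Gamma0 N) n χ) h ∧ ff79_evMer N u = h ^ n ∧
        ∀ v : Place ℂ ↥(laurentBaseChange ℂ (modularFunctionFieldFull N)), (n : ℤ) ∣ v.ord u

/-- **The Hecke seam at modulus `n`, integral form.** -/
def tz64_HKZ : Prop :=
  ∀ (ℓ : ℕ) [NeZero ℓ], ℓ.Prime → ¬ ℓ ∣ N * n → ∀ χ ∈ parabolicHoms ℤ (Gamma0 N) ℤ,
    ∀ (h : mer95_MER) (f : ↥(modularFunctionFieldBar N)), h ≠ 0 → f ≠ 0 →
      th70_IsChar n (th70_zeta n) (tz64_red (Gamma0 N) n χ) h → h ^ n = ff79_ev0 φ N f →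
        ∃ h' : mer95_MER, h' ≠ 0 ∧
          th70_IsChar n (th70_zeta n) (heckeHom N ℓ (ZMod n) (tz64_red (Gamma0 N) n χ)) h' ∧
          h' ^ n = ff79_ev0 φ N (hd63_heckeNorm N ℓ f)

/-- (X) for all parabolic characters mod `n` (helper30's `tf30_X`, read at `p := n`) implies the
integral form. -/
theorem tz64_XZ_of_X (h : tf30_X N n) : tz64_XZ N n :=
  fun χ hχ => h _ (tz64_red_parabolic N n χ hχ)

/-- The Hecke seam for all parabolic characters mod `n` (helper30's `tf30_HK`, read at `p := n`)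
implies the integral form. -/
theorem tz64_HKZ_of_HK (h : tf30_HK φ N n) : tz64_HKZ φ N n :=
  fun ℓ _ hℓ hℓN χ hχ => h ℓ hℓ hℓN _ (tz64_red_parabolic N n χ hχ)

/-- **(E-ex) at modulus `n`** for the reductions of integral parabolic characters, from (X). -/
theorem tz64_hexZ (hn : 0 < n) (hX : tz64_XZ N n) :
    ∀ χ ∈ parabolicHoms ℤ (Gamma0 N) ℤ,
      ∃ (h : mer95_MER) (f : ↥(modularFunctionFieldBar N)),
        th70_Adm Qb (ff79_ev0 φ N) n (th70_zeta n) (tz64_red (Gamma0 N) n χ) h f := by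
  intro χ hχ
  have key := eex17_hex (k0 := AlgebraicClosure ℚ) (K := ℂ) (ff79_bc φ N)
    (ff79_evMer N : ↥(laurentBaseChange ℂ (modularFunctionFieldFull N)) →+* mer95_MER)
    (ff79_ev0 φ N) (fun _ => rfl)
    (fun (γ : ↥(Gamma0 N)) f => ff79_evMer_smul N γ.1 γ.2 f) hn.ne'
    (fun c => IsAlgClosed.exists_pow_nat_eq c hn) (th70_zeta n)
    ((parabolicHoms ℤ (Gamma0 N) ℤ).toAddSubgroup.map (tz64_red (Gamma0 N) n))
    (by
      rintro ψ ⟨χ', hχ', rfl⟩
      exact hX χ' hχ')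
    (fun u hu hdiv => by
      obtain ⟨g, w, c, hg, hw, hc, -, h2, hP⟩ := di3_desc_hom φ N _ (di3_bar_eq N) _
        (di3_baseChange_eq ℂ N) (ff79_bc φ N) (fun g => rfl) hn hu hdiv
      exact ⟨g, w, c, hg, hw, hc, h2, hP⟩)
  exact key _ ⟨χ, hχ, rfl⟩

variable [NeZero n]

/-- **(I-Theta-Z) at modulus `n`, from (X) and the Hecke seam at modulus `n` only.** -/
theorem tz64_I_Theta_Z_final (hX : tz64_XZ N n) (hHK : tz64_HKZ φ N n) :
    ∃ Θ : ↥(parabolicHoms ℤ (Gamma0 N) ℤ) →+ JZero N,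
      (∀ χ, (n : ℤ) • Θ χ = 0) ∧
      (∀ χ, Θ χ = 0 → ∃ χ' : ↥(parabolicHoms ℤ (Gamma0 N) ℤ), χ = n • χ') ∧
      ∀ ℓ : Nat.Primes, ¬ (ℓ : ℕ) ∣ N * n → ∀ χ : ↥(parabolicHoms ℤ (Gamma0 N) ℤ),
        ∃ h : heckeHom N ℓ ℤ (χ : Additive (Gamma0 N) →+ ℤ) ∈ parabolicHoms ℤ (Gamma0 N) ℤ,
          heckeOperatorBar N ℓ (Θ χ) = Θ ⟨heckeHom N ℓ ℤ χ, h⟩ :=
  have hn : 0 < n := Nat.pos_of_ne_zero (NeZero.ne n)
  tz64_I_Theta_Z N n (ff79_ev0 φ N) (ff79_ev0_fix φ N) (tf30_hK2 φ N n hn)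
    (tz64_hexZ φ N n hn hX) hHK

/-- The same from helper30's `tf30_X` / `tf30_HK` read at `p := n`. -/
theorem tz64_I_Theta_Z_of_tf30 (hX : tf30_X N n) (hHK : tf30_HK φ N n) :
    ∃ Θ : ↥(parabolicHoms ℤ (Gamma0 N) ℤ) →+ JZero N,
      (∀ χ, (n : ℤ) • Θ χ = 0) ∧
      (∀ χ, Θ χ = 0 → ∃ χ' : ↥(parabolicHoms ℤ (Gamma0 N) ℤ), χ = n • χ') ∧
      ∀ ℓ : Nat.Primes, ¬ (ℓ : ℕ) ∣ N * n → ∀ χ : ↥(parabolicHoms ℤ (Gamma0 N) ℤ),
        ∃ h : heckeHom N ℓ ℤ (χ : Additive (Gamma0 N) →+ ℤ) ∈ parabolicHoms ℤ (Gamma0 N) ℤ,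
          heckeOperatorBar N ℓ (Θ χ) = Θ ⟨heckeHom N ℓ ℤ χ, h⟩ :=
  tz64_I_Theta_Z_final φ N n (tz64_XZ_of_X N n hX) (tz64_HKZ_of_HK φ N n hHK)

end tz64_final

end Fermat.Agent.S31
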