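import Fermat.Agent.S31.ThetaZAbs64
import Fermat.Agent.S42.ThetaInst70
import Fermat.Agent.S42.HeckePar88

/-!
# S31 / S30 riders, row TZ (helper64): the interface (I-Theta-Z) at an arbitrary modulus `n`

`tz64_I_Theta_Z` : for every level `N` and every modulus `n ≠ 0`, from the SAME binding
hypotheses as `th70_I_Theta` (helper70, `ThetaInst70`) read at modulus `n` and for the reductions
mod `n` of INTEGRAL parabolic homomorphisms, an additive map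

  `Θ : parabolicHoms ℤ (Gamma0 N) ℤ →+ JZero N`

with `n • Θ χ = 0`, `Θ χ = 0 → χ ∈ n • parabolicHoms`, and
`heckeOperatorBar N ℓ (Θ χ) = Θ (heckeHom N ℓ ℤ χ)` for the primes `ℓ ∤ N n`.

This is the interface (I-Theta-Z) of the S31 rider (helper1, helper60) and the level-`n` half of
(I-Θ∞) of the S30 rider (helper37, helper19).

The hypotheses, for `ζ_n = th70_zeta n = exp(2πi/n)`:

* `ev0`, `hfix` : the evaluation `F_ℚ̄(N) → mer95_MER` with `Γ₀(N)`-invariant image;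
* `hK2` : a `Γ₀(N)`-invariant `x ≠ 0` with `x ^ n = ev0 f` forces `f = a • w ^ n`;
* `hex` : every integral parabolic `χ` has an admissible pair for `χ mod n`;
* `hHK` : the Hecke step on roots at modulus `n`.
-/

set_option autoImplicit false
set_option linter.unusedSectionVars false
set_option linter.unusedVariables false
set_option linter.style.longLine false
set_option linter.style.haveILetI false

open CongruenceSubgroup ModularCurve ModularCurve.Period AlgebraicCurve UpperHalfPlane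
open scoped MatrixGroups

namespace Fermat.Agent.S31

open Fermat.Agent.S16 Fermat.Agent.S42 Fermat.Agent.S37

local notation "Qb" => AlgebraicClosure ℚ

/-- Reduction mod `n` commutes with the Hecke operators on `Hom(Γ₀(N), -)`. -/
theorem tz64_red_heckeHom (N ℓ n : ℕ) (χ : Additive (Gamma0 N) →+ ℤ) :
    heckeHom N ℓ (ZMod n) (tz64_red (Gamma0 N) n χ)
      = tz64_red (Gamma0 N) n (heckeHom N ℓ ℤ χ) :=
  heckeHom_comp N ℓ (Int.castAddHom (ZMod n)) χ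

/-- The integral parabolic homomorphisms are saturated. -/
theorem tz64_parabolic_saturated (N : ℕ) {n : ℕ} (hn : n ≠ 0) (χ' : Additive (Gamma0 N) →+ ℤ)
    (h : n • χ' ∈ parabolicHoms ℤ (Gamma0 N) ℤ) : χ' ∈ parabolicHoms ℤ (Gamma0 N) ℤ := by
  intro γ hγ
  have h1 : (n • χ') (Additive.ofMul γ) = 0 := h γ hγ
  rw [AddMonoidHom.smul_apply, nsmul_eq_mul] at h1
  have hn' : (n : ℤ) ≠ 0 := by exact_mod_cast hn
  exact (mul_eq_zero.mp h1).resolve_left hn'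

/-- The reduction mod `n` of an integral parabolic homomorphism is parabolic. -/
theorem tz64_red_parabolic (N n : ℕ) (χ : Additive (Gamma0 N) →+ ℤ)
    (h : χ ∈ parabolicHoms ℤ (Gamma0 N) ℤ) :
    tz64_red (Gamma0 N) n χ ∈ parabolicHoms (ZMod n) (Gamma0 N) (ZMod n) := by
  intro γ hγ
  show ((χ (Additive.ofMul γ) : ℤ) : ZMod n) = 0
  rw [h γ hγ, Int.cast_zero]

section tz64_inst

variable (N : ℕ) [NeZero N] (n : ℕ) [NeZero n]

/-- **(I-Theta-Z) at modulus `n`**, from the binding interfaces of the `Θ`-spine read at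
modulus `n`. -/
theorem tz64_I_Theta_Z
    (ev0 : ↥(modularFunctionFieldBar N) →+* mer95_MER)
    (hfix : ∀ (γ : ↥(Gamma0 N)) (f : ↥(modularFunctionFieldBar N)), γ • ev0 f = ev0 f)
    (hK2 : ∀ x : mer95_MER, x ≠ 0 → (∀ γ : ↥(Gamma0 N), γ • x = x) →
      ∀ f : ↥(modularFunctionFieldBar N), x ^ n = ev0 f →
        ∃ (w : ↥(modularFunctionFieldBar N)) (a : Qb),
          f = algebraMap Qb ↥(modularFunctionFieldBar N) a * w ^ n)
    (hex : ∀ χ ∈ parabolicHoms ℤ (Gamma0 N) ℤ,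
      ∃ (h : mer95_MER) (f : ↥(modularFunctionFieldBar N)),
        th70_Adm Qb ev0 n (th70_zeta n) (tz64_red (Gamma0 N) n χ) h f)
    (hHK : ∀ (ℓ : ℕ) [NeZero ℓ], ℓ.Prime → ¬ ℓ ∣ N * n →
      ∀ χ ∈ parabolicHoms ℤ (Gamma0 N) ℤ,
      ∀ (h : mer95_MER) (f : ↥(modularFunctionFieldBar N)), h ≠ 0 → f ≠ 0 →
        th70_IsChar n (th70_zeta n) (tz64_red (Gamma0 N) n χ) h → h ^ n = ev0 f →
          ∃ h' : mer95_MER, h' ≠ 0 ∧
            th70_IsChar n (th70_zeta n) (heckeHom N ℓ (ZMod n) (tz64_red (Gamma0 N) n χ)) h' ∧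
            h' ^ n = ev0 (hd63_heckeNorm N ℓ f)) :
    ∃ Θ : ↥(parabolicHoms ℤ (Gamma0 N) ℤ) →+ JZero N,
      (∀ χ, (n : ℤ) • Θ χ = 0) ∧
      (∀ χ, Θ χ = 0 → ∃ χ' : ↥(parabolicHoms ℤ (Gamma0 N) ℤ), χ = n • χ') ∧
      ∀ ℓ : Nat.Primes, ¬ (ℓ : ℕ) ∣ N * n → ∀ χ : ↥(parabolicHoms ℤ (Gamma0 N) ℤ),
        ∃ h : heckeHom N ℓ ℤ (χ : Additive (Gamma0 N) →+ ℤ) ∈ parabolicHoms ℤ (Gamma0 N) ℤ,
          heckeOperatorBar N ℓ (Θ χ) = Θ ⟨heckeHom N ℓ ℤ χ, h⟩ := by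
  have hn : n ≠ 0 := NeZero.ne n
  haveI := hi63_hasPrincipalDivisors_bar N
  have hroot : ∀ a : Qb, ∃ b : Qb, b ^ n = a :=
    fun a => IsAlgClosed.exists_pow_nat_eq a (Nat.pos_of_ne_zero hn)
  have hex' : ∀ χ ∈ (parabolicHoms ℤ (Gamma0 N) ℤ).toAddSubgroup,
      ∃ (h : mer95_MER) (f : ↥(modularFunctionFieldBar N)),
        th70_Adm Qb ev0 n (th70_zeta n) (tz64_red (Gamma0 N) n χ) h f := hex
  obtain ⟨Θ, htors, hker, heval⟩ := tz64_exists_thetaZ (K := Qb) ev0 n (th70_zeta n)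
    (th70_zeta_isPrimitiveRoot n hn) (th70_zeta_fix N n) hfix hK2 (th70_const N) hroot
    (parabolicHoms ℤ (Gamma0 N) ℤ).toAddSubgroup
    (fun χ' h => tz64_parabolic_saturated N hn χ' h) hex'
  refine ⟨Θ, htors, ?_, ?_⟩
  · intro χ hχ
    obtain ⟨χ', hχ'⟩ := hker χ hχ
    refine ⟨⟨χ'.1, χ'.2⟩, Subtype.ext ?_⟩
    have h1 := congrArg Subtype.val hχ'
    exact h1
  · intro ℓ hℓ χ
    have hℓN : ¬ (ℓ : ℕ) ∣ N := fun h => hℓ (Dvd.dvd.mul_right h n)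
    have hmem : heckeHom N ℓ ℤ (χ : Additive (Gamma0 N) →+ ℤ) ∈ parabolicHoms ℤ (Gamma0 N) ℤ :=
      hpg88_mem_parabolicHoms ℓ.2 hℓN ℤ χ.2
    refine ⟨hmem, ?_⟩
    obtain ⟨h, f, H⟩ := hex χ.1 χ.2
    have H' := H
    obtain ⟨h0, f0, hchar, hpow, hdvd⟩ := H'
    obtain ⟨D, hD, hdeg⟩ := th70_exists_div (K := Qb) hn f0 hdvd
    haveI : NeZero (ℓ : ℕ) := ⟨ℓ.2.ne_zero⟩
    obtain ⟨h', h'0, hchar', hpow'⟩ := hHK (ℓ : ℕ) ℓ.2 hℓ χ.1 χ.2 h f h0 f0 hchar hpow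
    obtain ⟨D', hTD, hD'⟩ :=
      hd63_heckeOperatorBar_kummer (N := N) (ℓ := (ℓ : ℕ)) ℓ.2 (n : ℤ) ⟨D, hdeg⟩ f f0 hD
    have e1 : Θ χ = Pic0.mk ⟨D, hdeg⟩ := heval χ h f H ⟨D, hdeg⟩ hD
    have hchar'' : th70_IsChar n (th70_zeta n)
        (tz64_red (Gamma0 N) n (heckeHom N ℓ ℤ (χ : Additive (Gamma0 N) →+ ℤ))) h' := by
      rw [← tz64_red_heckeHom]
      exact hchar'
    have e2 : Θ ⟨heckeHom N ℓ ℤ χ, hmem⟩ = Pic0.mk D' :=
      heval ⟨heckeHom N ℓ ℤ χ, hmem⟩ h' (hd63_heckeNorm N ℓ f)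
        ⟨h'0, hd63_heckeNorm_ne_zero N ℓ f0, hchar'', hpow', fun v => ⟨_, (hD' v).symm⟩⟩ D' hD'
    rw [e1, e2]
    exact hTD

end tz64_inst

end Fermat.Agent.S31
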